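import Fermat.Agent.R59.Raised.Ops
import Fermat.Agent.Raise.Vanish

/-!
S59, unit C2: degeneracy maps and corestriction commute with the Hecke operators; the composites
of `U_q`, degeneracy maps and corestriction at one prime.
-/

set_option autoImplicit false
set_option linter.unusedSectionVars false
set_option linter.style.haveILetI false

noncomputable section

namespace Fermat.Agent.R59.Raised

open CongruenceSubgroup
open Fermat.Agent.Raise (GHom ZMat zMat IsFam zMat_mul zMat_one det_zMat inv_mul_zMat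
  mul_right_cancel_det mul_left_cancel_det isFam_heckeRep trans_heckeRep LevData lZ lZ_mem
  mem_gamma0_iff_dvd)
open Fermat.Agent.GalRep (GoodIndex heckeRep transferHom det_heckeRep heckeRep_unique
  exists_eq_mul_heckeRep mul_heckeRep_none mul_heckeRep_some heckeRep_one_zero exists_transfer_step)
open scoped MatrixGroups

variable {A : Type} [AddCommGroup A]

/-- Two composites of transfers agree when the products are related class by class. -/
theorem trans_comm {G H H' K : Subgroup SL(2, ℤ)} {ι κ ι' κ' : Type} [Fintype ι] [Fintype κ]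
    [Fintype ι'] [Fintype κ'] {β : ι → ZMat} {α : κ → ZMat} {β' : ι' → ZMat} {α' : κ' → ZMat}
    (hβ : IsFam G H β) (hα : IsFam H K α) (hβ' : IsFam G H' β') (hα' : IsFam H' K α')
    (hcard : Fintype.card ι * Fintype.card κ = Fintype.card ι' * Fintype.card κ')
    (hinj : ∀ (x y : ι × κ) (g : G), β x.1 * α x.2 = zMat g * (β y.1 * α y.2) → x = y)
    (c : ℤ)
    (hrel : ∀ x : ι × κ, ∃ (y : ι' × κ') (g : G),
      β x.1 * α x.2 = c • (zMat g * (β' y.1 * α' y.2)))
    (z : GHom G A) : hα.trans (hβ.trans z) = hα'.trans (hβ'.trans z) := by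
  choose π h hπ using hrel
  have hπi : Function.Injective π := fun x y e => hinj x y (h x * (h y)⁻¹) (by
    rw [hπ x, hπ y, e, zMat_mul, mul_smul_comm, mul_assoc, ← mul_assoc (zMat (h y)⁻¹),
      inv_mul_zMat, one_mul])
  have hπb : Function.Bijective π :=
    (Fintype.bijective_iff_injective_and_card π).mpr ⟨hπi, by simpa using hcard⟩
  have hc := hβ.prod hα hinj
  have hc' := hβ'.prod hα' fun u v g e => by
    obtain ⟨x, rfl⟩ := hπb.2 u
    obtain ⟨y, rfl⟩ := hπb.2 v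
    refine congrArg π (hinj x y (h x * g * (h y)⁻¹) ?_)
    rw [hπ x, hπ y, e, zMat_mul, zMat_mul, mul_smul_comm]
    congr 1
    simp only [mul_assoc]
    rw [← mul_assoc (zMat (h y)⁻¹), inv_mul_zMat, one_mul]
  rw [hβ.trans_trans hα hc, hβ'.trans_trans hα' hc']
  exact hc.trans_congr hc' (by simpa using hcard) c π h hπ z

/-! ## Commutation with the degeneracy maps -/

/-- A transfer commutes with a degeneracy map when the representatives are moved into one another. -/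
theorem degH_trans {L L' d : ℕ} (hd : 0 < d) (h : L * d ∣ L') {ι : Type} [Fintype ι] {β : ι → ZMat}
    (hβ : IsFam (Gamma0 L) (Gamma0 L) β) (hβ' : IsFam (Gamma0 L') (Gamma0 L') β)
    (hrel : ∀ i, ∃ (j : ι) (g : Gamma0 L), β i * !![(d : ℤ), 0; 0, 1] =
      zMat g * (!![(d : ℤ), 0; 0, 1] * β j))
    (z : GHom (Gamma0 L) A) : degH d hd h (hβ.trans z) = hβ'.trans (degH d hd h z) := by
  refine trans_comm hβ (isFam_deg hd h) (isFam_deg hd h) hβ' (mul_comm _ _) ?_ 1 ?_ z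
  · rintro ⟨a, ⟨⟩⟩ ⟨b, ⟨⟩⟩ g e
    refine Prod.ext (hβ.inj a b g (mul_right_cancel_det ((isFam_deg hd h).det_ne ()) ?_)) rfl
    rw [mul_assoc]; exact e
  · rintro ⟨a, ⟨⟩⟩
    obtain ⟨j, g, e⟩ := hrel a
    exact ⟨((), j), g, by rw [one_smul]; exact e⟩

/-- `d` moves the residues modulo a prime not dividing it. -/
theorem exists_move {d ℓ : ℕ} (hℓ : ℓ.Prime) (hd : ¬ ℓ ∣ d) (b : ℕ) :
    ∃ (j : Fin ℓ) (k : ℤ), (b : ℤ) = (d : ℤ) * ((j : ℕ) : ℤ) + k * (ℓ : ℤ) := by
  haveI := Fact.mk hℓ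
  have hd0 : (d : ZMod ℓ) ≠ 0 := fun h => hd ((ZMod.natCast_eq_zero_iff _ _).mp h)
  set j : ZMod ℓ := (b : ZMod ℓ) / (d : ZMod ℓ)
  obtain ⟨k, hk⟩ : (ℓ : ℤ) ∣ (b : ℤ) - (d : ℤ) * ((j.val : ℕ) : ℤ) := by
    rw [← ZMod.intCast_zmod_eq_zero_iff_dvd]
    push_cast
    rw [ZMod.natCast_zmod_val, mul_div_cancel₀ _ hd0, sub_self]
  exact ⟨⟨j.val, ZMod.val_lt j⟩, k, by rw [mul_comm k]; linear_combination hk⟩

theorem heckeRep_mul_deg {L d ℓ : ℕ} (hℓ : ℓ.Prime) (hd : ¬ ℓ ∣ d) (b : Fin ℓ) :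
    ∃ (j : Fin ℓ) (g : Gamma0 L), heckeRep ℓ (some b) * !![(d : ℤ), 0; 0, 1] =
      zMat g * (!![(d : ℤ), 0; 0, 1] * heckeRep ℓ (some j)) := by
  obtain ⟨j, k, hk⟩ := exists_move hℓ hd b
  refine ⟨j, ⟨ModularGroup.T ^ k, mem_gamma0_iff_dvd.mpr (by simp [ModularGroup.coe_T_zpow])⟩, ?_⟩
  show _ = ((ModularGroup.T ^ k : SL(2, ℤ)) : ZMat) * _
  rw [ModularGroup.coe_T_zpow]
  simp [heckeRep, Matrix.mul_fin_two]
  linarith

/-- Degeneracy maps commute with the good Hecke operators. -/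
theorem degH_transfer {L L' d ℓ : ℕ} (hd : 0 < d) (h : L * d ∣ L') (hg : GoodIndex L ℓ)
    (hg' : GoodIndex L' ℓ) (z : GHom (Gamma0 L) A) :
    degH d hd h (transferHom hg z) = transferHom hg' (degH d hd h z) := by
  rw [← trans_heckeRep hg, ← trans_heckeRep hg']
  refine degH_trans hd h _ _ (fun i => ?_) z
  cases i with
  | none => exact ⟨none, 1, by rw [zMat_one, one_mul]; simp [heckeRep, Matrix.mul_fin_two, mul_comm]⟩
  | some b =>
    obtain ⟨j, g, e⟩ := heckeRep_mul_deg (L := L) hg.prime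
      (fun hℓd => hg'.not_dvd ((hℓd.trans (dvd_mul_left d L)).trans h)) b
    exact ⟨some j, g, e⟩

/-- Degeneracy maps commute with `U_r` for `r` prime to `d`. -/
theorem degH_uEnd {L L' d r : ℕ} (hd : 0 < d) (h : L * d ∣ L') (hr : r.Prime) (hrd : ¬ r ∣ d)
    (hrL : r ∣ L) (hrL' : r ∣ L') (z : GHom (Gamma0 L) A) :
    degH d hd h (uEnd hr hrL z) = uEnd hr hrL' (degH d hd h z) :=
  degH_trans hd h (isFam_uL hr hrL (dvd_mul_right L r) hrL)
    (isFam_uL hr hrL' (dvd_mul_right L' r) hrL')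
    (fun b => heckeRep_mul_deg hr hrd b) z

/-! ## Commutation with corestriction -/

/-- A transfer commutes with corestriction when it separates the classes modulo `Γ₀(L')`. -/
theorem corH_trans {L L' : ℕ} [NeZero L'] (hL : L ∣ L') {ι : Type} [Fintype ι] {β : ι → ZMat}
    (hβ : IsFam (Gamma0 L) (Gamma0 L) β) (hβ' : IsFam (Gamma0 L') (Gamma0 L') β)
    (hsep : ∀ (i j : ι) (γ : Gamma0 L) (h : Gamma0 L'), β i * zMat γ = zMat h * β j →
      (γ : SL(2, ℤ)) ∈ Gamma0 L')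
    (z : GHom (Gamma0 L') A) : corH hL (hβ'.trans z) = hβ.trans (corH hL z) := by
  letI := Fintype.ofFinite (Cosets L L')
  refine trans_comm hβ' (isFam_corH hL) (isFam_corH hL) hβ (mul_comm _ _) ?_ 1 ?_ z
  · intro x y g e
    have e' : β x.1 * zMat (corElt x.2 * (corElt y.2)⁻¹) = zMat g * β y.1 := by
      rw [zMat_mul, ← mul_assoc, show β x.1 * zMat (corElt x.2) = _ from e, ← mul_assoc,
        mul_assoc _ _ (zMat (corElt y.2)⁻¹), show corRep y.2 = zMat (corElt y.2) from rfl,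
        ← zMat_mul, mul_inv_cancel, zMat_one, mul_one]
    have h2 : x.2 = y.2 := corRep_inj (k := ⟨_, hsep _ _ _ _ e'⟩) (by
      show zMat (corElt x.2) = zMat (corElt x.2 * (corElt y.2)⁻¹) * zMat (corElt y.2)
      rw [← zMat_mul, inv_mul_cancel_right])
    rw [h2, mul_inv_cancel, zMat_one, mul_one] at e'
    exact Prod.ext (hβ'.inj _ _ g e') h2
  · intro x
    obtain ⟨j, g, e⟩ := hβ.step (corElt x.2) x.1
    obtain ⟨c, k, hk⟩ := exists_corRep hL g
    exact ⟨(c, j), k, by rw [one_smul, ← mul_assoc, ← hk]; exact e⟩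

/-- Corestriction commutes with the good Hecke operators. -/
theorem corH_transfer {L L' ℓ : ℕ} [NeZero L'] (hL : L ∣ L') (hg : GoodIndex L ℓ)
    (hg' : GoodIndex L' ℓ) (z : GHom (Gamma0 L') A) :
    corH hL (transferHom hg' z) = transferHom hg (corH hL z) := by
  rw [← trans_heckeRep hg, ← trans_heckeRep hg']
  refine corH_trans hL _ _ (fun i j γ h e => mem_gamma0_iff_dvd.mpr ?_) z
  have e10 := congrArg (fun X : ZMat => X 1 0) e
  simp only [Matrix.mul_apply, Fin.sum_univ_two, heckeRep_one_zero, zero_mul, zero_add,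
    mul_zero, add_zero] at e10
  have hdvd : (L' : ℤ) ∣ heckeRep ℓ i 1 1 * zMat γ 1 0 :=
    e10 ▸ (mem_gamma0_iff_dvd.mp h.2).mul_right _
  cases i with
  | none => simpa [heckeRep] using hdvd
  | some b =>
    refine (Nat.isCoprime_iff_coprime.mpr
      (hg'.prime.coprime_iff_not_dvd.mpr hg'.not_dvd).symm).dvd_of_dvd_mul_left ?_
    simpa [heckeRep] using hdvd

/-- Corestriction commutes with `U_r` for `r` prime to the quotient of the levels. -/
theorem corH_uEnd {L m r : ℕ} [NeZero L] [NeZero (L * m)] (hr : r.Prime) (hrm : ¬ r ∣ m)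
    (hrL : r ∣ L) (hrL' : r ∣ L * m) (z : GHom (Gamma0 (L * m)) A) :
    corH (dvd_mul_right L m) (uEnd hr hrL' z) = uEnd hr hrL (corH (dvd_mul_right L m) z) := by
  refine corH_trans _ (isFam_uL hr hrL (dvd_mul_right L r) hrL)
    (isFam_uL hr hrL' (dvd_mul_right _ r) hrL') (fun i j γ h e => mem_gamma0_iff_dvd.mpr ?_) z
  obtain ⟨s, hs⟩ := mem_gamma0_iff_dvd.mp γ.2
  obtain ⟨t, ht⟩ := mem_gamma0_iff_dvd.mp h.2
  have e10 := congrArg (fun X : ZMat => X 1 0) e
  simp [uRepL, heckeRep, Matrix.mul_apply, Fin.sum_univ_two, hs, ht] at e10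
  have hm : (m : ℤ) ∣ s := by
    refine (Nat.isCoprime_iff_coprime.mpr
      (hr.coprime_iff_not_dvd.mpr hrm).symm).dvd_of_dvd_mul_left (y := (r : ℤ)) ?_
    refine ⟨t, mul_left_cancel₀ (Int.natCast_ne_zero.mpr (NeZero.ne L)) ?_⟩
    linear_combination e10
  rw [hs, Nat.cast_mul]
  exact mul_dvd_mul_left _ hm

/-! ## `U_r` and the other operators -/

/-- Products of upper triangular representatives at two primes can be exchanged. -/
theorem upper_factor {M ℓ r : ℕ} (hℓ : ℓ.Prime) (hr : r.Prime) (hne : ℓ ≠ r)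
    (x : Option (Fin ℓ)) (y : Option (Fin r)) :
    ∃ (x' : Option (Fin ℓ)) (y' : Option (Fin r)) (g : Gamma0 M),
      heckeRep r y * heckeRep ℓ x = zMat g * (heckeRep ℓ x' * heckeRep r y') ∧
        (x'.isSome = x.isSome) ∧ (y'.isSome = y.isSome) := by
  obtain ⟨b, Z, hZ⟩ := exists_eq_mul_heckeRep hr (heckeRep r y * heckeRep ℓ x)
    ⟨ℓ, by simp only [Matrix.det_mul, det_heckeRep]⟩
  have hZdet : Z.det = ℓ := by
    have := congrArg Matrix.det hZ
    simp only [Matrix.det_mul, det_heckeRep] at this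
    exact mul_right_cancel₀ (Int.natCast_ne_zero.mpr hr.ne_zero) (by rw [← this, mul_comm])
  obtain ⟨a, X, hX⟩ := exists_eq_mul_heckeRep hℓ Z ⟨1, by rw [hZdet, mul_one]⟩
  have hXdet : X.det = 1 := by
    have := congrArg Matrix.det hX
    rw [Matrix.det_mul, det_heckeRep, hZdet] at this
    exact mul_right_cancel₀ (Int.natCast_ne_zero.mpr hℓ.ne_zero)
      (this.symm.trans (one_mul _).symm)
  rw [hX, mul_assoc] at hZ
  have e10 := congrArg (fun X : ZMat => X 1 0) hZ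
  have a1 : ∀ (n : ℕ), n.Prime → ∀ i, heckeRep n i 0 0 ≠ 0 := fun n hn i => by
    cases i <;> simp [heckeRep, hn.ne_zero]
  have h10 : X 1 0 = 0 := by
    simp [Matrix.mul_apply, Fin.sum_univ_two, heckeRep_one_zero, a1 ℓ hℓ a, a1 r hr b] at e10
    exact e10
  have e00 := congrArg (fun X : ZMat => X 0 0) hZ
  simp [Matrix.mul_apply, Fin.sum_univ_two, heckeRep_one_zero] at e00
  have hX00 : X 0 0 = 1 ∨ X 0 0 = -1 := Int.eq_one_or_neg_one_of_mul_eq_one (u := X 0 0)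
    (v := X 1 1) (by rwa [Matrix.det_fin_two, h10, mul_zero, sub_zero] at hXdet)
  have habs := congrArg Int.natAbs e00
  have hnat : ∀ (n : ℕ) (i : Option (Fin n)),
      (heckeRep n i 0 0).natAbs = if i.isSome then 1 else n := fun n i => by
    cases i <;> simp [heckeRep]
  rw [Int.natAbs_mul, Int.natAbs_mul, Int.natAbs_mul, hnat, hnat, hnat, hnat,
    show (X 0 0).natAbs = 1 by rcases hX00 with h | h <;> simp [h], one_mul] at habs
  have h1 := hℓ.two_le
  have h2 := hr.two_le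
  refine ⟨a, b, ⟨⟨X, hXdet⟩, mem_gamma0_iff_dvd.mpr (by simp [h10])⟩, hZ, ?_⟩
  revert habs
  rcases a with _ | a <;> rcases b with _ | b <;> rcases x with _ | x <;> rcases y with _ | y <;>
    simp
  all_goals first
    | omega
    | (intro habs; nlinarith)
    | skip

/-- `U_r` commutes with the good Hecke operators. -/
theorem uEnd_transfer {L ℓ r : ℕ} (hr : r.Prime) (hrL : r ∣ L) (hg : GoodIndex L ℓ)
    (z : GHom (Gamma0 L) A) : uEnd hr hrL (transferHom hg z) = transferHom hg (uEnd hr hrL z) := by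
  have hne : ℓ ≠ r := fun h => hg.not_dvd (h ▸ hrL)
  rw [← trans_heckeRep hg, ← trans_heckeRep hg]
  refine (trans_comm (isFam_uL hr hrL (dvd_mul_right L r) hrL) (isFam_heckeRep hg)
    (isFam_heckeRep hg) (isFam_uL hr hrL (dvd_mul_right L r) hrL) (mul_comm _ _) ?_ 1 ?_ z).symm
  · rintro ⟨b, i⟩ ⟨b', i'⟩ g e
    simp only [← mul_assoc, uRepL] at e
    have h1 : i = i' := heckeRep_unique hg.prime (by
      rw [det_heckeRep]
      exact fun h => hne ((Nat.prime_dvd_prime_iff_eq hg.prime hr).mp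
        (Int.natCast_dvd_natCast.mp h))) e
    rw [h1] at e
    exact Prod.ext ((isFam_uL hr hrL (dvd_mul_right L r) hrL).inj b b' g
      (mul_right_cancel_det ((isFam_heckeRep hg).det_ne i') e)) h1
  · rintro ⟨b, i⟩
    obtain ⟨i', y', g, e, -, hy'⟩ := upper_factor (M := L) hg.prime hr hne i (some b)
    obtain ⟨b', rfl⟩ := Option.isSome_iff_exists.mp (hy'.trans rfl)
    exact ⟨(i', b'), g, by rw [one_smul]; exact e⟩

/-- The operators `U_r` commute. -/
theorem uEnd_uEnd {L r s : ℕ} (hr : r.Prime) (hs : s.Prime) (hrL : r ∣ L) (hsL : s ∣ L)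
    (z : GHom (Gamma0 L) A) :
    uEnd hr hrL (uEnd hs hsL z) = uEnd hs hsL (uEnd hr hrL z) := by
  by_cases hrs : r = s
  · subst hrs; rfl
  refine trans_comm (isFam_uL hs hsL (dvd_mul_right L s) hsL) (isFam_uL hr hrL (dvd_mul_right L r) hrL)
    (isFam_uL hr hrL (dvd_mul_right L r) hrL) (isFam_uL hs hsL (dvd_mul_right L s) hsL)
    (mul_comm _ _) ?_ 1 ?_ z
  · rintro ⟨b, i⟩ ⟨b', i'⟩ g e
    simp only [← mul_assoc, uRepL] at e
    have h1 : (some i : Option (Fin r)) = some i' := heckeRep_unique hr (by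
      rw [det_heckeRep]
      exact fun h => hrs ((Nat.prime_dvd_prime_iff_eq hr hs).mp (Int.natCast_dvd_natCast.mp h))) e
    obtain rfl := Option.some_injective _ h1
    exact Prod.ext ((isFam_uL hs hsL (dvd_mul_right L s) hsL).inj b b' g
      (mul_right_cancel_det ((isFam_uL hr hrL (dvd_mul_right L r) hrL).det_ne i) e)) rfl
  · rintro ⟨b, i⟩
    obtain ⟨x', y', g, e, hx', hy'⟩ := upper_factor (M := L) hr hs hrs (some i) (some b)
    obtain ⟨i', rfl⟩ := Option.isSome_iff_exists.mp (hx'.trans rfl)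
    obtain ⟨b', rfl⟩ := Option.isSome_iff_exists.mp (hy'.trans rfl)
    exact ⟨(i', b'), g, by rw [one_smul]; exact e⟩

/-- `U_q` factors through the lower level. -/
theorem uEnd_eq_degH_uH {q M L : ℕ} (hq : q.Prime) (hqM : q ∣ M) (h : L ∣ M * q) (hqL : q ∣ L)
    (hML : M * 1 ∣ L) (z : GHom (Gamma0 L) A) :
    uEnd hq hqL z = degH 1 one_pos hML (uH hq hqM h hqL z) := by
  refine AddMonoidHom.ext fun t => ?_
  obtain ⟨γ, rfl⟩ := Additive.ofMul.surjective t
  rw [degH_one_apply, uEnd, uH, uH, IsFam.trans_apply, IsFam.trans_apply]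
  refine Finset.sum_congr rfl fun b _ => ?_
  rw [((isFam_uL hq hqM h hqL).unique
    (γ := ⟨γ, gamma0_anti ((mul_one M) ▸ hML) γ.2⟩)
    ((isFam_uL hq hqL (dvd_mul_right L q) hqL).spec γ b)).2]

/-- `U_q` of the lower level. -/
theorem uH_degH_one {q M L : ℕ} (hq : q.Prime) (hqM : q ∣ M) (h : L ∣ M * q) (hqL : q ∣ L)
    (hML : M * 1 ∣ L) (z : GHom (Gamma0 M) A) :
    uH hq hqM h hqL (degH 1 one_pos hML z) = uEnd hq hqM z := by
  refine AddMonoidHom.ext fun t => ?_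
  obtain ⟨γ, rfl⟩ := Additive.ofMul.surjective t
  rw [uEnd, uH, uH, IsFam.trans_apply, IsFam.trans_apply]
  refine Finset.sum_congr rfl fun b _ => ?_
  rw [degH_one_apply, ((isFam_uL hq hqM (dvd_mul_right M q) hqM).unique (γ := γ) (i := b)
    (g := ⟨(isFam_uL hq hqM h hqL).coef γ b, gamma0_anti ((mul_one M) ▸ hML)
      ((isFam_uL hq hqM h hqL).coef γ b).2⟩)
    (j := (isFam_uL hq hqM h hqL).idx γ b) ((isFam_uL hq hqM h hqL).spec γ b)).2]

/-- `U_q` removes one `q` from a degeneracy map. -/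
theorem uEnd_degH {L L' d q : ℕ} (hq : q.Prime) (hd : 0 < d) (hqL : q ∣ L')
    (h : L * (d * q) ∣ L') (h' : L * d ∣ L') (z : GHom (Gamma0 L) A) :
    uEnd hq hqL (degH (d * q) (Nat.mul_pos hd hq.pos) h z) = q • degH d hd h' z := by
  refine AddMonoidHom.ext fun t => ?_
  obtain ⟨γ, rfl⟩ := Additive.ofMul.surjective t
  have hu := isFam_uL hq hqL (dvd_mul_right L' q) hqL
  obtain ⟨i, g, hg⟩ := (isFam_deg hd h').step γ ()
  cases i
  let T : Gamma0 L := ⟨ModularGroup.T, mem_gamma0_iff_dvd.mpr (by simp [ModularGroup.coe_T])⟩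
  have hT : ∀ n : ℤ, zMat (T ^ n) = !![1, n; 0, 1] := fun n => by
    show (((T ^ n : Gamma0 L) : SL(2, ℤ)) : ZMat) = _
    rw [SubgroupClass.coe_zpow]
    exact ModularGroup.coe_T_zpow n
  have key : ∀ b : Fin q,
      !![((d * q : ℕ) : ℤ), 0; 0, 1] * zMat (hu.coef γ b) =
        zMat (T ^ ((d : ℤ) * ((b : ℕ) : ℤ)) * g * T ^ (-((d : ℤ) * ((hu.idx γ b : ℕ) : ℤ)))) *
          !![((d * q : ℕ) : ℤ), 0; 0, 1] := fun b => by
    have hD : ∀ k : Fin q, !![((d * q : ℕ) : ℤ), 0; 0, 1] * uRepL q k =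
        (q : ℤ) • (zMat (T ^ ((d : ℤ) * ((k : ℕ) : ℤ))) * !![(d : ℤ), 0; 0, 1]) := fun k => by
      rw [hT]
      simp [uRepL, heckeRep, Matrix.mul_fin_two]
      refine ⟨?_, ?_⟩ <;> ring
    refine mul_right_cancel_det (hu.det_ne (hu.idx γ b)) ?_
    rw [mul_assoc, ← hu.spec, ← mul_assoc, hD, smul_mul_assoc, mul_assoc,
      show !![(d : ℤ), 0; 0, 1] * zMat γ = zMat g * !![(d : ℤ), 0; 0, 1] from hg, mul_assoc, hD,
      mul_smul_comm]
    congr 1
    rw [← mul_assoc, ← mul_assoc, ← zMat_mul, ← zMat_mul, mul_assoc _ (T ^ _) (T ^ _), ← zpow_add,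
      neg_add_cancel, zpow_zero, mul_one]
  have hsum := hu.sum_idx γ (fun b => (d : ℤ) * ((b : ℕ) : ℤ))
  rw [uEnd, uH, IsFam.trans_apply,
    Finset.sum_congr rfl fun b _ => degH_apply_of_eq _ h z (key b),
    AddMonoidHom.smul_apply, degH_apply_of_eq hd h' z hg]
  simp only [ofMul_mul, ofMul_zpow, map_add, map_zsmul, Finset.sum_add_distrib, neg_smul,
    Finset.sum_neg_distrib, Finset.sum_const, Finset.card_univ, Fintype.card_fin]
  rw [← Finset.sum_smul, ← Finset.sum_smul, hsum]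
  abel

/-! ## Corestriction along an explicit transversal -/

section Transversal

variable {L L' : ℕ} {ι : Type} (e : ι → Gamma0 L)

theorem bijective_transversal
    (hinj : ∀ i j, ((e i * (e j)⁻¹ : Gamma0 L) : SL(2, ℤ)) ∈ Gamma0 L' → i = j)
    (hcov : ∀ g : Gamma0 L, ∃ i, ((g * (e i)⁻¹ : Gamma0 L) : SL(2, ℤ)) ∈ Gamma0 L') :
    Function.Bijective fun i => (((e i)⁻¹ : Gamma0 L) : Cosets L L') := by
  refine ⟨fun i j hij => hinj i j ?_, fun c => ?_⟩
  · have := QuotientGroup.eq.mp hij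
    rwa [inv_inv, Subgroup.mem_subgroupOf] at this
  · obtain ⟨g, rfl⟩ := QuotientGroup.mk_surjective c
    obtain ⟨i, hi⟩ := hcov g⁻¹
    refine ⟨i, QuotientGroup.eq.mpr (Subgroup.mem_subgroupOf.mpr ?_)⟩
    rw [inv_inv]
    have e' := inv_mem hi
    rwa [← Subgroup.coe_inv, mul_inv_rev, inv_inv, inv_inv] at e'

theorem card_cosets [Fintype ι]
    (hinj : ∀ i j, ((e i * (e j)⁻¹ : Gamma0 L) : SL(2, ℤ)) ∈ Gamma0 L' → i = j)
    (hcov : ∀ g : Gamma0 L, ∃ i, ((g * (e i)⁻¹ : Gamma0 L) : SL(2, ℤ)) ∈ Gamma0 L') :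
    Nat.card (Cosets L L') = Fintype.card ι := by
  rw [← Nat.card_eq_fintype_card]
  exact (Nat.card_congr (Equiv.ofBijective _ (bijective_transversal e hinj hcov))).symm

theorem isFam_transversal
    (hinj : ∀ i j, ((e i * (e j)⁻¹ : Gamma0 L) : SL(2, ℤ)) ∈ Gamma0 L' → i = j)
    (hcov : ∀ g : Gamma0 L, ∃ i, ((g * (e i)⁻¹ : Gamma0 L) : SL(2, ℤ)) ∈ Gamma0 L') :
    IsFam (Gamma0 L') (Gamma0 L) fun i => zMat (e i) where
  det_ne i := by rw [det_zMat]; exact one_ne_zero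
  inj i j k h := hinj i j (by
    have h' : zMat (e i * (e j)⁻¹) = zMat k := by
      rw [zMat_mul, show zMat (e i) = _ from h, mul_assoc, ← zMat_mul, mul_inv_cancel, zMat_one,
        mul_one]
    rw [show ((e i * (e j)⁻¹ : Gamma0 L) : SL(2, ℤ)) = (k : SL(2, ℤ)) from Subtype.ext h']
    exact k.2)
  step γ i := by
    obtain ⟨j, hj⟩ := hcov (e i * γ)
    refine ⟨j, ⟨_, hj⟩, ?_⟩
    show zMat (e i) * zMat γ = zMat (e i * γ * (e j)⁻¹) * zMat (e j)
    rw [← zMat_mul, ← zMat_mul, inv_mul_cancel_right]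

/-- Corestriction through any transversal. -/
theorem corH_eq_trans [NeZero L'] (hL : L ∣ L') [Fintype ι]
    (hinj : ∀ i j, ((e i * (e j)⁻¹ : Gamma0 L) : SL(2, ℤ)) ∈ Gamma0 L' → i = j)
    (hcov : ∀ g : Gamma0 L, ∃ i, ((g * (e i)⁻¹ : Gamma0 L) : SL(2, ℤ)) ∈ Gamma0 L')
    (z : GHom (Gamma0 L') A) : corH hL z = (isFam_transversal e hinj hcov).trans z := by
  letI := Fintype.ofFinite (Cosets L L')
  have hex : ∀ i, ∃ (c : Cosets L L') (k : Gamma0 L'), zMat (e i) = zMat k * corRep c := fun i =>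
    exists_corRep hL (e i)
  choose π k hk using hex
  exact ((isFam_transversal e hinj hcov).trans_congr (isFam_corH hL)
    (by rw [← card_cosets e hinj hcov, Nat.card_eq_fintype_card]) 1 π k
    (fun i => by rw [one_smul]; exact hk i) z).symm

end Transversal

/-- Corestriction is transitive. -/
theorem corH_corH {L M L' : ℕ} [NeZero M] [NeZero L'] (h₁ : L ∣ M) (h₂ : M ∣ L') (h₃ : L ∣ L')
    (z : GHom (Gamma0 L') A) : corH h₁ (corH h₂ z) = corH h₃ z := by
  letI := Fintype.ofFinite (Cosets L M)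
  letI := Fintype.ofFinite (Cosets M L')
  let e : Cosets M L' × Cosets L M → Gamma0 L := fun x =>
    ⟨corElt x.1, gamma0_anti h₁ (corElt x.1).2⟩ * corElt x.2
  have hinj : ∀ x y, ((e x * (e y)⁻¹ : Gamma0 L) : SL(2, ℤ)) ∈ Gamma0 L' → x = y := by
    intro x y hxy
    have e1 : (corElt x.2 * (corElt y.2)⁻¹ : Gamma0 L) =
        (⟨corElt x.1, gamma0_anti h₁ (corElt x.1).2⟩ : Gamma0 L)⁻¹ * (e x * (e y)⁻¹) *
          ⟨corElt y.1, gamma0_anti h₁ (corElt y.1).2⟩ := by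
      simp only [e]; group
    have hM : ((corElt x.2 * (corElt y.2)⁻¹ : Gamma0 L) : SL(2, ℤ)) ∈ Gamma0 M := by
      rw [e1]
      exact mul_mem (mul_mem (inv_mem (corElt x.1).2) (gamma0_anti h₂ hxy)) (corElt y.1).2
    have h2 : x.2 = y.2 := corRep_inj (k := ⟨_, hM⟩) (by
      show zMat (corElt x.2) = zMat (corElt x.2 * (corElt y.2)⁻¹) * zMat (corElt y.2)
      rw [← zMat_mul, inv_mul_cancel_right])
    refine Prod.ext (corRep_inj (k := ⟨_, hxy⟩) ?_) h2
    show zMat (corElt x.1) = zMat (e x * (e y)⁻¹) * zMat (corElt y.1)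
    simp only [e, h2, mul_inv_rev, mul_assoc, mul_inv_cancel_left]
    show zMat (⟨corElt x.1, gamma0_anti h₁ (corElt x.1).2⟩ : Gamma0 L) = _ *
      zMat (⟨corElt y.1, gamma0_anti h₁ (corElt y.1).2⟩ : Gamma0 L)
    rw [← zMat_mul, inv_mul_cancel_right]
  have hcov : ∀ g : Gamma0 L, ∃ x, ((g * (e x)⁻¹ : Gamma0 L) : SL(2, ℤ)) ∈ Gamma0 L' := by
    intro g
    have hb := (corElt_eq_iff (L' := M) _ g).mp rfl
    set m : Gamma0 M := ⟨_, hb⟩ with hm
    have ha := (corElt_eq_iff (L' := L') _ m).mp rfl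
    refine ⟨(((m⁻¹ : Gamma0 M) : Cosets M L'), ((g⁻¹ : Gamma0 L) : Cosets L M)), ?_⟩
    convert ha using 1
    simp only [e, hm, mul_inv_rev, Subgroup.coe_mul, Subgroup.coe_inv, mul_assoc]
  letI := Fintype.ofFinite (Cosets L L')
  have hc := (isFam_corH h₂).prod (isFam_corH h₁) fun x y k h => hinj x y (by
    rw [show ((e x * (e y)⁻¹ : Gamma0 L) : SL(2, ℤ)) = (k : SL(2, ℤ)) from ?_]
    · exact k.2
    have h' : zMat (e x) = zMat k * zMat (e y) := h
    refine Subtype.ext ?_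
    show zMat (e x * (e y)⁻¹) = zMat k
    rw [zMat_mul, h', mul_assoc, ← zMat_mul, mul_inv_cancel, zMat_one, mul_one])
  rw [corH_eq_trans e h₃ hinj hcov]
  exact (isFam_corH h₂).trans_trans (isFam_corH h₁) hc z

/-! ## One prime -/

section LevDataOps

variable {N q : ℕ} (D : LevData N q)
include D

theorem degH_one_eq_res (h : N * 1 ∣ N * q) (x : GHom (Gamma0 N) A) :
    degH 1 one_pos h x = D.res x :=
  AddMonoidHom.ext fun t => by
    obtain ⟨γ, rfl⟩ := Additive.ofMul.surjective t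
    rw [degH_one_apply, LevData.res_apply]
    rfl

theorem uEnd_eq_uOp (h : q ∣ N * q) (x : GHom (Gamma0 (N * q)) A) :
    uEnd D.prime h x = D.uOp x := rfl

theorem degH_eq_wOp_res (h : N * q ∣ N * q) (x : GHom (Gamma0 N) A) :
    degH q D.prime.pos h x = D.wOp (D.res x) := by
  refine AddMonoidHom.ext fun t => ?_
  obtain ⟨γ, rfl⟩ := Additive.ofMul.surjective t
  obtain ⟨i, g, hg⟩ := (isFam_deg D.prime.pos h).step γ ()
  cases i
  obtain ⟨g', hg'⟩ := D.wMat_step γ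
  rw [degH_apply_of_eq D.prime.pos h x hg, LevData.wOp, IsFam.trans_apply, Fintype.sum_unique,
    (D.isFam_w.unique (g := g') (i := default) (j := default) hg').2, LevData.res_apply]
  have he : LevData.incl g' = ⟨D.g, D.g_mem⟩ * g * ⟨D.g, D.g_mem⟩⁻¹ := by
    rw [eq_mul_inv_iff_mul_eq]
    refine Raise.zMat_injective ?_
    rw [zMat_mul, zMat_mul, LevData.zMat_incl]
    refine mul_right_cancel_det (B := !![(q : ℤ), 0; 0, 1])
      (by simpa [Matrix.det_fin_two_of] using D.prime.ne_zero) ?_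
    rw [mul_assoc, mul_assoc]
    show zMat g' * D.wMat = _
    rw [← hg', LevData.wMat, mul_assoc]
    exact congrArg _ hg
  rw [he, ofMul_mul, ofMul_mul, ofMul_inv, map_add, map_add, map_neg]
  abel

theorem uEnd_degH_one (hg : GoodIndex N q) (h : q ∣ N * q) (h₁ : N * 1 ∣ N * q)
    (h₂ : N * q ∣ N * q) (x : GHom (Gamma0 N) A) :
    uEnd D.prime h (degH 1 one_pos h₁ x) =
      degH 1 one_pos h₁ (transferHom hg x) - degH q D.prime.pos h₂ x := by
  have key := D.res_cor (D.wOp (D.res x))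
  rw [D.cor_wOp_res, D.wOp_wOp] at key
  rw [uEnd_eq_uOp D, degH_one_eq_res D, degH_one_eq_res D, degH_eq_wOp_res D, eq_sub_iff_add_eq,
    add_comm]
  exact key.symm

theorem card_cosets_levData : Nat.card (Cosets N (N * q)) = q + 1 := by
  rw [card_cosets D.cosElt]
  · simp
  · intro i j hij
    refine D.cos_inj (h := ⟨_, hij⟩) ?_
    show D.cosRep i = zMat (D.cosElt i * (D.cosElt j)⁻¹) * D.cosRep j
    rw [← D.zMat_cosElt, ← D.zMat_cosElt, ← zMat_mul, inv_mul_cancel_right]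
  · intro g
    obtain ⟨i, k, hk⟩ := D.exists_cosRep g
    refine ⟨i, ?_⟩
    rw [show ((g * (D.cosElt i)⁻¹ : Gamma0 N) : SL(2, ℤ)) = (k : SL(2, ℤ)) from ?_]
    · exact k.2
    refine Subtype.ext ?_
    show zMat (g * (D.cosElt i)⁻¹) = zMat k
    rw [zMat_mul, hk, ← D.zMat_cosElt, mul_assoc, ← zMat_mul, mul_inv_cancel, zMat_one, mul_one]

theorem corH_eq_cor [NeZero (N * q)] (h : N ∣ N * q) (z : GHom (Gamma0 (N * q)) A) :
    corH h z = D.cor z := by
  letI := Fintype.ofFinite (Cosets N (N * q))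
  choose π k hk using fun i => exists_corRep (L' := N * q) h (D.cosElt i)
  exact ((D.isFam_cos).trans_congr (isFam_corH h)
    (by rw [← Nat.card_eq_fintype_card, ← Nat.card_eq_fintype_card,
      card_cosets_levData D, Nat.card_eq_fintype_card]; simp) 1 π k
    (fun i => by rw [one_smul, ← D.zMat_cosElt]; exact hk i) z).symm

omit D in
/-- The transversal from level `N q` to level `N q²`. -/
def lowElt (N q : ℕ) (j : Fin q) : Gamma0 (N * q) :=
  ⟨lZ (((N * q : ℕ) : ℤ) * ((j : ℕ) : ℤ)), lZ_mem (dvd_mul_right _ _)⟩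

omit D in
theorem zMat_lowElt (j : Fin q) :
    zMat (lowElt N q j) = !![1, 0; ((N * q : ℕ) : ℤ) * ((j : ℕ) : ℤ), 1] := rfl

theorem lowElt_inj (i j : Fin q)
    (h : ((lowElt N q i * (lowElt N q j)⁻¹ : Gamma0 (N * q)) : SL(2, ℤ)) ∈ Gamma0 (N * q * q)) :
    i = j := by
  haveI := Fact.mk D.prime
  have hd := mem_gamma0_iff_dvd.mp h
  rw [show (((lowElt N q i * (lowElt N q j)⁻¹ : Gamma0 (N * q)) : SL(2, ℤ)) 1 0 : ℤ) =
    ((N * q : ℕ) : ℤ) * (((i : ℕ) : ℤ) - ((j : ℕ) : ℤ)) by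
      show zMat (lowElt N q i * (lowElt N q j)⁻¹) 1 0 = _
      rw [zMat_mul, show zMat (lowElt N q j)⁻¹ = (zMat (lowElt N q j)).adjugate from
        Matrix.SpecialLinearGroup.coe_inv _]
      simp [zMat_lowElt, Matrix.mul_apply, Fin.sum_univ_two, Matrix.adjugate_fin_two]
      ring, Nat.cast_mul (N * q) q] at hd
  have hN : ((N * q : ℕ) : ℤ) ≠ 0 := Int.natCast_ne_zero.mpr (Nat.mul_ne_zero
    (fun h => D.not_dvd (h ▸ dvd_zero q)) D.prime.ne_zero)
  have := (ZMod.intCast_zmod_eq_zero_iff_dvd _ _).mpr ((mul_dvd_mul_iff_left hN).mp hd)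
  push_cast at this
  have := congrArg ZMod.val (sub_eq_zero.mp this)
  rw [ZMod.val_cast_of_lt i.2, ZMod.val_cast_of_lt j.2] at this
  exact Fin.ext this

theorem lowElt_cov (g : Gamma0 (N * q)) :
    ∃ j, ((g * (lowElt N q j)⁻¹ : Gamma0 (N * q)) : SL(2, ℤ)) ∈ Gamma0 (N * q * q) := by
  haveI := Fact.mk D.prime
  obtain ⟨c, hc⟩ := mem_gamma0_iff_dvd.mp g.2
  have hcq : (q : ℤ) ∣ (g : SL(2, ℤ)) 1 0 := hc ▸ dvd_mul_of_dvd_left (by
    push_cast; exact dvd_mul_left _ _) _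
  have hd : (((g : SL(2, ℤ)) 1 1 : ℤ) : ZMod q) ≠ 0 := fun h => by
    have := congrArg (fun z : ℤ => (z : ZMod q)) (Raise.det_two (g : SL(2, ℤ)))
    simp [(ZMod.intCast_zmod_eq_zero_iff_dvd _ _).mpr hcq] at this
    rw [show (((g : SL(2, ℤ)) 1 1 : ℤ) : ZMod q) = 0 from h, mul_zero] at this
    exact zero_ne_one this
  set j : ZMod q := (c : ZMod q) / (((g : SL(2, ℤ)) 1 1 : ℤ) : ZMod q)
  refine ⟨⟨j.val, ZMod.val_lt j⟩, mem_gamma0_iff_dvd.mpr ?_⟩
  show (_ : ℤ) ∣ zMat (g * (lowElt N q _)⁻¹) 1 0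
  rw [zMat_mul, show ∀ k, zMat (lowElt N q k)⁻¹ = (zMat (lowElt N q k)).adjugate from fun _ =>
    Matrix.SpecialLinearGroup.coe_inv _]
  simp only [zMat_lowElt, Matrix.adjugate_fin_two, Matrix.mul_apply, Fin.sum_univ_two]
  simp
  rw [show zMat g 1 0 = ((N * q : ℕ) : ℤ) * c from hc]
  have hdvd : (q : ℤ) ∣ c - (j.val : ℤ) * (g : SL(2, ℤ)) 1 1 := by
    rw [← ZMod.intCast_zmod_eq_zero_iff_dvd]
    push_cast
    rw [ZMod.natCast_zmod_val, div_mul_cancel₀ _ hd, sub_self]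
  have := mul_dvd_mul_left ((N * q : ℕ) : ℤ) hdvd
  rw [← ZMod.natCast_val] at *
  push_cast at this ⊢
  refine this.trans (dvd_of_eq ?_)
  simp only [zMat]
  ring

theorem card_cosets_sq : Nat.card (Cosets (N * q) (N * q * q)) = q := by
  rw [card_cosets (lowElt N q) (lowElt_inj D) (lowElt_cov D), Fintype.card_fin]

/-- The trace to level `N q` after the upper degeneracy map is `w U w`. -/
theorem corH_degH_q [NeZero (N * q * q)] (h : N * q * q ∣ N * q * q)
    (h' : N * q ∣ N * q * q) (z : GHom (Gamma0 (N * q)) A) :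
    corH h' (degH q D.prime.pos h z) = D.wOp (D.uOp (D.wOp z)) := by
  haveI := Fact.mk D.prime
  rw [corH_eq_trans (lowElt N q) h' (lowElt_inj D) (lowElt_cov D)]
  have hWU := D.isFam_w.prod D.isFam_u fun x y k e => by
    have hs : ∀ b : Fin q, D.wMat * Raise.LevData.uRep b =
        (q : ℤ) • ((D.g : ZMat) * !![1, ((b : ℕ) : ℤ); 0, 1]) := fun b => by
      rw [LevData.wMat, mul_assoc, ← mul_smul_comm]
      congr 1
      simp [Raise.LevData.uRep, heckeRep, Matrix.mul_fin_two]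
    refine Prod.ext rfl (Option.some_injective _ (D.cos_inj (h := k) ?_))
    refine smul_right_injective ZMat (Int.natCast_ne_zero.mpr D.prime.ne_zero) ?_
    show (q : ℤ) • D.cosRep (some x.2) = (q : ℤ) • (zMat k * D.cosRep (some y.2))
    simp only [LevData.cosRep, Matrix.SpecialLinearGroup.coe_mul, ModularGroup.coe_T_zpow]
    exact (hs x.2).symm.trans (e.trans ((congrArg (fun X => zMat k * X) (hs y.2)).trans
      (mul_smul_comm _ _ _)))
  rw [LevData.wOp, LevData.uOp, D.isFam_w.trans_trans D.isFam_u hWU]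
  refine (trans_comm hWU D.isFam_w (isFam_deg D.prime.pos h)
    (isFam_transversal (lowElt N q) (lowElt_inj D) (lowElt_cov D)) (by simp) ?_ (q : ℤ) ?_ z).symm
  · rintro ⟨a, ⟨⟩⟩ ⟨b, ⟨⟩⟩ k e
    refine Prod.ext (hWU.inj a b k (mul_right_cancel_det (D.isFam_w.det_ne ()) ?_)) rfl
    exact e.trans (mul_assoc _ _ _).symm
  · rintro ⟨⟨⟨⟩, b⟩, ⟨⟩⟩
    set H : Gamma0 N := ⟨D.g * ModularGroup.T ^ ((b : ℕ) : ℤ) * D.g,
      mul_mem (mul_mem D.g_mem (LevData.T_zpow_mem' _)) D.g_mem⟩ with hH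
    obtain ⟨c, hc⟩ := mem_gamma0_iff_dvd.mp H.2
    have hd : (((H : SL(2, ℤ)) 1 1 : ℤ) : ZMod q) ≠ 0 := by
      have hdet := congrArg (fun z : ℤ => (z : ZMod q)) (Raise.det_two D.g)
      simp [D.g10, D.g11] at hdet
      have e11 : (H : SL(2, ℤ)) 1 1 =
          (N : ℤ) * (D.g : ZMat) 0 1 + ((N : ℤ) * ((b : ℕ) : ℤ) + q) * q := by
        simp [hH, -zpow_natCast, Matrix.mul_apply, Fin.sum_univ_two, ModularGroup.coe_T_zpow,
          D.g10, D.g11]
      rw [e11]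
      push_cast
      intro h0
      rw [ZMod.natCast_self, mul_zero, add_zero] at h0
      rw [mul_comm, h0] at hdet
      simp at hdet
    set j : ZMod q := (c : ZMod q) / (((H : SL(2, ℤ)) 1 1 : ℤ) : ZMod q)
    let l : Gamma0 N := ⟨lZ ((N : ℤ) * (j.val : ℤ)), lZ_mem (dvd_mul_right _ _)⟩
    have hl : zMat l = !![1, 0; (N : ℤ) * (j.val : ℤ), 1] := rfl
    have hmem : ((H * l⁻¹ : Gamma0 N) : SL(2, ℤ)) ∈ Gamma0 (N * q) := by
      refine mem_gamma0_iff_dvd.mpr ?_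
      show (_ : ℤ) ∣ zMat (H * l⁻¹) 1 0
      rw [zMat_mul, show zMat l⁻¹ = (zMat l).adjugate from Matrix.SpecialLinearGroup.coe_inv _, hl]
      simp only [Matrix.adjugate_fin_two, Matrix.mul_apply, Fin.sum_univ_two]
      simp
      rw [show zMat H 1 0 = (N : ℤ) * c from hc]
      have hdvd : (q : ℤ) ∣ c - (j.val : ℤ) * (H : SL(2, ℤ)) 1 1 := by
        rw [← ZMod.intCast_zmod_eq_zero_iff_dvd]
        push_cast
        rw [ZMod.natCast_zmod_val, div_mul_cancel₀ _ hd, sub_self]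
      have := mul_dvd_mul_left (N : ℤ) hdvd
      refine this.trans (dvd_of_eq ?_)
      rw [← ZMod.natCast_val j]
      simp only [zMat]
      ring
    refine ⟨((), ⟨j.val, ZMod.val_lt j⟩), ⟨_, hmem⟩, ?_⟩
    show LevData.wRep D () * LevData.uRep b * LevData.wRep D () =
      (q : ℤ) • (zMat (H * l⁻¹) *
        (!![(q : ℤ), 0; 0, 1] * zMat (lowElt N q ⟨j.val, ZMod.val_lt j⟩)))
    have hDl : !![(q : ℤ), 0; 0, 1] * zMat (lowElt N q ⟨j.val, ZMod.val_lt j⟩) =
        zMat l * !![(q : ℤ), 0; 0, 1] := by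
      rw [hl, zMat_lowElt]
      simp [Matrix.mul_fin_two]
      ring
    have hU : !![(q : ℤ), 0; 0, 1] * LevData.uRep b =
        (q : ℤ) • ((ModularGroup.T ^ ((b : ℕ) : ℤ) : SL(2, ℤ)) : ZMat) := by
      rw [ModularGroup.coe_T_zpow]
      simp [Raise.LevData.uRep, heckeRep]
    rw [hDl, ← mul_assoc, ← zMat_mul, inv_mul_cancel_right]
    show (D.g : ZMat) * !![(q : ℤ), 0; 0, 1] * LevData.uRep b *
      ((D.g : ZMat) * !![(q : ℤ), 0; 0, 1]) = (q : ℤ) • ((D.g : ZMat) *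
        ((ModularGroup.T ^ ((b : ℕ) : ℤ) : SL(2, ℤ)) : ZMat) * (D.g : ZMat) *
          !![(q : ℤ), 0; 0, 1])
    rw [mul_assoc (D.g : ZMat) !![(q : ℤ), 0; 0, 1] (LevData.uRep b), hU]
    simp only [mul_smul_comm, smul_mul_assoc, mul_assoc]

end LevDataOps

end Fermat.Agent.R59.Raised
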