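/-
S59, unit C2: the residual part of all classes of a level, the linear operators on it, and what
its reduction modulo the maximal ideal knows about degeneracy maps and functionals.
-/
import Fermat.Agent.R59.Levels.Free
import Fermat.Agent.R59.Levels.Bridge
import Fermat.Agent.R59.Raise.Pair
import Fermat.Agent.R59.Raise.Dual
import Fermat.Agent.Raise.Lattice

set_option autoImplicit false
set_option linter.unusedSectionVars false
set_option linter.style.haveILetI false

noncomputable section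

namespace Fermat.Agent.R59.Raised

open CongruenceSubgroup IsLocalRing
open Fermat.Agent.Raise (GHom zMat IsFam trans_heckeRep isFam_heckeRep zMat_mul mul_right_cancel_det)
open Fermat.Agent.GalRep (GoodIndex transferHom ParHom heckeRep det_heckeRep heckeRep_unique)
open Fermat.Agent.Auto (locPart locProj mPow)
open Fermat.Agent.R59.Raise (trans_smul' transferHom_smul transferHom_zero opSub)
open scoped MatrixGroups

/-- `U_r` between two levels commutes with the good Hecke operators. -/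
theorem uH_transfer {L M ℓ r : ℕ} {A : Type} [AddCommGroup A] (hr : r.Prime) (hrM : r ∣ M)
    (h : L ∣ M * r) (hrL : r ∣ L) (hg : GoodIndex L ℓ) (hg' : GoodIndex M ℓ)
    (z : GHom (Gamma0 L) A) :
    uH hr hrM h hrL (transferHom hg z) = transferHom hg' (uH hr hrM h hrL z) := by
  have hne : ℓ ≠ r := fun h => hg.not_dvd (h ▸ hrL)
  rw [← trans_heckeRep hg, ← trans_heckeRep hg']
  refine (trans_comm (isFam_uL hr hrM h hrL) (isFam_heckeRep hg')
    (isFam_heckeRep hg) (isFam_uL hr hrM h hrL) (mul_comm _ _) ?_ 1 ?_ z).symm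
  · rintro ⟨b, i⟩ ⟨b', i'⟩ g e
    simp only [← mul_assoc, uRepL] at e
    have h1 : i = i' := heckeRep_unique hg.prime (by
      rw [det_heckeRep]
      exact fun h => hne ((Nat.prime_dvd_prime_iff_eq hg.prime hr).mp
        (Int.natCast_dvd_natCast.mp h))) e
    rw [h1] at e
    exact Prod.ext ((isFam_uL hr hrM h hrL).inj b b' g
      (mul_right_cancel_det ((isFam_heckeRep hg').det_ne i') e)) h1
  · rintro ⟨b, i⟩
    obtain ⟨i', y', g, e, -, hy'⟩ := upper_factor (M := L) hg.prime hr hne i (some b)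
    obtain ⟨b', rfl⟩ := Option.isSome_iff_exists.mp (hy'.trans rfl)
    exact ⟨(i', b'), g, by rw [one_smul]; exact e⟩

variable (O : Type) [CommRing O]

/-- The primes outside `S`. -/
abbrev OffS (S : Finset ℕ) : Type := {l : Nat.Primes // (l : ℕ) ∉ S}

/-- All prime divisors of the level lie in `S`. -/
def Supp (S : Finset ℕ) (L : ℕ) : Prop := ∀ r : ℕ, r.Prime → r ∣ L → r ∈ S

theorem Supp.good {S : Finset ℕ} {L : ℕ} (h : Supp S L) (i : OffS S) : GoodIndex L (i.1 : ℕ) :=
  ⟨i.1.2, fun hd => i.2 (h _ i.1.2 hd)⟩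

/-- A degeneracy map as a linear map. -/
def degL {L L' : ℕ} (d : ℕ) (hd : 0 < d) (h : L * d ∣ L') :
    GHom (Gamma0 L) O →ₗ[O] GHom (Gamma0 L') O where
  toFun := degH d hd h
  map_add' := map_add _
  map_smul' r z := trans_smul' _ r z

/-- Corestriction as a linear map. -/
def corL {L L' : ℕ} [NeZero L'] (h : L ∣ L') : GHom (Gamma0 L') O →ₗ[O] GHom (Gamma0 L) O :=
  letI := Fintype.ofFinite (Cosets L L')
  { toFun := corH h
    map_add' := map_add _
    map_smul' := fun r z => trans_smul' _ r z }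

/-- `U_r` between two levels as a linear map. -/
def uL {L L' : ℕ} {q : ℕ} (hq : q.Prime) (hqL : q ∣ L') (h : L ∣ L' * q) (hqL₁ : q ∣ L) :
    GHom (Gamma0 L) O →ₗ[O] GHom (Gamma0 L') O where
  toFun := uH hq hqL h hqL₁
  map_add' := map_add _
  map_smul' r z := trans_smul' _ r z

/-- `U_r` as a linear map. -/
def uE {L : ℕ} {q : ℕ} (hq : q.Prime) (hqL : q ∣ L) : Module.End O (GHom (Gamma0 L) O) :=
  uL O hq hqL (dvd_mul_right L q) hqL

theorem degL_apply {L L' : ℕ} (d : ℕ) (hd : 0 < d) (h : L * d ∣ L') (z : GHom (Gamma0 L) O) :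
    degL O d hd h z = degH d hd h z := rfl

theorem corL_apply {L L' : ℕ} [NeZero L'] (h : L ∣ L') (z : GHom (Gamma0 L') O) :
    corL O h z = corH h z := rfl

theorem uL_apply {L L' : ℕ} {q : ℕ} (hq : q.Prime) (hqL : q ∣ L') (h : L ∣ L' * q) (hqL₁ : q ∣ L)
    (z : GHom (Gamma0 L) O) : uL O hq hqL h hqL₁ z = uH hq hqL h hqL₁ z := rfl

theorem uE_apply {L : ℕ} {q : ℕ} (hq : q.Prime) (hqL : q ∣ L) (z : GHom (Gamma0 L) O) :
    uE O hq hqL z = uEnd hq hqL z := rfl

open Classical in
/-- `T_ℓ` as a linear map, zero at the primes of the level. -/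
def opL (L : ℕ) (S : Finset ℕ) (i : OffS S) : Module.End O (GHom (Gamma0 L) O) :=
  if hg : GoodIndex L (i.1 : ℕ) then
    { toFun := transferHom hg
      map_add' := GalRep.transferHom_add hg
      map_smul' := fun r z => transferHom_smul hg r z }
  else 0

variable {O}

theorem opL_apply {L : ℕ} {S : Finset ℕ} (i : OffS S) (hg : GoodIndex L (i.1 : ℕ))
    (z : GHom (Gamma0 L) O) : opL O L S i z = transferHom hg z := by
  rw [opL, dif_pos hg]
  rfl

theorem opL_commute (L : ℕ) (S : Finset ℕ) (i j : OffS S) :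
    Commute (opL O L S i) (opL O L S j) := by
  by_cases hi : GoodIndex L (i.1 : ℕ)
  · by_cases hj : GoodIndex L (j.1 : ℕ)
    · refine LinearMap.ext fun z => ?_
      simp only [Module.End.mul_apply, opL_apply i hi, opL_apply j hj]
      exact GalRep.transferHom_comm hi hj z
    · rw [show opL O L S j = 0 from dif_neg hj]
      exact Commute.zero_right _
  · rw [show opL O L S i = 0 from dif_neg hi]
    exact Commute.zero_left _

section Natural

variable {S : Finset ℕ} {L L' : ℕ} (hS : Supp S L) (hS' : Supp S L') (i : OffS S)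
include hS hS'

theorem opL_degL {d : ℕ} (hd : 0 < d) (h : L * d ∣ L') (z : GHom (Gamma0 L) O) :
    degL O d hd h (opL O L S i z) = opL O L' S i (degL O d hd h z) := by
  rw [degL_apply, degL_apply, opL_apply i (hS.good i), opL_apply i (hS'.good i)]
  exact degH_transfer hd h (hS.good i) (hS'.good i) z

theorem opL_corL [NeZero L'] (h : L ∣ L') (z : GHom (Gamma0 L') O) :
    corL O h (opL O L' S i z) = opL O L S i (corL O h z) := by
  rw [corL_apply, corL_apply, opL_apply i (hS.good i), opL_apply i (hS'.good i)]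
  exact corH_transfer h (hS.good i) (hS'.good i) z

theorem opL_uL {q : ℕ} (hq : q.Prime) (hqL : q ∣ L') (h : L ∣ L' * q) (hqL₁ : q ∣ L)
    (z : GHom (Gamma0 L) O) :
    uL O hq hqL h hqL₁ (opL O L S i z) = opL O L' S i (uL O hq hqL h hqL₁ z) := by
  rw [uL_apply, uL_apply, opL_apply i (hS.good i), opL_apply i (hS'.good i)]
  exact uH_transfer hq hqL h hqL₁ (hS.good i) (hS'.good i) z

end Natural

theorem opL_uE {S : Finset ℕ} {L : ℕ} (hS : Supp S L) (i : OffS S) {q : ℕ} (hq : q.Prime)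
    (hqL : q ∣ L) (z : GHom (Gamma0 L) O) :
    uE O hq hqL (opL O L S i z) = opL O L S i (uE O hq hqL z) :=
  opL_uL hS hS i hq hqL (dvd_mul_right L q) hqL z

variable [IsDomain O] [IsDiscreteValuationRing O] [IsAdicComplete (maximalIdeal O) O]
  [Finite (ResidueField O)]

variable (O) in
/-- The residual part of all classes. -/
def locG (S : Finset ℕ) (a : ℕ → O) (L : ℕ) : Submodule O (GHom (Gamma0 L) O) :=
  locPart (opL O L S) fun i => a (i.1 : ℕ)

instance finite_ghom (L : ℕ) [NeZero L] : Module.Finite O (GHom (Gamma0 L) O) :=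
  Fermat.Agent.Raise.ghom_finite L O O

/-- The projection onto the residual part. -/
def projG (S : Finset ℕ) (a : ℕ → O) (L : ℕ) [NeZero L] : Module.End O (GHom (Gamma0 L) O) :=
  locProj (T := opL O L S) (fun i => a (i.1 : ℕ)) (opL_commute L S)

section Maps

variable {S : Finset ℕ} {a : ℕ → O} {L L' : ℕ} (φ : GHom (Gamma0 L) O →ₗ[O] GHom (Gamma0 L') O)
  (hφ : ∀ i z, φ (opL O L S i z) = opL O L' S i (φ z))
include hφ

theorem map_mem_locG {z : GHom (Gamma0 L) O} (hz : z ∈ locG O S a L) : φ z ∈ locG O S a L' :=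
  Auto.map_mem_locPart φ hφ hz

theorem projG_natural [NeZero L] [NeZero L'] (z : GHom (Gamma0 L) O) :
    φ (projG S a L z) = projG S a L' (φ z) :=
  Auto.locProj_natural _ _ _ φ hφ z

end Maps

variable {S : Finset ℕ} {a : ℕ → O}

theorem projG_mem {L : ℕ} [NeZero L] (z : GHom (Gamma0 L) O) : projG S a L z ∈ locG O S a L :=
  Auto.locProj_mem _ _ z

theorem projG_apply {L : ℕ} [NeZero L] {z : GHom (Gamma0 L) O} (hz : z ∈ locG O S a L) :
    projG S a L z = z :=
  Auto.locProj_apply_of_mem _ _ hz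

/-- Reduction of classes. -/
def redH (L : ℕ) : GHom (Gamma0 L) O →ₗ[O] GHom (Gamma0 L) (ResidueField O) where
  toFun z := (residue O).toAddMonoidHom.comp z
  map_add' _ _ := AddMonoidHom.comp_add _ _ _
  map_smul' r z := AddMonoidHom.ext fun _ => map_mul (residue O) r _

theorem redH_apply {L : ℕ} (z : GHom (Gamma0 L) O) (γ : Gamma0 L) :
    redH L z (Additive.ofMul γ) = residue O (z (Additive.ofMul γ)) := rfl

theorem residue_smul_eq (r : O) (v : ResidueField O) : r • v = residue O r * v :=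
  Algebra.smul_def r v

theorem smul_eq_zero_of_mem {r : O} (hr : r ∈ maximalIdeal O) (v : ResidueField O) : r • v = 0 := by
  rw [residue_smul_eq, (residue_eq_zero_iff r).mpr hr, zero_mul]

theorem linear_eq_zero_of_mem_mPow {M W : Type} [AddCommGroup M] [Module O M] [AddCommGroup W]
    [Module O W] (hW : ∀ r ∈ maximalIdeal O, ∀ v : W, r • v = 0) (F : M →ₗ[O] W) {x : M}
    (hx : x ∈ mPow O M 1) : F x = 0 := by
  rw [Auto.mPow_one] at hx
  refine Submodule.smul_induction_on hx (fun r hr y _ => ?_) fun y z hy hz => ?_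
  · rw [map_smul, hW r hr]
  · rw [map_add, hy, hz, add_zero]

theorem redH_eq_zero_iff {L : ℕ} {ϖ : O} (hϖ : Irreducible ϖ) (z : GHom (Gamma0 L) O) :
    redH L z = 0 ↔ ∃ y, z = ϖ • y := by
  constructor
  · intro h
    have hd : ∀ t, ϖ ∣ z t := fun t => by
      have := DFunLike.congr_fun h t
      rw [show redH L z t = residue O (z t) from rfl, AddMonoidHom.zero_apply, residue_eq_zero_iff,
        hϖ.maximalIdeal_eq, Ideal.mem_span_singleton] at this
      exact this
    choose y hy using hd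
    refine ⟨AddMonoidHom.mk' y fun s t => mul_left_cancel₀ hϖ.ne_zero ?_,
      AddMonoidHom.ext fun t => hy t⟩
    rw [mul_add, ← hy, ← hy, ← hy, map_add]
  · rintro ⟨y, rfl⟩
    rw [map_smul]
    exact AddMonoidHom.ext fun t => smul_eq_zero_of_mem
      (hϖ.maximalIdeal_eq ▸ Ideal.mem_span_singleton_self ϖ) _

theorem redH_degH {L L' d : ℕ} (hd : 0 < d) (h : L * d ∣ L') (z : GHom (Gamma0 L) O) :
    redH L' (degH d hd h z) = degH d hd h (redH L z) :=
  ((isFam_deg hd h).trans_comp_coeff (residue O).toAddMonoidHom z).symm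

theorem redH_transfer {L ℓ : ℕ} (hg : GoodIndex L ℓ) (z : GHom (Gamma0 L) O) :
    redH L (transferHom hg z) = transferHom hg (redH L z) :=
  (GalRep.transferHom_comp hg (residue O).toAddMonoidHom z).symm

theorem redH_opSub_iterate {L : ℕ} (i : OffS S) (hg : GoodIndex L (i.1 : ℕ)) (b : O) (j : ℕ)
    (z : GHom (Gamma0 L) O) :
    (opSub hg b)^[j] (redH L z) =
      redH L (((opL O L S i - algebraMap O _ b) ^ j) z) := by
  induction j generalizing z with
  | zero => rfl
  | succ j ih =>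
    rw [Function.iterate_succ_apply, pow_succ, Module.End.mul_apply, ← ih]
    congr 1
    rw [LinearMap.sub_apply, Module.algebraMap_end_apply, map_sub, map_smul, opL_apply i hg,
      redH_transfer, opSub]

/-- The residual operators are nilpotent modulo the maximal ideal on the residual part. -/
theorem exists_nil_redH {L : ℕ} (i : OffS S) (hg : GoodIndex L (i.1 : ℕ))
    {z : GHom (Gamma0 L) O} (hz : z ∈ locG O S a L) :
    ∃ j, (opSub hg (a (i.1 : ℕ)))^[j] (redH L z) = 0 := by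
  obtain ⟨j, hj⟩ := hz i 1
  refine ⟨j, ?_⟩
  rw [redH_opSub_iterate]
  exact linear_eq_zero_of_mem_mPow
    (fun r hr v => AddMonoidHom.ext fun t => smul_eq_zero_of_mem hr (v t)) (redH L) (hj j le_rfl)

variable [CharZero O]

/-- A functional through the residual part kills a power of each shifted operator. -/
theorem exists_nil_functional {L : ℕ} [NeZero L] (m : OffS S)
    (F : GHom (Gamma0 L) O →ₗ[O] ResidueField O) (hF : ∀ z, F (projG S a L z) = F z) :
    ∃ j : ℕ, ∀ z, F (((opL O L S m - algebraMap O _ (a (m.1 : ℕ)) :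
      Module.End O (GHom (Gamma0 L) O)) ^ j) z) = 0 := by
  classical
  set f := opL O L S m - algebraMap O (Module.End O (GHom (Gamma0 L) O)) (a (m.1 : ℕ))
  obtain ⟨s, hs⟩ := IsNoetherian.noetherian (locG O S a L)
  have hmem : ∀ g ∈ s, g ∈ locG O S a L := fun g hg => hs ▸ Submodule.subset_span hg
  choose! jg hjg using fun g (hg : g ∈ s) => (hmem g hg) m 1
  refine ⟨s.sup jg, fun z => ?_⟩
  have hcomm : Commute (f ^ s.sup jg) (projG S a L) := (Auto.commute_locProj _ _ fun i =>
    ((opL_commute L S m i).sub_left (Algebra.commute_algebraMap_left _ _)).pow_left _)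
  rw [← hF, ← Module.End.mul_apply, ← hcomm.eq, Module.End.mul_apply]
  have hle : locG O S a L ≤ LinearMap.ker (F ∘ₗ (f ^ s.sup jg)) := by
    rw [← hs, Submodule.span_le]
    intro g hg
    exact linear_eq_zero_of_mem_mPow (fun r hr v => smul_eq_zero_of_mem hr v) F
      (hjg g hg _ (Finset.le_sup hg))
  exact hle (projG_mem z)

theorem funOp_iterate {L : ℕ} (m : OffS S) (hg : GoodIndex L (m.1 : ℕ)) (b : O)
    (F : GHom (Gamma0 L) O →ₗ[O] ResidueField O) (j : ℕ) (x : GHom (Gamma0 L) ℤ) :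
    (Raise.funOp hg b)^[j] (F.toAddMonoidHom.comp (Raise.castCls O L)) x =
      F (((opL O L S m - algebraMap O _ b) ^ j) (Raise.castCls O L x)) := by
  induction j generalizing x with
  | zero => rfl
  | succ j ih =>
    rw [Function.iterate_succ_apply', Raise.funOp_apply, ih, ih, pow_succ, Module.End.mul_apply,
      LinearMap.sub_apply, Module.algebraMap_end_apply, map_sub, map_sub, map_smul, map_smul,
      opL_apply m hg, Raise.castCls_transfer]

variable {p : ℕ} [Fact p.Prime]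

/-- What is used of the residual system. -/
structure ResHyp (p : ℕ) (S : Finset ℕ) (a : ℕ → O) : Prop where
  ne_two : p ≠ 2
  p_mem : (p : O) ∈ maximalIdeal O
  nonEis : Auto.NonEis S a
  twist : ∀ n : ℕ, 0 < n → ∃ ℓ : ℕ, ℓ.Prime ∧ ℓ ∉ S ∧ ¬ ℓ ∣ n ∧
    IsUnit (a ℓ ^ 2 - ((ℓ : O) + 1) ^ 2)

theorem eq_zero_of_isUnit_smul {r : O} (hr : IsUnit r) {V : Type} [AddCommGroup V] [Module O V]
    (v : V) (h : r • v = 0) : v = 0 :=
  (hr.smul_eq_zero).mp h

namespace ResHyp

variable (H : ResHyp p S a)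
include H

theorem p_smul (v : ResidueField O) : p • v = 0 := by
  rw [← Nat.cast_smul_eq_nsmul O]
  exact smul_eq_zero_of_mem H.p_mem v

theorem qfree {q : ℕ} (hq : q.Prime) (hqp : q ≠ p) : Raise.QFree q (ResidueField O) := fun v hv => by
  rw [← Nat.cast_smul_eq_nsmul O] at hv
  exact eq_zero_of_isUnit_smul (Auto.isUnit_natCast H.p_mem fun hd =>
    hqp ((Nat.prime_dvd_prime_iff_eq Fact.out hq).mp hd).symm) v hv

theorem eight (v : ResidueField O) (h : (8 : ℤ) • v = 0) : v = 0 := by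
  have hu : IsUnit ((8 : ℕ) : O) := Auto.isUnit_natCast H.p_mem fun hd =>
    H.ne_two ((Nat.prime_dvd_prime_iff_eq Fact.out Nat.prime_two).mp
      ((Fact.out : p.Prime).dvd_of_dvd_pow (show p ∣ 2 ^ 3 from hd)))
  refine eq_zero_of_isUnit_smul hu v ?_
  rw [Nat.cast_smul_eq_nsmul, ← natCast_zsmul]
  exact h

/-- Residual classes are parabolic. -/
theorem locG_le_parHom {L : ℕ} [NeZero L] (hS : Supp S L) {z : GHom (Gamma0 L) O}
    (hz : z ∈ locG O S a L) : z ∈ ParHom L O := by
  let φ : GHom (Gamma0 L) O →ₗ[O] (Additive (Auto.grp L (1 : (ZMod L)ˣ →* Unit)) →+ O) :=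
    { toFun := Levels.ofG, map_add' := fun _ _ => rfl, map_smul' := fun _ _ => rfl }
  let e : Auto.PrimeOff L S → OffS S := fun i => ⟨i.1.1, i.2⟩
  have hz' : z ∈ locPart (fun i => opL O L S (e i)) (fun i => a ((e i).1 : ℕ)) := fun i => hz (e i)
  have h := Auto.map_mem_locPart (T' := Auto.hT' L (1 : (ZMod L)ˣ →* Unit) O S) φ
    (fun i y => Levels.toG_injective (by
      rw [opL_apply (e i) (hS.good (e i)), Auto.hT', Levels.toG_homT]
      rfl)) hz'
  have hpar := Levels.homLoc_le_parabolic H.ne_two H.p_mem hS H.nonEis h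
  intro γ hγ
  exact hpar ⟨(γ : SL(2, ℤ)), Levels.gamma0_le_grp_one γ.2⟩ hγ

theorem redH_mem {L : ℕ} [NeZero L] (hS : Supp S L) {z : GHom (Gamma0 L) O}
    (hz : z ∈ locG O S a L) : redH L z ∈ ParHom L (ResidueField O) := fun γ hγ => by
  rw [redH_apply, H.locG_le_parHom hS hz γ hγ, map_zero]

/-- A prime `1` modulo `n` outside `S` off the Eisenstein system. -/
theorem exists_one_mod (n : ℕ) (hn : 0 < n) :
    ∃ i : OffS S, (n : ℤ) ∣ ((i.1 : ℕ) : ℤ) - 1 ∧ IsUnit (a (i.1 : ℕ) - (((i.1 : ℕ) : O) + 1)) := by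
  obtain ⟨ℓ, hℓ, hℓS, hℓ1, hu⟩ := H.nonEis n hn
  refine ⟨⟨⟨ℓ, hℓ⟩, hℓS⟩, ?_, hu⟩
  have := (Nat.modEq_iff_dvd).mp hℓ1.symm
  simpa using this

/-- Auxiliary primes of a pair of levels. -/
theorem exists_pair_primes {L q : ℕ} [NeZero L] (hq : q.Prime) :
    ∃ i m : OffS S, ¬ ((i.1 : ℕ) : ℤ) ∣ (q : ℤ) ^ (4 * L ^ 2) - 1 ∧
      IsUnit (a (i.1 : ℕ) ^ 2 - (((i.1 : ℕ) : O) + 1) ^ 2) ∧
      (L : ℤ) ∣ ((m.1 : ℕ) : ℤ) - 1 ∧ IsUnit (a (m.1 : ℕ) - (((m.1 : ℕ) : O) + 1)) := by
  have hbig : 1 < q ^ (4 * L ^ 2) :=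
    Nat.one_lt_pow (mul_ne_zero four_ne_zero (pow_ne_zero 2 (NeZero.ne L))) hq.one_lt
  obtain ⟨ℓ, hℓ, hℓS, hℓn, hu⟩ := H.twist (q ^ (4 * L ^ 2) - 1) (by omega)
  obtain ⟨m, hm1, hm⟩ := H.exists_one_mod L (Nat.pos_of_ne_zero (NeZero.ne L))
  refine ⟨⟨⟨ℓ, hℓ⟩, hℓS⟩, m, fun h => hℓn (Int.natCast_dvd_natCast.mp ?_), hu, hm1, hm⟩
  rw [Nat.cast_sub hbig.le]
  push_cast
  exact h

/-- Restriction and the upper degeneracy map are independent modulo the maximal ideal. -/
theorem pair_redH {L q : ℕ} [NeZero L] (hq : q.Prime) (hqL : ¬ q ∣ L)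
    (hS : Supp S L) (hS' : Supp S (L * q)) (h₁ : L * 1 ∣ L * q) (h₂ : L * q ∣ L * q)
    {x : GHom (Gamma0 L) (ResidueField O)} (hx : x ∈ ParHom L (ResidueField O))
    {z : GHom (Gamma0 L) O} (hz : z ∈ locG O S a L)
    (hrel : degH 1 one_pos h₁ x + degH q hq.pos h₂ (redH L z) = 0) : redH L z = 0 := by
  obtain ⟨i, m, hbad, hu, hm1, hm⟩ := H.exists_pair_primes (L := L) hq
  obtain ⟨k, hk⟩ := exists_nil_redH i (hS.good i) hz
  obtain ⟨j, hj⟩ := exists_nil_redH m (hS.good m) hz
  exact (Raise.pair_eq_zero' hq hqL (hS.good i) (hS'.good i) hbad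
    (eq_zero_of_isUnit_smul hu) (hS.good m) (hS'.good m) hm1 (eq_zero_of_isUnit_smul hm) h₁ h₂ k j
    x _ hx (H.redH_mem hS hz) hrel hk hj).2

/-- A functional on the residual part with vanishing class is zero. -/
theorem functional_eq_zero {L : ℕ} [NeZero L] (hS : Supp S L)
    (F : GHom (Gamma0 L) O →ₗ[O] ResidueField O) (hF : ∀ z, F (projG S a L z) = F z)
    (h0 : Raise.dualPhi (F.toAddMonoidHom.comp (Raise.castCls O L)) = 0) : F = 0 := by
  obtain ⟨m, hm1, hm⟩ := H.exists_one_mod L (Nat.pos_of_ne_zero (NeZero.ne L))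
  obtain ⟨j, hj⟩ := exists_nil_functional m F hF
  have hcast : F.toAddMonoidHom.comp (Raise.castCls O L) = 0 :=
    Raise.eq_zero_of_dualPhi_nilpotent (R := O) H.eight (hS.good m) hm1
      (eq_zero_of_isUnit_smul hm) j _ (by
        exact AddMonoidHom.ext fun x => (funOp_iterate m (hS.good m) _ F j x).trans (hj _)) h0
  refine LinearMap.toAddMonoidHom_injective ?_
  exact Raise.eq_zero_of_castCls (RingHom.id O) F.toAddMonoidHom (fun c x => map_smul F c x)
    (DFunLike.congr_fun hcast)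

end ResHyp

end Fermat.Agent.R59.Raised
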