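/-
S59, unit C2: the residual hypotheses from a seed, the lattice as the residual classes, and the
traces of Frobenius elements at primes of `S` prime to the level as the Hecke operators.
-/
import Fermat.Agent.R59.Defs
import Fermat.Agent.R59.Levels.SeedPart
import Fermat.Agent.R59.Raised.Loc
import Fermat.Agent.TW.Select

set_option autoImplicit false
set_option linter.unusedSectionVars false
set_option linter.style.haveILetI false

noncomputable section

namespace Fermat.Agent.R59.Raised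

open CongruenceSubgroup IsLocalRing
open Fermat.Agent.Galois (GQ)
open Fermat.Agent.GalRep (GoodIndex transferHom ParHom GoodPrime)
open Fermat.Agent.Raise (GHom)
open Fermat.Agent.Auto (Lat latLoc latT PrimeOff)
open scoped MatrixGroups

variable {p : ℕ} [Fact p.Prime] {O : Type} [CommRing O] [IsDomain O] [IsDiscreteValuationRing O]
  [IsAdicComplete (maximalIdeal O) O] [Finite (ResidueField O)]
  [Algebra ℤ_[p] O] [Module.Finite ℤ_[p] O] [CharZero O]
  {ρbar : ResidualGaloisRep (ResidueField O)} {N : ℕ} [NeZero N] {U aux S : Finset ℕ} {a : ℕ → O}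
  {ord : Bool}

theorem notMem_U_of_notMem (H : Seed p O ρbar N U aux S a ord) {l : ℕ} (hlS : l ∉ S) : l ∉ U :=
  fun h => hlS (H.level_mem l (H.mem_U l h).1
    ((H.dvd_iff l (H.mem_U l h).1 (H.mem_U l h).2.1).mpr (Or.inl h)))

theorem frob_of_seed (H : Seed p O ρbar N U aux S a ord) (l : ℕ) (hl : l.Prime) (hlS : l ∉ S)
    (A : ValuationSubring (AlgebraicClosure ℚ)) (hA : A.LiesOverPrime l) (σ : GQ)
    (hσ : A.IsFrobeniusAt σ l) :
    LinearMap.charpoly (ρbar.ρ σ) = Polynomial.X ^ 2 -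
      Polynomial.C (residue O (a l)) * Polynomial.X + Polynomial.C ((l : ResidueField O)) :=
  H.charpoly_frob l hl (fun h => hlS (h.symm ▸ H.p_mem)) (notMem_U_of_notMem H hlS) A hA σ hσ

/-- The hypotheses on the residual system. -/
theorem resHyp_of_seed (H : Seed p O ρbar N U aux S a ord) : ResHyp p S a where
  ne_two := H.p_ne_two
  p_mem := H.p_mem_maximal
  nonEis := Auto.nonEis_of_absIrr H.p_mem_maximal H.absIrr (frob_of_seed H)
  twist n hn := by
    haveI : CharP (ResidueField O) p := (CharP.charP_iff_prime_eq_zero Fact.out).mpr (by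
      rw [← map_natCast (residue O), residue_eq_zero_iff]; exact H.p_mem_maximal)
    let b := Module.finBasisOfFinrankEq (ResidueField O) ρbar.V ρbar.finrank_eq
    obtain ⟨ℓ, hℓ, hbad, hdvd, hfr⟩ :=
      TW.exists_twPrime_distinct p (H.twHyp b) 0 (S ∪ n.primeFactors)
    rw [Finset.mem_union, not_or] at hbad
    obtain ⟨A, hA⟩ := Galois.exists_liesOverPrime hℓ
    obtain ⟨φ, hφ⟩ := Galois.exists_isFrobeniusAt hℓ hA
    obtain ⟨α, β, hne, hchar⟩ := hfr A hA φ hφ
    refine ⟨ℓ, hℓ, hbad.1, fun h => hbad.2 (Nat.mem_primeFactors.mpr ⟨hℓ, h, hn.ne'⟩), ?_⟩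
    have hℓ1 : (ℓ : ResidueField O) = 1 := by
      rw [← Nat.cast_one, CharP.natCast_eq_natCast (ResidueField O) p]
      exact ((Nat.modEq_iff_dvd' hℓ.one_lt.le).mpr (by simpa using hdvd)).symm
    have hc := (LinearMap.charpoly_toMatrix (ρbar.ρ φ) b).symm.trans hchar
    rw [frob_of_seed H ℓ hℓ hbad.1 A hA φ hφ] at hc
    have e1 := congrArg (fun Q => Polynomial.coeff Q 1) hc
    have e0 := congrArg (fun Q => Polynomial.coeff Q 0) hc
    simp [Polynomial.coeff_X_pow, Polynomial.coeff_X, Polynomial.coeff_one, sub_mul, mul_sub,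
      hℓ1] at e0 e1
    by_contra hu
    have h0 := (residue_eq_zero_iff _).mpr ((mem_maximalIdeal _).mpr hu)
    rw [map_sub, map_pow, map_pow, map_add, map_natCast, map_one, hℓ1] at h0
    refine hne (sub_eq_zero.mp (eq_zero_of_pow_eq_zero (n := 2) ?_))
    linear_combination h0 + (residue O (a ℓ) + α + β) * e1 + (4 : ResidueField O) * e0

/-! ## The lattice as classes -/

variable (O) in
/-- A lattice vector as a class of `Γ₀(L)`. -/
def latG (L : ℕ) [NeZero L] : Lat L (1 : (ZMod L)ˣ →* Unit) O →ₗ[O] GHom (Gamma0 L) O where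
  toFun v := Levels.toG v.1
  map_add' _ _ := rfl
  map_smul' _ _ := rfl

variable {L : ℕ} [NeZero L]

theorem latG_injective : Function.Injective (latG O L) := fun _ _ h =>
  Subtype.ext (Levels.toG_injective h)

theorem latG_latT (ℓ : GoodPrime L) (v : Lat L (1 : (ZMod L)ˣ →* Unit) O) :
    latG O L (latT L 1 O ℓ v) = transferHom (GalRep.goodIndex ℓ) (latG O L v) :=
  Levels.toG_latT ℓ v

theorem latG_mem {v : Lat L (1 : (ZMod L)ˣ →* Unit) O} (hS : Supp S L)
    (hv : v ∈ latLoc L (1 : (ZMod L)ˣ →* Unit) O S a) : latG O L v ∈ locG O S a L := by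
  let e : OffS S → PrimeOff L S := fun i => ⟨⟨i.1, (hS.good i).not_dvd⟩, i.2⟩
  have hv' : v ∈ Auto.locPart (fun i : OffS S => latT L (1 : (ZMod L)ˣ →* Unit) O (e i).1)
      (fun i => a ((e i).1 : ℕ)) := fun i => hv (e i)
  exact Auto.map_mem_locPart (T' := opL O L S) (latG O L)
    (fun i y => (latG_latT (e i).1 y).trans (opL_apply i (hS.good i) _).symm) hv'

theorem exists_latG_eq (H : ResHyp p S a) (hS : Supp S L) {z : GHom (Gamma0 L) O}
    (hz : z ∈ locG O S a L) :
    ∃ v ∈ latLoc L (1 : (ZMod L)ˣ →* Unit) O S a, latG O L v = z := by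
  let φ : GHom (Gamma0 L) O →ₗ[O] (Additive (Auto.grp L (1 : (ZMod L)ˣ →* Unit)) →+ O) :=
    { toFun := Levels.ofG, map_add' := fun _ _ => rfl, map_smul' := fun _ _ => rfl }
  let e : PrimeOff L S → OffS S := fun i => ⟨i.1.1, i.2⟩
  have hz' : z ∈ Auto.locPart (fun i => opL O L S (e i)) (fun i => a ((e i).1 : ℕ)) :=
    fun i => hz (e i)
  have h := Auto.map_mem_locPart (T' := Auto.hT' L (1 : (ZMod L)ˣ →* Unit) O S) φ
    (fun i y => Levels.toG_injective (by
      rw [opL_apply (e i) (hS.good (e i)), Auto.hT', Levels.toG_homT]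
      rfl)) hz'
  exact ⟨⟨Levels.ofG z, Levels.homLoc_le_parabolic H.ne_two H.p_mem hS H.nonEis h⟩,
    (Levels.mem_latLoc_iff H.ne_two H.p_mem hS H.nonEis _).mpr h, Levels.toG_ofG z⟩

/-- The module of a lattice system as the residual classes. -/
theorem exists_sys_equiv (H : Seed p O ρbar N U aux S a ord) (X₀ : Sys p O ρbar N S)
    (hlat : X₀.IsLattice a) :
    ∃ e₀ : X₀.M ≃ₗ[O] locG O S a N,
      ∀ (i : OffS S) (A : ValuationSubring (AlgebraicClosure ℚ)), A.LiesOverPrime (i.1 : ℕ) →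
        ∀ τ : GQ, A.IsFrobeniusAt τ (i.1 : ℕ) → ∀ m : X₀.M,
          (e₀ (X₀.X.ρ.trace τ • m) : GHom (Gamma0 N) O) = opL O N S i (e₀ m) := by
  have hS : Supp S N := H.level_mem
  obtain ⟨e, he⟩ := hlat
  let f : latLoc N (1 : (ZMod N)ˣ →* Unit) O S a →ₗ[O] locG O S a N :=
    ((latG O N).comp (latLoc N (1 : (ZMod N)ˣ →* Unit) O S a).subtype).codRestrict _
      fun v => latG_mem hS v.2
  have hf : Function.Bijective f := by
    refine ⟨fun v w h => Subtype.ext (latG_injective (congrArg Subtype.val h)), fun z => ?_⟩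
    obtain ⟨v, hv, hvz⟩ := exists_latG_eq (resHyp_of_seed H) hS z.2
    exact ⟨⟨v, hv⟩, Subtype.ext hvz⟩
  refine ⟨e.trans (LinearEquiv.ofBijective f hf), fun i A hA τ hτ m => ?_⟩
  let j : PrimeOff N S := ⟨⟨i.1, (hS.good i).not_dvd⟩, i.2⟩
  show latG O N (e (X₀.X.ρ.trace τ • m)).1 = opL O N S i (latG O N (e m).1)
  rw [he j A hA τ hτ m, latG_latT, opL_apply i (hS.good i)]

/-- The trace of a Frobenius element at a prime of `S` prime to the level acts as the Hecke
operator. -/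
theorem trace_frob_eq_transfer (H : Seed p O ρbar N U aux S a ord) (X₀ : Sys p O ρbar N S)
    (e₀ : X₀.M ≃ₗ[O] locG O S a N)
    (he₀ : ∀ (i : OffS S) (A : ValuationSubring (AlgebraicClosure ℚ)), A.LiesOverPrime (i.1 : ℕ) →
      ∀ τ : GQ, A.IsFrobeniusAt τ (i.1 : ℕ) → ∀ m : X₀.M,
        (e₀ (X₀.X.ρ.trace τ • m) : GHom (Gamma0 N) O) = opL O N S i (e₀ m))
    {q : ℕ} (hqp : q ≠ p) (hqU : q ∉ U) (hgq : GoodIndex N q)
    {A : ValuationSubring (AlgebraicClosure ℚ)} (hA : A.LiesOverPrime q) {τ : GQ}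
    (hτ : A.IsFrobeniusAt τ q) (m : X₀.M) :
    (e₀ (X₀.X.ρ.trace τ • m) : GHom (Gamma0 N) O) = transferHom hgq (e₀ m) := by
  have hS : Supp S N := H.level_mem
  set S' := S.erase q
  have hS'sub : S' ⊆ S := Finset.erase_subset _ _
  have hpS' : p ∈ S' := Finset.mem_erase.mpr ⟨Ne.symm hqp, H.p_mem⟩
  have hMS' : ∀ l : ℕ, l.Prime → l ∣ N → l ∈ S' := fun l hl h =>
    Finset.mem_erase.mpr ⟨fun e => hgq.not_dvd (e ▸ h), H.level_mem l hl h⟩
  have hnU : ∀ l, l ∉ S' → l ∉ U := fun l h hU => by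
    by_cases e : l = q
    · exact hqU (e ▸ hU)
    · exact notMem_U_of_notMem H (fun hl => h (Finset.mem_erase.mpr ⟨e, hl⟩)) hU
  have heq : latLoc N (1 : (ZMod N)ˣ →* Unit) O S a =
      latLoc N (1 : (ZMod N)ˣ →* Unit) O S' a := by
    by_cases hqS : q ∈ S
    · conv_lhs => rw [← Finset.insert_erase hqS]
      exact Levels.latLoc_insert_eq H.p_ne_two H.p_mem_maximal ρbar H.absIrr
        (fun l hl hlS A hA σ hσ => H.charpoly_frob l hl (fun e => hlS (e ▸ hpS')) (hnU l hlS) A hA σ hσ)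
        hpS' hMS' hgq.prime (Finset.notMem_erase _ _)
    · rw [show S' = S from Finset.erase_eq_of_notMem hqS]
  have hne : latLoc N (1 : (ZMod N)ˣ →* Unit) O S' a ≠ ⊥ :=
    heq ▸ Levels.latLoc_ne_bot_of_seed H
  have HS : Levels.Setting p O ρbar N S' a :=
    { ne_two := H.p_ne_two
      p_mem := hpS'
      level_mem := hMS'
      neat := (Levels.setting_of_seed H dvd_rfl H.level_mem
        (Levels.latLoc_ne_bot_of_seed H)).neat
      absIrr := H.absIrr
      charpoly_frob := (Levels.setting_of_seed H dvd_rfl H.level_mem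
        (Levels.latLoc_ne_bot_of_seed H)).charpoly_frob
      ne_bot := hne }
  obtain ⟨B⟩ := Levels.exists_baseData HS
  set V' := latLoc N (1 : (ZMod N)ˣ →* Unit) O S' a
  let g : V' →ₗ[O] GHom (Gamma0 N) O := (latG O N).comp V'.subtype
  have hg : Function.Injective g := fun v w h => Subtype.ext (latG_injective h)
  have hrange : ∀ z : locG O S a N, ∃ v : V', g v = z := fun z => by
    obtain ⟨v, hv, hvz⟩ := exists_latG_eq (resHyp_of_seed H) hS z.2
    exact ⟨⟨v, heq ▸ hv⟩, hvz⟩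
  choose back hback using hrange
  let f : X₀.M →ₗ[O] V' :=
    { toFun := fun m => back (e₀ m)
      map_add' := fun x y => hg (by rw [map_add g, hback, hback, hback, map_add]; rfl)
      map_smul' := fun c x => hg (by rw [map_smul g, RingHom.id_apply, hback, hback, map_smul]; rfl) }
  have hint : ∀ (σ : GQ) (x : X₀.M), f (X₀.X.ρ.trace σ • x) = B.act (B.ρ.trace σ) (f x) :=
    fun σ x => Levels.intertwine_of_frobenius (L₁ := X₀.M) (L₂ := V') X₀.X.ρ B.ρ
      (Algebra.lsmul O O X₀.M) B.act f S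
      (fun l hl hlS A hA σ hσ x => hg (by
        let i : OffS S := ⟨⟨l, hl⟩, hlS⟩
        let j : GoodPrime N := ⟨⟨l, hl⟩, (hS.good i).not_dvd⟩
        show g (back (e₀ (X₀.X.ρ.trace σ • x))) = latG O N (B.act (B.ρ.trace σ) (f x)).1
        rw [hback, he₀ i A hA σ hσ, B.act_frobenius j (fun h => hlS (hS'sub h)) A hA σ hσ,
          latG_latT, opL_apply i (hS.good i)]
        exact congrArg _ (hback (e₀ x)).symm)) σ x
  let j : GoodPrime N := ⟨⟨q, hgq.prime⟩, hgq.not_dvd⟩
  have h1 := congrArg g (hint τ m)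
  rw [show g (f (X₀.X.ρ.trace τ • m)) = (e₀ (X₀.X.ρ.trace τ • m) : GHom (Gamma0 N) O) from
    hback _] at h1
  rw [h1]
  show latG O N (B.act (B.ρ.trace τ) (f m)).1 = _
  rw [B.act_frobenius j (Finset.notMem_erase _ _) A hA τ hτ, latG_latT]
  exact congrArg _ (hback (e₀ m))

/-- Maps intertwining the traces of Frobenius elements are semilinear. -/
theorem smul_comm_of_frobenius {L₁ L₂ : ℕ} [NeZero L₁] [NeZero L₂]
    {Y : Sys p O ρbar L₁ S} {Z : Sys p O ρbar L₂ S} (σ : Y.X.R →ₐ[O] Z.X.R)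
    (hσ : Y.X.IsHom Z.X σ) (f : Y.M →ₗ[O] Z.M)
    (h : ∀ l : ℕ, l.Prime → l ∉ S → ∀ A : ValuationSubring (AlgebraicClosure ℚ),
      A.LiesOverPrime l → ∀ τ : GQ, A.IsFrobeniusAt τ l → ∀ x,
        f (Y.X.ρ.trace τ • x) = Z.X.ρ.trace τ • f x)
    (y : Y.X.R) : ∀ x, f (y • x) = σ y • f x := by
  have hr := (Y.X.adjoin_trace).ge (Algebra.mem_top : y ∈ (⊤ : Subalgebra O Y.X.R))
  induction hr using Algebra.adjoin_induction with
  | mem z hz =>
    obtain ⟨τ, rfl⟩ := hz
    intro x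
    rw [hσ]
    exact Levels.intertwine_of_frobenius (L₁ := Y.M) (L₂ := Z.M) Y.X.ρ Z.X.ρ
      (Algebra.lsmul O O Y.M) (Algebra.lsmul O O Z.M) f S h τ x
  | algebraMap c => intro x; rw [algebraMap_smul, AlgHom.commutes, algebraMap_smul, map_smul]
  | add u v _ _ hu hv => intro x; rw [add_smul, map_add, map_add, hu, hv, add_smul]
  | mul u v _ _ hu hv => intro x; rw [mul_smul, map_mul, hu, hv, mul_smul]

end Fermat.Agent.R59.Raised
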