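import Fermat.Agent.Raise.Ops

/-!
S59, unit C2: the operators of the two step raising at any levels: degeneracy maps, corestriction,
`U_q`, and their commutations.
-/

set_option autoImplicit false
set_option linter.unusedSectionVars false
set_option linter.style.haveILetI false

noncomputable section

namespace Fermat.Agent.R59.Raised

open CongruenceSubgroup
open Fermat.Agent.Raise (GHom ZMat zMat IsFam zMat_mul zMat_one det_zMat inv_mul_zMat coe_inv_eq det_two)
open Fermat.Agent.GalRep (GoodIndex heckeRep transferHom det_heckeRep heckeRep_unique ParHom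
  exists_eq_mul_heckeRep mul_heckeRep_none mul_heckeRep_some heckeRep_one_zero trace_pow_sq_eq_four)
open scoped MatrixGroups

variable {L L' : ℕ} {A : Type} [AddCommGroup A]

/-! ## Parabolic classes -/

section Par

variable {G G' : Subgroup SL(2, ℤ)} {ι : Type} {β : ι → ZMat} (hβ : IsFam G G' β)

theorem idx_pow (γ : G') (n : ℕ) (i : ι) : hβ.idx (γ ^ n) i = (hβ.idx γ)^[n] i := by
  induction n with
  | zero => simpa using (hβ.idx_one i).1
  | succ n ih => rw [pow_succ, (hβ.idx_mul _ _ i).1, ih, Function.iterate_succ_apply']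

theorem trace_coef {γ : G'} {i : ι} (hi : hβ.idx γ i = i) :
    (zMat (hβ.coef γ i)).trace = (zMat γ).trace := by
  have h1 := hβ.spec γ i
  rw [hi] at h1
  have h2 := congrArg (fun X => (X * (β i).adjugate).trace) h1
  simp only [Matrix.mul_assoc, Matrix.mul_adjugate, Matrix.mul_smul, Matrix.mul_one,
    Matrix.trace_smul] at h2
  rw [Matrix.trace_mul_comm, Matrix.mul_assoc, Matrix.adjugate_mul, Matrix.mul_smul,
    Matrix.mul_one, Matrix.trace_smul] at h2
  exact (mul_left_cancel₀ (hβ.det_ne i) h2).symm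

/-- Transfers preserve parabolic homomorphisms. -/
theorem trans_parabolic [Fintype ι] (x : GHom G A)
    (hx : ∀ γ : G, (zMat γ).trace ^ 2 = 4 → x (Additive.ofMul γ) = 0) (γ : G')
    (hγ : (zMat γ).trace ^ 2 = 4) : hβ.trans x (Additive.ofMul γ) = 0 := by
  classical
  rw [IsFam.trans_apply]
  set e := hβ.perm γ
  rw [← Finset.sum_fiberwise (Finset.univ : Finset ι)
    (fun i => (Quotient.mk (Equiv.Perm.SameCycle.setoid e) i))
    (fun i => x (Additive.ofMul (hβ.coef γ i)))]
  refine Finset.sum_eq_zero fun q _ => ?_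
  induction q using Quotient.inductionOn with
  | h i =>
    set c := Function.minimalPeriod e i
    have hc : 0 < c := Function.IsPeriodicPt.minimalPeriod_pos (orderOf_pos e)
      (show e^[orderOf e] i = i by rw [← Equiv.Perm.coe_pow, pow_orderOf_eq_one]; rfl)
    have hset : (Finset.univ.filter fun j => Quotient.mk (Equiv.Perm.SameCycle.setoid e) j =
        Quotient.mk (Equiv.Perm.SameCycle.setoid e) i) = (Finset.range c).image fun t => e^[t] i := by
      ext j
      simp only [Finset.mem_filter, Finset.mem_univ, true_and, Finset.mem_image, Finset.mem_range,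
        Quotient.eq]
      constructor
      · intro hj
        obtain ⟨t, ht⟩ := (Equiv.Perm.SameCycle.symm hj).exists_nat_pow_eq
        refine ⟨t % c, Nat.mod_lt _ hc, ?_⟩
        rw [Function.iterate_mod_minimalPeriod_eq, ← Equiv.Perm.coe_pow]
        exact ht
      · rintro ⟨t, -, rfl⟩
        exact Equiv.Perm.SameCycle.symm ⟨t, by rw [zpow_natCast, Equiv.Perm.coe_pow]⟩
    rw [hset, Finset.sum_image fun a ha b hb hab =>
      Function.iterate_injOn_Iio_minimalPeriod (Finset.mem_range.mp ha) (Finset.mem_range.mp hb) hab]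
    have hsum : ∀ n : ℕ, x (Additive.ofMul (hβ.coef (γ ^ n) i)) =
        ∑ t ∈ Finset.range n, x (Additive.ofMul (hβ.coef γ ((hβ.idx γ)^[t] i))) := by
      intro n
      induction n with
      | zero =>
        rw [pow_zero, (hβ.idx_one i).2, Finset.sum_range_zero]
        exact map_zero _
      | succ n ih =>
        rw [pow_succ, (hβ.idx_mul _ _ i).2, ofMul_mul, map_add, ih, Finset.sum_range_succ, idx_pow]
    have hfix : hβ.idx (γ ^ c) i = i := by
      rw [idx_pow]; exact Function.iterate_minimalPeriod (f := e) (x := i)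
    have := hsum c
    rw [hx _ (by
      rw [trace_coef hβ hfix]
      show (((γ ^ c : G') : SL(2, ℤ)) : ZMat).trace ^ 2 = 4
      rw [SubgroupClass.coe_pow, Matrix.SpecialLinearGroup.coe_pow]
      exact trace_pow_sq_eq_four _ (γ : SL(2, ℤ)).det_coe hγ c)] at this
    exact this.symm

theorem trans_mem {G : Subgroup SL(2, ℤ)} {ι : Type} [Fintype ι] {β : ι → ZMat} {M : ℕ}
    (hβ : IsFam (Gamma0 M) G β) {x : GHom (Gamma0 M) A} (hx : x ∈ ParHom M A) (γ : G)
    (hγ : (zMat γ).trace ^ 2 = 4) : hβ.trans x (Additive.ofMul γ) = 0 :=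
  trans_parabolic hβ x hx γ hγ

end Par

/-! ## Degeneracy maps -/

/-- The representative `diag(d, 1)`. -/
def degRep (d : ℕ) : Unit → ZMat := fun _ => !![(d : ℤ), 0; 0, 1]

theorem isFam_deg {d : ℕ} (hd : 0 < d) (h : L * d ∣ L') :
    IsFam (Gamma0 L) (Gamma0 L') (degRep d) where
  det_ne _ := by simp [degRep, Matrix.det_fin_two_of, hd.ne']
  inj _ _ _ _ := rfl
  step γ _ := by
    obtain ⟨t, ht⟩ := h
    obtain ⟨c, hc⟩ := Raise.mem_gamma0_iff_dvd.mp γ.2
    refine ⟨(), ⟨Raise.mkSL ((γ : SL(2, ℤ)) 0 0) ((d : ℤ) * (γ : SL(2, ℤ)) 0 1) ((L : ℤ) * t * c)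
      ((γ : SL(2, ℤ)) 1 1) (by
        have e := det_two (γ : SL(2, ℤ))
        have ht' : ((L' : ℕ) : ℤ) = (L : ℤ) * d * t := by exact_mod_cast ht
        rw [hc] at e
        linear_combination e + ((γ : SL(2, ℤ)) 0 1 * c) * ht'),
      Raise.mem_gamma0_iff_dvd.mpr (by simp [mul_assoc])⟩, ?_⟩
    have ht' : ((L' : ℕ) : ℤ) = (L : ℤ) * d * t := by exact_mod_cast ht
    ext i j
    fin_cases i <;> fin_cases j <;>
      simp [degRep, zMat, Matrix.mul_apply, Fin.sum_univ_two, hc]
    all_goals first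
      | ring1
      | linear_combination c * ht'

/-- The degeneracy map `γ ↦ diag(d, 1) γ diag(d, 1)⁻¹`. -/
def degH (d : ℕ) (hd : 0 < d) (h : L * d ∣ L') : GHom (Gamma0 L) A →+ GHom (Gamma0 L') A :=
  (isFam_deg hd h).trans

theorem degH_apply_of_eq {d : ℕ} (hd : 0 < d) (h : L * d ∣ L') (x : GHom (Gamma0 L) A)
    {γ : Gamma0 L'} {g : Gamma0 L}
    (e : !![(d : ℤ), 0; 0, 1] * zMat γ = zMat g * !![(d : ℤ), 0; 0, 1]) :
    degH d hd h x (Additive.ofMul γ) = x (Additive.ofMul g) := by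
  rw [degH, IsFam.trans_apply, Fintype.sum_unique,
    ((isFam_deg hd h).unique (γ := γ) (g := g) (i := default) (j := default) e).2]

theorem degH_degH {L'' : ℕ} {d d' : ℕ} (hd : 0 < d) (hd' : 0 < d') (h : L * d ∣ L')
    (h' : L' * d' ∣ L'') (h'' : L * (d * d') ∣ L'') (x : GHom (Gamma0 L) A) :
    degH d' hd' h' (degH d hd h x) = degH (d * d') (Nat.mul_pos hd hd') h'' x := by
  refine AddMonoidHom.ext fun t => ?_
  obtain ⟨γ, rfl⟩ := Additive.ofMul.surjective t
  obtain ⟨_, g₁, e₁⟩ := (isFam_deg hd' h').step γ default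
  obtain ⟨_, g₂, e₂⟩ := (isFam_deg hd h).step g₁ default
  rw [degH_apply_of_eq hd' h' _ e₁, degH_apply_of_eq hd h _ e₂,
    degH_apply_of_eq (Nat.mul_pos hd hd') h'' x (γ := γ) (g := g₂) ?_]
  have hD : !![(d : ℤ), 0; 0, 1] * !![(d' : ℤ), 0; 0, 1] = !![((d * d' : ℕ) : ℤ), 0; 0, 1] := by
    simp [Matrix.mul_fin_two]
  simp only [degRep] at e₁ e₂
  rw [← hD, mul_assoc, e₁, ← mul_assoc, e₂, mul_assoc]

/-! ## Corestriction -/

theorem gamma0_anti (h : L ∣ L') : Gamma0 L' ≤ Gamma0 L := fun _ hγ =>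
  Raise.mem_gamma0_iff_dvd.mpr ((Int.natCast_dvd_natCast.mpr h).trans
    (Raise.mem_gamma0_iff_dvd.mp hγ))

instance finite_cosets (L L' : ℕ) [NeZero L'] :
    Finite (Gamma0 L ⧸ (Gamma0 L').subgroupOf (Gamma0 L)) := by
  haveI : (Gamma0 L').FiniteIndex :=
    IsCongruenceSubgroup.finiteIndex (Gamma0_is_congruence L')
  infer_instance

/-- The cosets `Γ₀(L') \ Γ₀(L)`, through inverses of left coset representatives. -/
abbrev Cosets (L L' : ℕ) : Type := Gamma0 L ⧸ (Gamma0 L').subgroupOf (Gamma0 L)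

/-- A representative of a coset. -/
def corElt (c : Cosets L L') : Gamma0 L := (Quotient.out c)⁻¹

/-- The family of corestriction. -/
def corRep (c : Cosets L L') : ZMat := zMat (corElt c)

theorem corElt_eq_iff (c : Cosets L L') (g : Gamma0 L) :
    ((g⁻¹ : Gamma0 L) : Cosets L L') = c ↔ ((g * (corElt c)⁻¹ : Gamma0 L) : SL(2, ℤ)) ∈ Gamma0 L' := by
  conv_lhs => rw [← Quotient.out_eq c]
  show (QuotientGroup.mk _ : Cosets L L') = QuotientGroup.mk _ ↔ _
  rw [QuotientGroup.eq, Subgroup.mem_subgroupOf, corElt, inv_inv, inv_inv]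

theorem exists_corRep (h : L ∣ L') (g : Gamma0 L) :
    ∃ (c : Cosets L L') (k : Gamma0 L'), zMat g = zMat k * corRep c := by
  refine ⟨((g⁻¹ : Gamma0 L) : Cosets L L'), ⟨_, (corElt_eq_iff _ g).mp rfl⟩, ?_⟩
  show zMat g = zMat (g * (corElt _)⁻¹) * zMat (corElt _)
  rw [← zMat_mul, inv_mul_cancel_right]

theorem corRep_inj {i j : Cosets L L'} {k : Gamma0 L'} (e : corRep i = zMat k * corRep j) :
    i = j := by
  have h1 : (corElt i * (corElt j)⁻¹ : Gamma0 L) = ((k : SL(2, ℤ)) : SL(2, ℤ)) := by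
    rw [Subgroup.coe_mul, Subgroup.coe_inv, mul_inv_eq_iff_eq_mul]
    exact Subtype.ext e
  have h2 : ((((corElt i)⁻¹ : Gamma0 L)) : Cosets L L') = j :=
    (corElt_eq_iff _ _).mpr (h1 ▸ k.2)
  rwa [corElt, inv_inv, show ((Quotient.out i : Gamma0 L) : Cosets L L') = i from
    Quotient.out_eq i] at h2

theorem isFam_corH (h : L ∣ L') : IsFam (Gamma0 L') (Gamma0 L) (corRep (L := L) (L' := L')) where
  det_ne c := by rw [corRep, det_zMat]; exact one_ne_zero
  inj _ _ _ e := corRep_inj e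
  step γ i := by
    obtain ⟨c, k, e⟩ := exists_corRep h (corElt i * γ)
    exact ⟨c, k, by rw [← e, zMat_mul]; rfl⟩

/-- Corestriction from `Γ₀(L')` to `Γ₀(L)`. -/
def corH [NeZero L'] (h : L ∣ L') : GHom (Gamma0 L') A →+ GHom (Gamma0 L) A :=
  letI := Fintype.ofFinite (Cosets L L')
  (isFam_corH h).trans

theorem degH_one_apply (h : L * 1 ∣ L') (x : GHom (Gamma0 L) A) (γ : Gamma0 L') :
    degH 1 one_pos h x (Additive.ofMul γ) =
      x (Additive.ofMul ⟨γ, gamma0_anti ((one_mul L).symm ▸ (mul_comm L 1 ▸ h)) γ.2⟩) :=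
  degH_apply_of_eq one_pos h x (by simp [zMat, ← Matrix.one_fin_two])

theorem corH_degH_one [NeZero L'] (h : L ∣ L') (x : GHom (Gamma0 L) A) :
    corH h (degH 1 one_pos (by rwa [mul_one]) x) = Nat.card (Cosets L L') • x := by
  letI := Fintype.ofFinite (Cosets L L')
  refine AddMonoidHom.ext fun t => ?_
  obtain ⟨γ, rfl⟩ := Additive.ofMul.surjective t
  rw [corH, IsFam.trans_apply, AddMonoidHom.smul_apply, Nat.card_eq_fintype_card]
  have key : ∀ i, (⟨_, gamma0_anti h ((isFam_corH h).coef γ i).2⟩ : Gamma0 L) =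
      corElt i * γ * (corElt ((isFam_corH h).idx γ i))⁻¹ := fun i => by
    rw [eq_mul_inv_iff_mul_eq]
    refine Raise.zMat_injective ?_
    rw [zMat_mul, zMat_mul]
    exact ((isFam_corH h).spec γ i).symm
  simp only [degH_one_apply, key, ofMul_mul, ofMul_inv, map_add, map_neg, Finset.sum_add_distrib,
    Finset.sum_neg_distrib, Finset.sum_const, Finset.card_univ]
  rw [(isFam_corH h).sum_idx γ (fun i => x (Additive.ofMul (corElt i)))]
  abel

/-- Corestriction of a crossing homomorphism. -/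
theorem corH_crossHom [NeZero L'] (h : L ∣ L') (v w : Raise.ZVec) :
    corH h (Raise.crossHom (Gamma0 L') v w) = Raise.crossHom (Gamma0 L) v w := by
  letI := Fintype.ofFinite (Cosets L L')
  have := (isFam_corH h).trans_crossHom (α := fun _ : Unit => (1 : ZMat)) (fun _ => by simp)
    (fun _ _ _ _ => rfl)
    (fun i g => ⟨(), (corElt i)⁻¹ * ⟨g, gamma0_anti h g.2⟩, by
      rw [zMat_mul, mul_one]
      simp [corRep, zMat, Matrix.SpecialLinearGroup.coe_inv]⟩)
    (fun _ k => by
      obtain ⟨i, g, e⟩ := exists_corRep h k⁻¹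
      refine ⟨i, g⁻¹, ?_⟩
      have := congrArg Matrix.adjugate e
      rw [Matrix.adjugate_mul_distrib] at this
      rw [mul_one]
      simpa [zMat, Matrix.SpecialLinearGroup.coe_inv, Matrix.adjugate_adjugate] using this.symm)
    v w
  rw [corH, this]
  simp

/-! ## `U_q` -/

/-- Representatives of `U_q`. -/
def uRepL (q : ℕ) (b : Fin q) : ZMat := heckeRep q (some b)

/-- The family of `U_q` from level `L` to a level `L'` with `q ∣ L'` and `L ∣ L' q`. -/
theorem isFam_uL {q : ℕ} (hq : q.Prime) (hqL : q ∣ L') (h : L ∣ L' * q) (hqL₁ : q ∣ L) :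
    IsFam (Gamma0 L) (Gamma0 L') (uRepL q) where
  det_ne b := by rw [uRepL, det_heckeRep]; exact_mod_cast hq.ne_zero
  inj a b g e := Option.some_injective _ (heckeRep_unique hq (M := 1) (M' := zMat g)
    (by rw [Matrix.det_one]; exact_mod_cast hq.not_dvd_one) (by rw [one_mul]; exact e))
  step γ b := by
    have hc := Raise.mem_gamma0_iff_dvd.mp γ.2
    have hq' : (q : ℤ) ∣ (γ : SL(2, ℤ)) 1 0 := (Int.natCast_dvd_natCast.mpr hqL).trans hc
    obtain ⟨j, X, hX⟩ := exists_eq_mul_heckeRep hq (uRepL q b * zMat γ)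
      ⟨1, by rw [Matrix.det_mul, uRepL, det_heckeRep, det_zMat]⟩
    have hXd : X.det = 1 := by
      have := congrArg Matrix.det hX
      rw [Matrix.det_mul, Matrix.det_mul, uRepL, det_heckeRep, det_heckeRep, det_zMat, mul_one] at this
      exact mul_right_cancel₀ (Int.natCast_ne_zero.mpr hq.ne_zero) (this.symm.trans (one_mul _).symm)
    have e10 := congrArg (fun Y : ZMat => Y 1 0) hX
    cases j with
    | none =>
      exfalso
      have e11 := congrArg (fun Y : ZMat => Y 1 1) hX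
      rw [mul_heckeRep_none] at e10 e11
      simp [uRepL, heckeRep, Matrix.mul_apply, Fin.sum_univ_two] at e10 e11
      have h10 : (q : ℤ) ∣ X 1 0 := by
        have : (q : ℤ) * X 1 0 = (q : ℤ) * (γ : SL(2, ℤ)) 1 0 := by linarith
        rwa [mul_left_cancel₀ (Int.natCast_ne_zero.mpr hq.ne_zero) this]
      rw [Matrix.det_fin_two] at hXd
      exact (Nat.prime_iff_prime_int.mp hq).not_dvd_one (hXd ▸
        dvd_sub ((e11 ▸ dvd_mul_right _ _ : (q : ℤ) ∣ X 1 1).mul_left _) (h10.mul_left _))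
    | some c =>
      refine ⟨c, ⟨⟨X, hXd⟩, Raise.mem_gamma0_iff_dvd.mpr ?_⟩, hX⟩
      rw [mul_heckeRep_some] at e10
      simp [uRepL, heckeRep, Matrix.mul_apply, Fin.sum_univ_two] at e10
      show (L : ℤ) ∣ X 1 0
      rw [← e10]
      exact (Int.natCast_dvd_natCast.mpr h).trans (by
        rw [Nat.cast_mul, mul_comm]; exact mul_dvd_mul_left _ hc)

/-- The operator `U_q` from level `L` to level `L'`. -/
def uH {q : ℕ} (hq : q.Prime) (hqL : q ∣ L') (h : L ∣ L' * q) (hqL₁ : q ∣ L) :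
    GHom (Gamma0 L) A →+ GHom (Gamma0 L') A :=
  (isFam_uL hq hqL h hqL₁).trans

/-- The operator `U_q` of level `L`. -/
def uEnd {q : ℕ} (hq : q.Prime) (hqL : q ∣ L) : GHom (Gamma0 L) A →+ GHom (Gamma0 L) A :=
  uH hq hqL (dvd_mul_right L q) hqL

end Fermat.Agent.R59.Raised
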