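/-
S59, unit C2: one step of raising, from level `L` to level `L q²`.

The map `z ↦ z|q² - (T_q z)|q + q z` lands in the part killed by `U_q`, is injective modulo the
maximal ideal (Ihara twice), its composite with corestriction is `(q - 1) ((q + 1)² - T_q²)`, and
corestriction from that part is surjective (Ihara twice for the classes given by functionals).
-/
import Fermat.Agent.R59.Raised.Loc
import Fermat.Agent.R59.Raise.StepTwo
import Fermat.Agent.R59.Levels.Degeneracy

set_option autoImplicit false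
set_option linter.unusedSectionVars false
set_option linter.style.haveILetI false

noncomputable section

namespace Fermat.Agent.R59.Raised

open CongruenceSubgroup IsLocalRing
open Fermat.Agent.Raise (GHom LevData trans_heckeRep)
open Fermat.Agent.GalRep (GoodIndex transferHom ParHom)
open Fermat.Agent.Auto (locPart fitProj mPow)
open Fermat.Agent.R59.Raise (opSub funOp dualPhi castCls trans_smul' transferHom_smul)
open scoped MatrixGroups

variable {O : Type} [CommRing O]

variable (O) in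
/-- A good transfer as a linear map. -/
def tL {L q : ℕ} (hg : GoodIndex L q) : Module.End O (GHom (Gamma0 L) O) where
  toFun := transferHom hg
  map_add' := GalRep.transferHom_add hg
  map_smul' r z := transferHom_smul hg r z

theorem tL_apply {L q : ℕ} (hg : GoodIndex L q) (z : GHom (Gamma0 L) O) :
    tL O hg z = transferHom hg z := rfl

theorem opL_tL {S : Finset ℕ} {L q : ℕ} (hS : Supp S L) (i : OffS S) (hg : GoodIndex L q)
    (z : GHom (Gamma0 L) O) : tL O hg (opL O L S i z) = opL O L S i (tL O hg z) := by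
  rw [tL_apply, tL_apply, opL_apply i (hS.good i), opL_apply i (hS.good i)]
  exact GalRep.transferHom_comm hg (hS.good i) z

/-- The Atkin–Lehner operator as a linear map. -/
def wLin {N q : ℕ} (D : LevData N q) : Module.End O (GHom (Gamma0 (N * q)) O) where
  toFun := D.wOp
  map_add' := map_add _
  map_smul' r z := trans_smul' _ r z

theorem wLin_apply {N q : ℕ} (D : LevData N q) (z : GHom (Gamma0 (N * q)) O) :
    wLin D z = D.wOp z := rfl

theorem opL_wLin {S : Finset ℕ} {N q : ℕ} (D : LevData N q) (hS : Supp S (N * q)) (i : OffS S)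
    (z : GHom (Gamma0 (N * q)) O) :
    wLin D (opL O (N * q) S i z) = opL O (N * q) S i (wLin D z) := by
  rw [wLin_apply, wLin_apply, opL_apply i (hS.good i), opL_apply i (hS.good i)]
  exact D.wOp_transfer (hS.good i) z

theorem Supp.of_dvd {S : Finset ℕ} {L L' : ℕ} (h : Supp S L') (hd : L ∣ L') : Supp S L :=
  fun r hr hrd => h r hr (hrd.trans hd)

theorem uEnd_degH' {A : Type} [AddCommGroup A] {L L' d e q : ℕ} (he : e = d * q) (hq : q.Prime)
    (hd : 0 < d) (he0 : 0 < e) (hqL : q ∣ L') (h : L * e ∣ L') (h' : L * d ∣ L')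
    (z : GHom (Gamma0 L) A) :
    uEnd hq hqL (degH e he0 h z) = q • degH d hd h' z := by
  subst he
  exact uEnd_degH hq hd hqL h h' z

theorem degH_degH' {A : Type} [AddCommGroup A] {L L' L'' : ℕ} {d d' e : ℕ} (he : e = d * d')
    (hd : 0 < d) (hd' : 0 < d') (he0 : 0 < e) (h : L * d ∣ L') (h' : L' * d' ∣ L'')
    (h'' : L * e ∣ L'') (x : GHom (Gamma0 L) A) :
    degH d' hd' h' (degH d hd h x) = degH e he0 h'' x := by
  subst he
  exact degH_degH hd hd' h h' h'' x

/-- The second step of Ihara's lemma, at level `L q q`. -/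
theorem stepTwo' {L q : ℕ} {A : Type} [AddCommGroup A] {R : Type} [CommRing R] [Module R A]
    {p : ℕ} (hp : p.Prime) (hp2 : p ≠ 2) (hq : q.Prime) (hqp : q ≠ p) (hqL : ¬ q ∣ L)
    (hA : ∀ v : A, p • v = 0) {x y : GHom (Gamma0 (L * q)) A} (hy : y ∈ ParHom (L * q) A)
    (h₁ : L * q * 1 ∣ L * q * q) (h₂ : L * q * q ∣ L * q * q)
    (hrel : degH 1 one_pos h₁ x + degH q hq.pos h₂ y = 0)
    {ℓ : ℕ} (hg : GoodIndex (L * q) ℓ) (hg₀ : GoodIndex L ℓ) (hℓ : (q : ℤ) ∣ (ℓ : ℤ) - 1) (a : R)
    (hu : IsUnit (((ℓ : R) + 1) - a)) (k : ℕ) (hnil : (opSub hg a)^[k] y = 0) :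
    ∃ z ∈ ParHom L A, y = degH 1 one_pos (mul_dvd_mul_left L (one_dvd q)) z := by
  have key : ∀ (L' : ℕ) (e₁ : L * q * 1 ∣ L') (e₂ : L * q * q ∣ L'), L' = L * q * q →
      degH 1 one_pos e₁ x + degH q hq.pos e₂ y = 0 := by
    rintro L' e₁ e₂ rfl
    exact hrel
  exact Raise.stepTwo_exact hp hp2 hq hqp hqL hA hy
    (mul_one (L * q) ▸ dvd_of_mul_right_eq q (by ring)) (dvd_of_eq (by ring))
    (key (L * q ^ 2) _ _ (by ring)) hg hg₀ hℓ a hu k hnil

/-- The map of one step. -/
def iStep {L q : ℕ} (hg : GoodIndex L q) :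
    GHom (Gamma0 L) O →ₗ[O] GHom (Gamma0 (L * q * q)) O :=
  degL O (q * q) (Nat.mul_pos hg.prime.pos hg.prime.pos) (dvd_of_eq (mul_assoc L q q).symm) -
    (degL O q hg.prime.pos (dvd_mul_right (L * q) q)).comp (tL O hg) +
      (q : O) • degL O 1 one_pos (by rw [mul_one, mul_assoc]; exact dvd_mul_right L (q * q))

theorem iStep_apply {L q : ℕ} (hg : GoodIndex L q) (z : GHom (Gamma0 L) O)
    (h₂ : L * (q * q) ∣ L * q * q) (h₁ : L * q ∣ L * q * q) (h₀ : L * 1 ∣ L * q * q) :
    iStep hg z = degH (q * q) (Nat.mul_pos hg.prime.pos hg.prime.pos) h₂ z -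
      degH q hg.prime.pos h₁ (transferHom hg z) + q • degH 1 one_pos h₀ z := by
  simp only [iStep, LinearMap.add_apply, LinearMap.sub_apply, LinearMap.comp_apply,
    LinearMap.smul_apply, degL_apply, tL_apply, Nat.cast_smul_eq_nsmul]

/-- The composite of one step with corestriction. -/
def gamOp {L q : ℕ} (hg : GoodIndex L q) : Module.End O (GHom (Gamma0 L) O) :=
  ((q : O) - 1) • (((q : O) + 1) ^ 2 • (1 : Module.End O (GHom (Gamma0 L) O)) - tL O hg * tL O hg)

theorem gamOp_apply {L q : ℕ} (hg : GoodIndex L q) (z : GHom (Gamma0 L) O) :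
    gamOp hg z =
      ((q : O) - 1) • (((q : O) + 1) ^ 2 • z - transferHom hg (transferHom hg z)) := rfl

/-- The image is killed by `U_q`. -/
theorem uEnd_iStep {L q : ℕ} (hg : GoodIndex L q) (h : q ∣ L * q * q) (z : GHom (Gamma0 L) O) :
    uEnd hg.prime h (iStep hg z) = 0 := by
  obtain ⟨D⟩ := Fermat.Agent.Raise.exists_levData hg.prime hg.not_dvd
  have h1 : L * 1 ∣ L * q := mul_dvd_mul_left L (one_dvd q)
  have h2 : L * q ∣ L * q := dvd_rfl
  have h11 : L * q * 1 ∣ L * q * q := mul_dvd_mul_left _ (one_dvd q)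
  have hq0 : L * q ∣ L * q * q := dvd_mul_right _ q
  have h0 : L * 1 ∣ L * q * q := h1.trans hq0
  rw [iStep_apply hg z (dvd_of_eq (mul_assoc L q q).symm) hq0 h0, map_add, map_sub, map_nsmul,
    uEnd_degH' rfl hg.prime hg.prime.pos _ h _ hq0,
    uEnd_degH' (one_mul q).symm hg.prime one_pos _ h hq0 h0,
    ← degH_degH' (one_mul 1).symm one_pos one_pos one_pos h1 h11 h0 z,
    ← degH_uEnd one_pos h11 hg.prime hg.prime.not_dvd_one (dvd_mul_left q L) h,
    uEnd_degH_one D hg (dvd_mul_left q L) h1 h2, map_sub,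
    degH_degH' (mul_one q).symm hg.prime.pos one_pos hg.prime.pos h2 h11 hq0,
    degH_degH' (one_mul 1).symm one_pos one_pos one_pos h1 h11 h0, smul_sub]
  abel

/-- The composite with corestriction. -/
theorem corH_iStep {L q : ℕ} [NeZero L] [NeZero (L * q)] [NeZero (L * q * q)] (hg : GoodIndex L q)
    (h : L ∣ L * q * q) (z : GHom (Gamma0 L) O) : corH h (iStep hg z) = gamOp hg z := by
  obtain ⟨D⟩ := Fermat.Agent.Raise.exists_levData hg.prime hg.not_dvd
  have h1 : L * 1 ∣ L * q := mul_dvd_mul_left L (one_dvd q)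
  have h2 : L * q ∣ L * q := dvd_rfl
  have h11 : L * q * 1 ∣ L * q * q := mul_dvd_mul_left _ (one_dvd q)
  have h22 : L * q * q ∣ L * q * q := dvd_rfl
  have hq0 : L * q ∣ L * q * q := dvd_mul_right _ q
  have h0 : L * 1 ∣ L * q * q := h1.trans hq0
  set T := transferHom (A := O) hg
  have e1 : ∀ y : GHom (Gamma0 (L * q)) O, corH hq0 (degH 1 one_pos h11 y) = q • y := fun y => by
    rw [corH_degH_one, card_cosets_sq D]
  have c1 : ∀ y : GHom (Gamma0 L) O, D.cor (D.res y) = (q + 1) • y := D.cor_res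
  have c2 : ∀ y : GHom (Gamma0 L) O, D.cor (D.wOp (D.res y)) = T y := D.cor_wOp_res
  have u1 : ∀ y : GHom (Gamma0 L) O, D.uOp (D.res y) = D.res (T y) - D.wOp (D.res y) := fun y => by
    rw [← uEnd_eq_uOp D (dvd_mul_left q L), ← degH_one_eq_res D h1, uEnd_degH_one D hg _ h1 h2,
      degH_eq_wOp_res D h2, degH_one_eq_res D h1 (transferHom hg y), degH_one_eq_res D h1 y]
  have u2 : ∀ y : GHom (Gamma0 L) O, D.uOp (D.wOp (D.res y)) = q • D.res y := fun y => by
    rw [← uEnd_eq_uOp D (dvd_mul_left q L), ← degH_eq_wOp_res D h2, ← degH_one_eq_res D h1,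
      uEnd_degH' (one_mul q).symm D.prime one_pos]
  have hdq : ∀ y : GHom (Gamma0 L) O, degH q hg.prime.pos hq0 y =
      degH q hg.prime.pos h22 (degH 1 one_pos h1 y) := fun y =>
    (degH_degH' (one_mul q).symm one_pos hg.prime.pos hg.prime.pos h1 h22 hq0 y).symm
  rw [← corH_corH (dvd_mul_right L q) hq0 h,
    iStep_apply hg z (dvd_of_eq (mul_assoc L q q).symm) hq0 h0, map_add, map_sub, map_nsmul,
    ← degH_degH' rfl hg.prime.pos hg.prime.pos _ h2 h22, hdq,
    ← degH_degH' (one_mul 1).symm one_pos one_pos one_pos h1 h11 h0, e1,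
    corH_degH_q D h22 hq0, corH_degH_q D h22 hq0, degH_eq_wOp_res D h2, degH_one_eq_res D h1,
    degH_one_eq_res D h1, D.wOp_wOp, u1, u2, map_sub, map_nsmul, D.wOp_wOp,
    corH_eq_cor D (dvd_mul_right L q), map_add, map_sub, map_sub, map_nsmul, map_nsmul, map_nsmul,
    c2, c1, gamOp_apply]
  show _ = ((q : O) - 1) • (((q : O) + 1) ^ 2 • z - T (T z))
  simp only [← Nat.cast_smul_eq_nsmul O, smul_sub, smul_smul]
  push_cast
  module

/-- `U` at the lower level commutes with the map. -/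
theorem uEnd_iStep_comm {L q r : ℕ} (hg : GoodIndex L q) (hr : r.Prime) (hrq : r ≠ q) (hrL : r ∣ L)
    (hrL' : r ∣ L * q * q) (z : GHom (Gamma0 L) O) :
    iStep hg (uEnd hr hrL z) = uEnd hr hrL' (iStep hg z) := by
  have hrq' : ¬ r ∣ q := fun h => hrq ((Nat.prime_dvd_prime_iff_eq hr hg.prime).mp h)
  have hrqq : ¬ r ∣ q * q := fun h => (hr.dvd_mul.mp h).elim hrq' hrq'
  have h0 : L * 1 ∣ L * q * q := by rw [mul_one, mul_assoc]; exact dvd_mul_right L (q * q)
  have hq0 : L * q ∣ L * q * q := dvd_mul_right _ q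
  rw [iStep_apply hg _ (dvd_of_eq (mul_assoc L q q).symm) hq0 h0,
    iStep_apply hg _ (dvd_of_eq (mul_assoc L q q).symm) hq0 h0, ← uEnd_transfer hr hrL hg,
    degH_uEnd _ _ hr hrqq hrL hrL', degH_uEnd _ hq0 hr hrq' hrL hrL',
    degH_uEnd _ h0 hr hr.not_dvd_one hrL hrL', map_add, map_sub, map_nsmul]

/-- The map commutes with the good operators. -/
theorem iStep_transfer {L q ℓ : ℕ} (hg : GoodIndex L q) (gℓ : GoodIndex L ℓ)
    (gℓ' : GoodIndex (L * q * q) ℓ) (z : GHom (Gamma0 L) O) :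
    iStep hg (transferHom gℓ z) = transferHom gℓ' (iStep hg z) := by
  have h0 : L * 1 ∣ L * q * q := by rw [mul_one, mul_assoc]; exact dvd_mul_right L (q * q)
  have hq0 : L * q ∣ L * q * q := dvd_mul_right _ q
  rw [iStep_apply hg _ (dvd_of_eq (mul_assoc L q q).symm) hq0 h0,
    iStep_apply hg _ (dvd_of_eq (mul_assoc L q q).symm) hq0 h0, GalRep.transferHom_comm hg gℓ,
    degH_transfer _ _ gℓ gℓ', degH_transfer _ hq0 gℓ gℓ', degH_transfer _ h0 gℓ gℓ',
    ← tL_apply gℓ', ← tL_apply gℓ', ← tL_apply gℓ', ← tL_apply gℓ', map_add, map_sub, map_nsmul]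

variable [IsDomain O] [IsDiscreteValuationRing O] [IsAdicComplete (maximalIdeal O) O]
  [Finite (ResidueField O)] [CharZero O] {S : Finset ℕ} {a : ℕ → O} {p : ℕ} [Fact p.Prime]

instance isTorsionFree_ghom (L : ℕ) : Module.IsTorsionFree O (GHom (Gamma0 L) O) :=
  ⟨fun _ hr _ _ h => AddMonoidHom.ext fun t => hr.left (DFunLike.congr_fun h t)⟩

instance isTorsionFree_locG (S : Finset ℕ) (a : ℕ → O) (L : ℕ) :
    Module.IsTorsionFree O (locG O S a L) :=
  ⟨fun _ hr _ _ h => Subtype.ext (AddMonoidHom.ext fun t =>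
    hr.left (DFunLike.congr_fun (congrArg Subtype.val h) t))⟩

theorem opL_iStep {L q : ℕ} (hg : GoodIndex L q) (hS : Supp S (L * q * q)) (i : OffS S)
    (z : GHom (Gamma0 L) O) :
    iStep hg (opL O L S i z) = opL O (L * q * q) S i (iStep hg z) := by
  have hS0 : Supp S L := hS.of_dvd (by rw [mul_assoc]; exact dvd_mul_right _ _)
  rw [opL_apply i (hS0.good i), opL_apply i (hS.good i)]
  exact iStep_transfer hg _ _ z

theorem iStep_mem {L q : ℕ} (hg : GoodIndex L q) (hS : Supp S (L * q * q))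
    {z : GHom (Gamma0 L) O} (hz : z ∈ locG O S a L) : iStep hg z ∈ locG O S a (L * q * q) :=
  map_mem_locG _ (opL_iStep hg hS) hz

theorem gamOp_opL {L q : ℕ} (hg : GoodIndex L q) (hS : Supp S L) (i : OffS S)
    (z : GHom (Gamma0 L) O) : gamOp hg (opL O L S i z) = opL O L S i (gamOp hg z) := by
  simp only [gamOp, LinearMap.smul_apply, LinearMap.sub_apply, Module.End.one_apply,
    Module.End.mul_apply, map_smul, map_sub, opL_tL hS i hg]

theorem redH_smul_nat {L : ℕ} (n : ℕ) (z : GHom (Gamma0 L) O) :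
    redH L (n • z) = n • redH L z := map_nsmul _ _ _

/-- One step is injective modulo the maximal ideal. -/
theorem redH_eq_zero_of_iStep (H : ResHyp p S a) {L q : ℕ} [NeZero L] [NeZero (L * q)]
    (hg : GoodIndex L q) (hqp : q ≠ p) (hS : Supp S (L * q * q)) {z : GHom (Gamma0 L) O}
    (hz : z ∈ locG O S a L) (h0 : redH (L * q * q) (iStep hg z) = 0) : redH L z = 0 := by
  have hS1 : Supp S (L * q) := hS.of_dvd (dvd_mul_right _ q)
  have hS0 : Supp S L := hS1.of_dvd (dvd_mul_right L q)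
  have h1 : L * 1 ∣ L * q := mul_dvd_mul_left L (one_dvd q)
  have h2 : L * q ∣ L * q := dvd_rfl
  have h11 : L * q * 1 ∣ L * q * q := mul_dvd_mul_left _ (one_dvd q)
  have h22 : L * q * q ∣ L * q * q := dvd_rfl
  have hTz : tL O hg z ∈ locG O S a L := map_mem_locG _ (fun i => opL_tL hS0 i hg) hz
  set w := degH q hg.prime.pos h2 z - degH 1 one_pos h1 (transferHom hg z)
  have hw : w ∈ locG O S a (L * q) :=
    Submodule.sub_mem _
      (map_mem_locG (degL O q hg.prime.pos h2) (fun i => opL_degL hS0 hS1 i hg.prime.pos h2) hz)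
      (map_mem_locG (degL O 1 one_pos h1) (fun i => opL_degL hS0 hS1 i one_pos h1) hTz)
  have hdec : iStep hg z = degH 1 one_pos h11 (q • degH 1 one_pos h1 z) +
      degH q hg.prime.pos h22 w := by
    rw [iStep_apply hg z (dvd_of_eq (mul_assoc L q q).symm) (dvd_mul_right _ q)
      (h1.trans (dvd_mul_right _ q)), map_sub, map_nsmul,
      degH_degH' (one_mul 1).symm one_pos one_pos one_pos h1 h11 (h1.trans (dvd_mul_right _ q)),
      degH_degH' rfl hg.prime.pos hg.prime.pos (Nat.mul_pos hg.prime.pos hg.prime.pos) h2 h22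
        (dvd_of_eq (mul_assoc L q q).symm),
      degH_degH' (one_mul q).symm one_pos hg.prime.pos hg.prime.pos h1 h22 (dvd_mul_right _ q)]
    abel
  rw [hdec, map_add, redH_degH, redH_degH] at h0
  obtain ⟨i, hi1, hi⟩ := H.exists_one_mod q hg.prime.pos
  obtain ⟨k, hk⟩ := exists_nil_redH i (hS1.good i) hw
  obtain ⟨u, hu, hwu⟩ := stepTwo' (R := O) Fact.out H.ne_two hg.prime hqp hg.not_dvd H.p_smul
    (H.redH_mem hS1 hw) h11 h22 h0 (hS1.good i) (hS0.good i) hi1 _
    (by rw [← neg_sub]; exact hi.neg) k hk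
  rw [map_sub, redH_degH, redH_degH] at hwu
  refine H.pair_redH hg.prime hg.not_dvd hS0 hS1 h1 h2
    (x := -(redH L (transferHom hg z) + u)) ?_ hz ?_
  · exact neg_mem (add_mem (H.redH_mem hS0 hTz) hu)
  · rw [map_neg, map_add, eq_neg_of_add_eq_zero_left (a := degH q hg.prime.pos h2 (redH L z))
      (b := -(degH 1 one_pos h1 (redH L (transferHom hg z)) + degH 1 one_pos h1 u)) ?_]
    · abel
    · rw [← hwu]; abel

/-! ## `U_q` at a level divisible by `q` exactly once -/

/-- A class with `U_q` divisible is divisible. -/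
theorem redH_eq_zero_of_uEnd (H : ResHyp p S a) {M q : ℕ} [NeZero M] [NeZero (M * q)]
    (hq : q.Prime) (hqp : q ≠ p) (hqM : ¬ q ∣ M) (hS : Supp S (M * q)) (h : q ∣ M * q)
    {y : GHom (Gamma0 (M * q)) O} (hy : y ∈ locG O S a (M * q))
    (hU : redH (M * q) (uEnd hq h y) = 0) : redH (M * q) y = 0 := by
  obtain ⟨D⟩ := Fermat.Agent.Raise.exists_levData hq hqM
  obtain ⟨ϖ, hϖ⟩ := IsDiscreteValuationRing.exists_irreducible O
  obtain ⟨v, hv⟩ := (redH_eq_zero_iff hϖ _).mp hU
  have hS0 : Supp S M := hS.of_dvd (dvd_mul_right M q)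
  have h1 : M * 1 ∣ M * q := mul_dvd_mul_left M (one_dvd q)
  have h2 : M * q ∣ M * q := dvd_rfl
  set x := D.cor (D.wOp y) with hx
  have hxloc : x ∈ locG O S a M := by
    have := map_mem_locG (corL O (dvd_mul_right M q)) (fun i => opL_corL hS0 hS i _)
      (map_mem_locG (wLin D) (opL_wLin D hS) hy)
    rwa [corL_apply, wLin_apply, corH_eq_cor D] at this
  have key : D.res x = D.wOp y + ϖ • v := by
    rw [hx, D.res_cor, D.wOp_wOp, ← uEnd_eq_uOp D h, hv]
  have key2 : degH q hq.pos h2 x = y + ϖ • wLin D v := by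
    rw [degH_eq_wOp_res D h2, key, map_add, D.wOp_wOp, ← map_smul]
    rfl
  have hϖ0 : ∀ u : GHom (Gamma0 (M * q)) O, redH (M * q) (ϖ • u) = 0 := fun u =>
    (redH_eq_zero_iff hϖ _).mpr ⟨u, rfl⟩
  have hy' : redH (M * q) y = degH q hq.pos h2 (redH M x) := by
    rw [← redH_degH, key2, map_add, hϖ0, add_zero]
  have hz : q • degH 1 one_pos h1 (redH M x) = 0 := by
    rw [← redH_degH, ← redH_smul_nat, ← uEnd_degH' (one_mul q).symm hq one_pos hq.pos h h2 h1,
      key2, map_add, ← uE_apply O hq h (ϖ • _), map_smul, map_add, hϖ0, add_zero]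
    exact hU
  have h0 : degH 1 one_pos h1 (redH M x) = 0 :=
    AddMonoidHom.ext fun t => H.qfree hq hqp _ (DFunLike.congr_fun hz t)
  rw [hy', Raise.degH_one_injective hq hqM h1 (H.redH_mem hS0 hxloc) h0, map_zero]

/-- `U_q` is bijective on the residual part at such a level. -/
theorem bijective_uE (H : ResHyp p S a) {M q : ℕ} [NeZero M] [NeZero (M * q)] (hq : q.Prime)
    (hqp : q ≠ p) (hqM : ¬ q ∣ M) (hS : Supp S (M * q)) (h : q ∣ M * q) :
    Function.Bijective ((uE O hq h).restrict (p := locG O S a (M * q)) (q := locG O S a (M * q))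
      fun _ hx => map_mem_locG _ (fun i => opL_uE hS i hq h) hx) := by
  obtain ⟨ϖ, hϖ⟩ := IsDiscreteValuationRing.exists_irreducible O
  haveI : Module.Finite O (locG O S a (M * q)) := Module.IsNoetherian.finite O _
  haveI : Module.Free O (locG O S a (M * q)) := Module.free_of_finite_type_torsion_free'
  refine Levels.bijective_of_saturated hϖ _ (fun v z hvz => ?_) le_rfl
  have h0 : redH (M * q) v.1 = 0 := redH_eq_zero_of_uEnd H hq hqp hqM hS h v.2
    ((redH_eq_zero_iff hϖ _).mpr ⟨z.1, congrArg Subtype.val hvz⟩)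
  obtain ⟨y, hy⟩ := (redH_eq_zero_iff hϖ _).mp h0
  refine ⟨⟨projG S a (M * q) y, projG_mem y⟩, Subtype.ext ?_⟩
  rw [Submodule.coe_smul, ← map_smul, ← hy, projG_apply v.2]

theorem fitProj_eq_zero_of_apply {W : Type} [AddCommGroup W] [Module O W] [Module.Finite O W]
    (f : Module.End O W) {x : W} (h : f x = 0) : fitProj f x = 0 :=
  (Auto.fitProj_eq_zero_iff f x).mpr fun k => ⟨1, fun j hj => by
    obtain ⟨j, rfl⟩ := Nat.exists_eq_add_of_le hj
    rw [add_comm, pow_succ, Module.End.mul_apply, h, map_zero]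
    exact zero_mem _⟩

theorem eq_zero_of_fitProj {W : Type} [AddCommGroup W] [Module O W] [Module.Finite O W]
    (f : Module.End O W) (V : Submodule O W) (hV : ∀ x ∈ V, f x ∈ V)
    (hbij : Function.Bijective (f.restrict hV)) {x : W} (hx : x ∈ V) (h : fitProj f x = 0) :
    x = 0 := by
  haveI : Module.Finite O V := Module.IsNoetherian.finite O _
  have h2 := Auto.fitProj_natural (f := f.restrict hV) (f' := f) V.subtype (fun y => rfl) ⟨x, hx⟩
  rw [Submodule.subtype_apply, Submodule.subtype_apply, h] at h2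
  have h4 : fitProj (f.restrict hV) ⟨x, hx⟩ = 0 := Subtype.ext h2
  have hdiv : ∀ (j : ℕ) (k : ℕ) (y : V), ((f.restrict hV) ^ j) y ∈ mPow O V k → y ∈ mPow O V k := by
    intro j k y hy
    obtain ⟨e, he⟩ : IsUnit ((f.restrict hV) ^ j) :=
      ((Module.End.isUnit_iff _).mpr hbij).pow j
    have := Auto.map_mem_mPow ((e⁻¹ : (Module.End O V)ˣ) : Module.End O V) hy
    rwa [← Module.End.mul_apply, ← he, Units.inv_mul, Module.End.one_apply] at this
  refine congrArg Subtype.val (Auto.eq_zero_of_mem_mPow (O := O) (x := (⟨x, hx⟩ : V)) fun k => ?_)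
  obtain ⟨j, hj⟩ := (Auto.fitProj_eq_zero_iff _ _).mp h4 k
  exact hdiv j k _ (hj j le_rfl)

/-- At a level divisible by `r` exactly twice the topologically nilpotent part of `U_r` is its
kernel. -/
theorem uEnd_eq_zero_of_fit (H : ResHyp p S a) {M r L : ℕ} [NeZero M] [NeZero (M * r)] [NeZero L]
    (hL : L = M * r * r) (hr : r.Prime) (hrp : r ≠ p) (hrM : ¬ r ∣ M) (hS : Supp S L) (h : r ∣ L)
    {y : GHom (Gamma0 L) O} (hy : y ∈ locG O S a L) (hfit : fitProj (uE O hr h) y = 0) :
    uEnd hr h y = 0 := by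
  subst hL
  have hS1 : Supp S (M * r) := hS.of_dvd (dvd_mul_right _ r)
  have h' : r ∣ M * r := dvd_mul_left r M
  have h11 : M * r * 1 ∣ M * r * r := mul_dvd_mul_left _ (one_dvd r)
  have hnat := Auto.fitProj_natural (f := uE O hr h) (f' := uE O hr h')
    (uL O hr h' dvd_rfl h) (fun z => by
      rw [uE_apply, uL_apply, uL_apply, uEnd_eq_degH_uH hr h' dvd_rfl h h11, uH_degH_one]
      rfl) y
  rw [hfit, map_zero] at hnat
  have h0 : uL O hr h' dvd_rfl h y = 0 :=
    eq_zero_of_fitProj (uE O hr h') (locG O S a (M * r))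
      (fun _ hx => map_mem_locG _ (fun i => opL_uE hS1 i hr h') hx)
      (bijective_uE H hr hrp hrM hS1 h')
      (map_mem_locG _ (fun i => opL_uL hS hS1 i hr h' dvd_rfl h) hy) hnat.symm
  rw [uEnd_eq_degH_uH hr h' dvd_rfl h h11, ← uL_apply O hr h' dvd_rfl h, h0, map_zero]

theorem castCls_natural {G G' : ℕ} {ι : Type} [Fintype ι] {β : ι → Fermat.Agent.Raise.ZMat}
    (hβ : Fermat.Agent.Raise.IsFam (Gamma0 G) (Gamma0 G') β) (x : GHom (Gamma0 G) ℤ) :
    castCls O G' (hβ.trans x) = hβ.trans (castCls O G x) :=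
  (hβ.trans_comp_coeff (Int.castAddHom O) x).symm

theorem opSub_iterate_dualPhi {L : ℕ} (m : OffS S) (hg : GoodIndex L (m.1 : ℕ)) (b : O) (j : ℕ)
    (Λ : GHom (Gamma0 L) ℤ →+ ResidueField O) :
    (opSub hg b)^[j] (dualPhi Λ) = dualPhi ((funOp hg b)^[j] Λ) := by
  induction j generalizing Λ with
  | zero => rfl
  | succ j ih =>
    rw [Function.iterate_succ_apply, Function.iterate_succ_apply, ← ih, funOp, Raise.dualPhi_sub,
      Raise.dualPhi_smul, Raise.dualPhi_transfer, opSub]

theorem exists_nil_dualPhi {L : ℕ} [NeZero L] (hS : Supp S L) (m : OffS S)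
    (F : GHom (Gamma0 L) O →ₗ[O] ResidueField O) (hF : ∀ z, F (projG S a L z) = F z) :
    ∃ j, (opSub (hS.good m) (a (m.1 : ℕ)))^[j]
      (dualPhi (F.toAddMonoidHom.comp (castCls O L))) = 0 := by
  obtain ⟨j, hj⟩ := exists_nil_functional m F hF
  refine ⟨j, ?_⟩
  rw [opSub_iterate_dualPhi, show (funOp (hS.good m) (a (m.1 : ℕ)))^[j]
    (F.toAddMonoidHom.comp (castCls O L)) = 0 from
      AddMonoidHom.ext fun x => (funOp_iterate m (hS.good m) _ F j x).trans (hj _)]
  exact AddMonoidHom.ext fun t => rfl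

/-- Corestriction to level `L` is surjective on the residual part killed by `U_q`. -/
theorem exists_corH_eq (H : ResHyp p S a) {L q : ℕ} [NeZero L] [NeZero (L * q)]
    [NeZero (L * q * q)] (hq : q.Prime) (hqp : q ≠ p) (hqL : ¬ q ∣ L) (hS : Supp S (L * q * q))
    (h : L ∣ L * q * q) (hqd : q ∣ L * q * q) {x : GHom (Gamma0 L) O} (hx : x ∈ locG O S a L) :
    ∃ y ∈ locG O S a (L * q * q), uEnd hq hqd y = 0 ∧ corH h y = x := by
  classical
  have hS1 : Supp S (L * q) := hS.of_dvd (dvd_mul_right _ q)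
  have hS0 : Supp S L := hS1.of_dvd (dvd_mul_right L q)
  have h1 : L * 1 ∣ L * q := mul_dvd_mul_left L (one_dvd q)
  have h2 : L * q ∣ L * q := dvd_rfl
  have h11 : L * q * 1 ∣ L * q * q := mul_dvd_mul_left _ (one_dvd q)
  have h22 : L * q * q ∣ L * q * q := dvd_rfl
  have h0 : L * 1 ∣ L * q * q := h1.trans (dvd_mul_right _ q)
  have hq1 : q ∣ L * q := dvd_mul_left q L
  set K' := locG O S a (L * q * q) ⊓ LinearMap.ker (uE O hq hqd)
  set V := locG O S a L
  haveI : Module.Finite O V := Module.IsNoetherian.finite O _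
  let R : K' →ₗ[O] V := ((corL O h).comp K'.subtype).codRestrict V fun y =>
    map_mem_locG _ (fun i => opL_corL hS0 hS i h) y.2.1
  suffices hR : LinearMap.range R = ⊤ by
    obtain ⟨y, hy⟩ := (LinearMap.range_eq_top.mp hR) ⟨x, hx⟩
    exact ⟨y.1, y.2.1, y.2.2, congrArg Subtype.val hy⟩
  refine eq_top_iff.mpr (Submodule.le_of_le_smul_of_le_jacobson_bot Module.Finite.fg_top
    (maximalIdeal_le_jacobson _) ?_)
  by_contra hne
  obtain ⟨v, -, hv⟩ := SetLike.not_le_iff_exists.mp hne
  -- a functional vanishing on the image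
  set W := LinearMap.range R ⊔ maximalIdeal O • (⊤ : Submodule O V)
  letI : Module (ResidueField O) (V ⧸ W) :=
    Module.IsTorsionBySet.module (I := maximalIdeal O) fun u r => by
      obtain ⟨u, rfl⟩ := Submodule.Quotient.mk_surjective W u
      rw [← Submodule.Quotient.mk_smul, Submodule.Quotient.mk_eq_zero]
      exact Submodule.mem_sup_right (Submodule.smul_mem_smul r.2 trivial)
  obtain ⟨f, hf⟩ := Module.Projective.exists_dual_ne_zero (ResidueField O)
    (x := (Submodule.Quotient.mk v : V ⧸ W)) (fun e => hv ((Submodule.Quotient.mk_eq_zero _).mp e))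
  let lam : V →ₗ[O] ResidueField O :=
    { toFun := fun u => f (Submodule.Quotient.mk u)
      map_add' := fun u u' => by rw [Submodule.Quotient.mk_add, map_add]
      map_smul' := fun r u => by
        rw [Submodule.Quotient.mk_smul, RingHom.id_apply, residue_smul_eq, ← smul_eq_mul, ← map_smul]
        rfl }
  have hlam : ∀ y : K', lam (R y) = 0 := fun y => by
    show f (Submodule.Quotient.mk (R y)) = 0
    rw [(Submodule.Quotient.mk_eq_zero W).mpr (Submodule.mem_sup_left ⟨y, rfl⟩), map_zero]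
  let F : GHom (Gamma0 L) O →ₗ[O] ResidueField O :=
    lam.comp ((projG S a L).codRestrict V projG_mem)
  have hF : ∀ z, F (projG S a L z) = F z := fun z =>
    congrArg lam (Subtype.ext (projG_apply (projG_mem z)))
  let G : GHom (Gamma0 (L * q * q)) O →ₗ[O] ResidueField O := F.comp (corL O h)
  have hG : ∀ y ∈ locG O S a (L * q * q), uEnd hq hqd y = 0 → G y = 0 := fun y hy hUy => by
    refine (congrArg lam (Subtype.ext ?_)).trans (hlam ⟨y, hy, hUy⟩)
    exact projG_apply (map_mem_locG _ (fun i => opL_corL hS0 hS i h) hy)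
  -- the functional at level `L q`
  let e₁ := LinearEquiv.ofBijective _ (bijective_uE (a := a) H hq hqp hqL hS1 hq1)
  let Mu : GHom (Gamma0 (L * q)) O →ₗ[O] ResidueField O :=
    ((G.comp (degL O 1 one_pos h11)).comp ((locG O S a (L * q)).subtype.comp
      e₁.symm.toLinearMap)).comp ((projG S a (L * q)).codRestrict _ projG_mem)
  have hMu : ∀ z, Mu (projG S a (L * q) z) = Mu z := fun z => by
    simp only [Mu, LinearMap.comp_apply]
    exact congrArg _ (congrArg _ (congrArg _ (congrArg _ (Subtype.ext (projG_apply (projG_mem z))))))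
  have hGMu : ∀ y, G y = Mu (uL O hq hq1 dvd_rfl hqd y) := by
    intro y
    have hGp : G y = G (projG S a (L * q * q) y) := by
      show F (corL O h y) = F (corL O h _)
      rw [projG_natural _ (fun i => opL_corL hS0 hS i h), hF]
    rw [hGp, ← hMu, ← projG_natural _ (fun i => opL_uL hS hS1 i hq hq1 dvd_rfl hqd)]
    set y' := projG S a (L * q * q) y
    have hy' : y' ∈ locG O S a (L * q * q) := projG_mem y
    have hUy : uL O hq hq1 dvd_rfl hqd y' ∈ locG O S a (L * q) :=
      map_mem_locG _ (fun i => opL_uL hS hS1 i hq hq1 dvd_rfl hqd) hy'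
    show G y' = G (degL O 1 one_pos h11 (e₁.symm ((projG S a (L * q)).codRestrict _ projG_mem _)).1)
    rw [show (projG S a (L * q)).codRestrict _ projG_mem (uL O hq hq1 dvd_rfl hqd y') =
      ⟨_, hUy⟩ from Subtype.ext (projG_apply hUy), ← sub_eq_zero, ← map_sub]
    set u := e₁.symm ⟨_, hUy⟩
    have hu : uEnd hq hq1 u.1 = uH hq hq1 dvd_rfl hqd y' :=
      congrArg Subtype.val (e₁.apply_symm_apply ⟨_, hUy⟩)
    refine hG _ (Submodule.sub_mem _ hy'
      (map_mem_locG _ (fun i => opL_degL hS1 hS i one_pos h11) u.2)) ?_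
    rw [uEnd_eq_degH_uH hq hq1 dvd_rfl hqd h11, map_sub, degL_apply, uH_degH_one, hu, sub_self,
      map_zero]
  -- the classes of the functionals
  set Φ := dualPhi (F.toAddMonoidHom.comp (castCls O L))
  set Ψ := dualPhi (Mu.toAddMonoidHom.comp (castCls O (L * q)))
  have hrel : degH 1 one_pos h11 (degH 1 one_pos h1 Φ) + degH q hq.pos h22 (-Ψ) = 0 := by
    rw [map_neg, degH_degH' (one_mul 1).symm one_pos one_pos one_pos h1 h11 h0,
      ← Raise.dualPhi_corH h h0, ← Raise.dualPhi_uH hq hq1, ← sub_eq_add_neg, sub_eq_zero]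
    congr 1
    refine AddMonoidHom.ext fun c => ?_
    letI := Fintype.ofFinite (Cosets L (L * q * q))
    show F (castCls O L (corH h c)) = Mu (castCls O (L * q) (uH hq hq1 dvd_rfl hqd c))
    rw [corH, castCls_natural, uH, castCls_natural]
    exact hGMu _
  obtain ⟨i, hi1, hi⟩ := H.exists_one_mod q hq.pos
  obtain ⟨k, hk⟩ := exists_nil_dualPhi hS1 i Mu hMu
  have hneg : ∀ n, (opSub (hS1.good i) (a (i.1 : ℕ)))^[n] (-Ψ) =
      -((opSub (hS1.good i) (a (i.1 : ℕ)))^[n] Ψ) := fun n => by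
    induction n with
    | zero => rfl
    | succ n ih =>
      rw [Function.iterate_succ_apply', Function.iterate_succ_apply', ih, opSub, opSub, smul_neg,
        ← zero_sub ((opSub _ _)^[n] Ψ), Raise.transferHom_sub, Raise.transferHom_zero]
      abel
  obtain ⟨u, hu, hΨu⟩ := stepTwo' (R := O) Fact.out H.ne_two hq hqp hqL H.p_smul
    (neg_mem (Raise.dualPhi_mem _)) h11 h22 hrel (hS1.good i) (hS0.good i) hi1 _
    (by rw [← neg_sub]; exact hi.neg) k (by rw [hneg, hk, neg_zero])
  obtain ⟨D⟩ := Fermat.Agent.Raise.exists_levData hq hqL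
  have hsum : degH 1 one_pos h1 Φ + degH q hq.pos h2 u = 0 := by
    refine Raise.degH_one_injective_sq D h11 ?_ ?_
    · exact add_mem (fun γ hγ => trans_mem _ (Raise.dualPhi_mem _) γ hγ)
        (fun γ hγ => trans_mem _ hu γ hγ)
    · rw [hΨu, degH_degH' (one_mul q).symm one_pos hq.pos hq.pos h1 h22 (dvd_mul_right _ q),
        ← degH_degH' (mul_one q).symm hq.pos one_pos hq.pos h2 h11 (dvd_mul_right _ q)] at hrel
      rw [map_add]
      exact hrel
  obtain ⟨i', m, hbad, hu', hm1, hm⟩ := H.exists_pair_primes (L := L) hq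
  obtain ⟨k', hk'⟩ := exists_nil_dualPhi hS0 i' F hF
  obtain ⟨j', hj'⟩ := exists_nil_dualPhi hS0 m F hF
  have hΦ := (Raise.pair_eq_zero hq hqL (hS0.good i') (hS1.good i') hbad
    (eq_zero_of_isUnit_smul hu') (hS0.good m) (hS1.good m) hm1 (eq_zero_of_isUnit_smul hm) h1 h2
    k' j' Φ u (Raise.dualPhi_mem _) hu hsum hk' hj').1
  have hF0 := H.functional_eq_zero hS0 F hF hΦ
  refine hf ?_
  have := LinearMap.congr_fun hF0 v.1
  rwa [show F v.1 = lam v from congrArg lam (Subtype.ext (projG_apply v.2))] at this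

end Fermat.Agent.R59.Raised
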