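/-
S59, unit C2: the step at `p`, from level `N` to the ordinary part of level `N p`.

The map is `z ↦ e (z restricted)`, `e` the ordinary projection, scaled by a unit; the map back is
corestriction after the Atkin–Lehner operator.  Injectivity and surjectivity modulo the maximal
ideal need `T_p` bijective on the residual part; on an eigen class with `T_p = α + β`, `α β = p`,
`β` in the maximal ideal, the composite is `α ^ 2 - 1`.
-/
import Fermat.Agent.R59.Raised.Step
import Fermat.Agent.R59.Raised.Mult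

set_option autoImplicit false
set_option linter.unusedSectionVars false
set_option linter.style.haveILetI false

noncomputable section

namespace Fermat.Agent.R59.Raised

open CongruenceSubgroup IsLocalRing
open Fermat.Agent.Raise (GHom LevData)
open Fermat.Agent.GalRep (GoodIndex transferHom ParHom)
open Fermat.Agent.Auto (fitProj mPow)
open Fermat.Agent.R59.Raise (dualPhi castCls eQv eQv_ne_zero moved_ne_zero)
open scoped MatrixGroups

/-- The Atkin–Lehner operator on functionals is the one on their classes. -/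
theorem dualPhi_wOp {N q : ℕ} (D : LevData N q) {V : Type} [AddCommGroup V]
    (Λ : GHom (Gamma0 (N * q)) ℤ →+ V) :
    dualPhi (Λ.comp D.wOp) = D.wOp (dualPhi Λ) := by
  refine AddMonoidHom.ext fun t => ?_
  obtain ⟨γ, rfl⟩ := Additive.ofMul.surjective t
  obtain ⟨g', hg'⟩ := D.wMat_step γ
  obtain ⟨γ₂, h₂⟩ := D.exists_wMat_sq
  have hW : D.wMat.det ≠ 0 := D.isFam_w.det_ne ()
  have hWa : D.wMat.adjugate.det ≠ 0 := by
    rw [Matrix.det_adjugate]; simpa using hW
  have hR : (LevData.wRep D) () = D.wMat := rfl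
  have hr : D.wOp (dualPhi Λ) (Additive.ofMul γ) = dualPhi Λ (Additive.ofMul g') := by
    rw [LevData.wOp, Fermat.Agent.Raise.IsFam.trans_apply, Fintype.sum_unique,
      (D.isFam_w.unique (g := g') (i := default) (j := default) hg').2]
  rw [hr, Raise.dualPhi_apply, Raise.dualPhi_apply]
  have hve : ((Fermat.Agent.Raise.qMat D.wMat).mulVec eQv) ≠ 0 :=
    Fermat.Agent.Raise.mulVec_ne_zero (by rw [Fermat.Agent.Raise.det_qMat]; exact_mod_cast hW)
      eQv_ne_zero
  have hadj : D.wMat.adjugate = Fermat.Agent.Raise.zMat (γ₂⁻¹) * D.wMat := by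
    refine Fermat.Agent.Raise.mul_right_cancel_det hW ?_
    rw [Matrix.adjugate_mul, D.det_wMat, mul_assoc, h₂, mul_smul_comm,
      ← Fermat.Agent.Raise.zMat_mul, inv_mul_cancel, Fermat.Agent.Raise.zMat_one]
  have h1 : ∀ v : Fin 2 → ℚ, v ≠ 0 →
      (Fermat.Agent.Raise.qMat D.wMat).mulVec v ≠ 0 := fun v hv =>
    Fermat.Agent.Raise.mulVec_ne_zero (by rw [Fermat.Agent.Raise.det_qMat]; exact_mod_cast hW) hv
  have hc : ∀ v w : Fin 2 → ℚ, v ≠ 0 → w ≠ 0 →
      Fermat.Agent.Raise.symb (Λ.comp D.wOp) v w = Fermat.Agent.Raise.symb Λ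
        ((Fermat.Agent.Raise.qMat D.wMat).mulVec v)
        ((Fermat.Agent.Raise.qMat D.wMat).mulVec w) := fun v w hv hw => by
    rw [Fermat.Agent.Raise.symb, AddMonoidHom.comp_apply, D.wOp_crossHom,
      ← Fermat.Agent.Raise.symb_mulVec Λ hWa hv hw, hadj, Raise.qMat_mul,
      ← Matrix.mulVec_mulVec, ← Matrix.mulVec_mulVec,
      Fermat.Agent.Raise.symb_gamma Λ (γ₂⁻¹).2 (h1 v hv) (h1 w hw)]
  have e1 := congrArg Fermat.Agent.Raise.qMat hg'
  rw [Raise.qMat_mul, Raise.qMat_mul] at e1
  rw [hc _ _ eQv_ne_zero (moved_ne_zero _), Matrix.mulVec_mulVec, e1, ← Matrix.mulVec_mulVec,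
    Fermat.Agent.Raise.symb_trans Λ hve eQv_ne_zero
      (Fermat.Agent.Raise.mulVec_ne_zero (Fermat.Agent.Raise.qMat_det_ne _) hve),
    Fermat.Agent.Raise.symb_trans Λ eQv_ne_zero (moved_ne_zero (g' : SL(2, ℤ)))
      (Fermat.Agent.Raise.mulVec_ne_zero (Fermat.Agent.Raise.qMat_det_ne _) hve),
    Fermat.Agent.Raise.symb_gamma Λ g'.2 eQv_ne_zero hve,
    Fermat.Agent.Raise.symb_swap Λ eQv ((Fermat.Agent.Raise.qMat D.wMat).mulVec eQv)]
  abel

variable {O : Type} [CommRing O] [IsDomain O] [IsDiscreteValuationRing O]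
  [IsAdicComplete (maximalIdeal O) O] [Finite (ResidueField O)]

/-- A map onto a finite module is surjective if no functional to the residue field kills its
image. -/
theorem range_eq_top_of_functional {K V : Type} [AddCommGroup K] [Module O K] [AddCommGroup V]
    [Module O V] [Module.Finite O V] (R : K →ₗ[O] V)
    (h : ∀ lam : V →ₗ[O] ResidueField O, (∀ y, lam (R y) = 0) → lam = 0) :
    LinearMap.range R = ⊤ := by
  refine eq_top_iff.mpr (Submodule.le_of_le_smul_of_le_jacobson_bot Module.Finite.fg_top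
    (maximalIdeal_le_jacobson _) ?_)
  by_contra hne
  obtain ⟨v, -, hv⟩ := SetLike.not_le_iff_exists.mp hne
  set W := LinearMap.range R ⊔ maximalIdeal O • (⊤ : Submodule O V)
  letI : Module (ResidueField O) (V ⧸ W) :=
    Module.IsTorsionBySet.module (I := maximalIdeal O) fun u r => by
      obtain ⟨u, rfl⟩ := Submodule.Quotient.mk_surjective W u
      rw [← Submodule.Quotient.mk_smul, Submodule.Quotient.mk_eq_zero]
      exact Submodule.mem_sup_right (Submodule.smul_mem_smul r.2 trivial)
  obtain ⟨f, hf⟩ := Module.Projective.exists_dual_ne_zero (ResidueField O)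
    (x := (Submodule.Quotient.mk v : V ⧸ W)) (fun e => hv ((Submodule.Quotient.mk_eq_zero _).mp e))
  let lam : V →ₗ[O] ResidueField O :=
    { toFun := fun u => f (Submodule.Quotient.mk u)
      map_add' := fun u u' => by rw [Submodule.Quotient.mk_add, map_add]
      map_smul' := fun r u => by
        rw [Submodule.Quotient.mk_smul, RingHom.id_apply, residue_smul_eq, ← smul_eq_mul, ← map_smul]
        rfl }
  refine hf (LinearMap.congr_fun (h lam fun y => ?_) v)
  show f (Submodule.Quotient.mk (R y)) = 0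
  rw [(Submodule.Quotient.mk_eq_zero W).mpr (Submodule.mem_sup_left ⟨y, rfl⟩), map_zero]

section Fit

variable {W : Type} [AddCommGroup W] [Module O W] [Module.Finite O W] (f : Module.End O W)

theorem fitProj_eq_zero_of_eigen {b : O} (hb : b ∈ maximalIdeal O) {x : W} (h : f x = b • x) :
    fitProj f x = 0 :=
  (Auto.fitProj_eq_zero_iff f x).mpr fun k => ⟨k, fun j hj => by
    have hp : ∀ j, (f ^ j) x = b ^ j • x := fun j => by
      induction j with
      | zero => simp
      | succ j ih => rw [pow_succ', Module.End.mul_apply, ih, map_smul, h, smul_smul, ← pow_succ]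
    rw [hp]
    exact Submodule.smul_mem_smul (Ideal.pow_le_pow_right hj (Ideal.pow_mem_pow hb j)) trivial⟩

theorem fitProj_idem_apply (x : W) : fitProj f (fitProj f x) = fitProj f x := by
  rw [← Module.End.mul_apply, Auto.fitProj_idem]

theorem fitProj_apply_comm (x : W) : f (fitProj f x) = fitProj f (f x) :=
  LinearMap.congr_fun (Auto.fitProj_comm (Commute.refl f)).eq x

theorem fitProj_eq_self_of_eigen {u : O} (hu : IsUnit u) {x : W} (h : f x = u • x) :
    fitProj f x = x := by
  set d := x - fitProj f x with hd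
  have hfd : f d = u • d := by
    rw [hd, map_sub, fitProj_apply_comm, h, map_smul, smul_sub]
  have he : fitProj f d = 0 := by rw [hd, map_sub, fitProj_idem_apply, sub_self]
  have hp : ∀ j, (f ^ j) d = u ^ j • d := fun j => by
    induction j with
    | zero => simp
    | succ j ih => rw [pow_succ', Module.End.mul_apply, ih, map_smul, hfd, smul_smul, ← pow_succ]
  have hd0 : d = 0 := Auto.eq_zero_of_mem_mPow (O := O) fun k => by
    obtain ⟨j, hj⟩ := (Auto.fitProj_eq_zero_iff f d).mp he k
    obtain ⟨v, hv⟩ := hu.pow j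
    have h1 := Submodule.smul_mem (mPow O W k) ((v⁻¹ : Oˣ) : O) (hj j le_rfl)
    rwa [hp, smul_smul, ← hv, Units.inv_mul, one_smul] at h1
  exact (sub_eq_zero.mp hd0).symm

end Fit

variable [CharZero O] {S : Finset ℕ} {a : ℕ → O} {p : ℕ} [Fact p.Prime] {N : ℕ} [NeZero N]
  [NeZero (N * p)]

/-- The map of the step at `p`. -/
def pI (δ : O) : GHom (Gamma0 N) O →ₗ[O] GHom (Gamma0 (N * p)) O :=
  δ • (fitProj (uE O (Fact.out : p.Prime) (dvd_mul_left p N))).comp
    (degL O 1 one_pos (mul_dvd_mul_left N (one_dvd p)))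

theorem pI_apply (δ : O) (z : GHom (Gamma0 N) O) (h : N * 1 ∣ N * p) (h' : p ∣ N * p) :
    pI δ z = δ • fitProj (uE O (Fact.out : p.Prime) h') (degH 1 one_pos h z) := rfl

/-- The map back. -/
def pR (D : LevData N p) : GHom (Gamma0 (N * p)) O →ₗ[O] GHom (Gamma0 N) O :=
  (corL O (dvd_mul_right N p)).comp (wLin D)

theorem pR_apply (D : LevData N p) (y : GHom (Gamma0 (N * p)) O) :
    pR D y = D.cor (D.wOp y) := corH_eq_cor D (dvd_mul_right N p) _

theorem transfer_wLin (D : LevData N p) {ℓ : ℕ} (hg : GoodIndex (N * p) ℓ)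
    (z : GHom (Gamma0 (N * p)) O) : wLin D (tL O hg z) = tL O hg (wLin D z) :=
  D.wOp_transfer hg z

theorem pI_transfer (δ : O) {ℓ : ℕ} (hg : GoodIndex N ℓ) (hg' : GoodIndex (N * p) ℓ)
    (z : GHom (Gamma0 N) O) : pI δ (transferHom hg z) = transferHom hg' (pI δ z) := by
  have h : N * 1 ∣ N * p := mul_dvd_mul_left N (one_dvd p)
  have h' : p ∣ N * p := dvd_mul_left p N
  rw [pI_apply δ _ h h', pI_apply δ _ h h', degH_transfer one_pos h hg hg',
    ← tL_apply hg', ← tL_apply hg', map_smul,
    Auto.fitProj_natural (f' := uE O (Fact.out : p.Prime) h') (tL O hg') (fun x =>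
      (uEnd_transfer (Fact.out : p.Prime) h' hg' x).symm)]

theorem pR_transfer (D : LevData N p) {ℓ : ℕ} (hg : GoodIndex N ℓ) (hg' : GoodIndex (N * p) ℓ)
    (y : GHom (Gamma0 (N * p)) O) : pR D (transferHom hg' y) = transferHom hg (pR D y) := by
  rw [pR_apply, pR_apply, D.wOp_transfer hg', D.cor_transfer hg' hg]

/-- The map lands in the ordinary part. -/
theorem fitProj_pI (δ : O) (h' : p ∣ N * p) (z : GHom (Gamma0 N) O) :
    fitProj (uE O (Fact.out : p.Prime) h') (pI δ z) = pI δ z := by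
  rw [pI_apply δ z (mul_dvd_mul_left N (one_dvd p)) h', map_smul, fitProj_idem_apply]

theorem pI_mem (hS : Supp S (N * p)) (δ : O) {z : GHom (Gamma0 N) O} (hz : z ∈ locG O S a N) :
    pI δ z ∈ locG O S a (N * p) := by
  refine map_mem_locG (pI δ) (fun i x => ?_) hz
  rw [opL_apply i ((hS.of_dvd (dvd_mul_right N p)).good i), opL_apply i (hS.good i)]
  exact pI_transfer δ _ _ x

theorem pR_mem (D : LevData N p) (hS : Supp S (N * p)) {y : GHom (Gamma0 (N * p)) O}
    (hy : y ∈ locG O S a (N * p)) : pR D y ∈ locG O S a N := by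
  refine map_mem_locG (pR D) (fun i x => ?_) hy
  rw [opL_apply i ((hS.of_dvd (dvd_mul_right N p)).good i), opL_apply i (hS.good i)]
  exact pR_transfer D _ _ x

/-- `U_p` after restriction. -/
theorem uOp_res {A : Type} [AddCommGroup A] (D : LevData N p) (hg : GoodIndex N p)
    (x : GHom (Gamma0 N) A) : D.uOp (D.res x) = D.res (transferHom hg x) - D.wOp (D.res x) := by
  have h := D.res_cor (D.wOp (D.res x))
  rw [D.cor_wOp_res, D.wOp_wOp] at h
  rw [h]; abel

theorem uOp_wOp_res {A : Type} [AddCommGroup A] (D : LevData N p) (x : GHom (Gamma0 N) A) :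
    D.uOp (D.wOp (D.res x)) = p • D.res x := by
  have h := D.res_cor (D.res x)
  rw [D.cor_res, map_nsmul, succ_nsmul, add_comm _ (D.res x)] at h
  exact (add_left_cancel h).symm

theorem cor_uOp {A : Type} [AddCommGroup A] (D : LevData N p) (z : GHom (Gamma0 (N * p)) A) :
    D.cor (D.uOp z) = p • D.cor (D.wOp z) := by
  have h := congrArg D.cor (D.res_cor (D.wOp z))
  rw [D.wOp_wOp, D.cor_res, map_add, succ_nsmul, add_comm _ (D.cor (D.wOp z))] at h
  exact (add_left_cancel h).symm

theorem cor_wOp_uOp {A : Type} [AddCommGroup A] (D : LevData N p) (hg : GoodIndex N p)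
    (z : GHom (Gamma0 (N * p)) A) :
    D.cor (D.wOp (D.uOp z)) = transferHom hg (D.cor (D.wOp z)) - D.cor z := by
  have h := congrArg (fun x => D.cor (D.wOp x)) (D.res_cor (D.wOp z))
  simp only [D.wOp_wOp, D.cor_wOp_res, map_add] at h
  rw [h]; abel

/-- The composite on an eigen class of `T_p`. -/
theorem pR_pI (D : LevData N p) (hg : GoodIndex N p) {α β : O} (hα : IsUnit α)
    (hβ : β ∈ maximalIdeal O) (hαβ : α * β = (p : O)) {z : GHom (Gamma0 N) O}
    (hT : transferHom hg z = (α + β) • z) : pR D (pI (α - β) z) = (α ^ 2 - 1) • z := by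
  have hp := (Fact.out : p.Prime)
  have h : N * 1 ∣ N * p := mul_dvd_mul_left N (one_dvd p)
  have h' : p ∣ N * p := dvd_mul_left p N
  have hUres : D.uOp (D.res z) = (α + β) • D.res z - D.wOp (D.res z) := by
    rw [uOp_res D hg, hT, ← degH_one_eq_res D h, ← degH_one_eq_res D h, ← degL_apply,
      ← degL_apply, map_smul]
  have hev : ∀ b c : O, b * c = (p : O) → b + c = α + β →
      uE O hp h' (b • D.res z - wLin D (D.res z)) = b • (b • D.res z - wLin D (D.res z)) := by
    intro b c hbc hsum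
    rw [map_sub, map_smul, uE_apply, uE_apply, uEnd_eq_uOp D, uEnd_eq_uOp D, wLin_apply, hUres,
      uOp_wOp_res, ← Nat.cast_smul_eq_nsmul O, ← hbc, ← hsum]
    module
  have e1 := fitProj_eq_self_of_eigen _ hα (hev α β hαβ rfl)
  have e2 := fitProj_eq_zero_of_eigen _ hβ (hev β α (by rw [mul_comm, hαβ]) (add_comm β α))
  have e3 : pI (α - β) z = α • D.res z - wLin D (D.res z) := by
    rw [pI_apply _ z h h', degH_one_eq_res D, ← map_smul]
    conv_rhs => rw [← e1]
    rw [← sub_eq_zero, ← map_sub, ← neg_eq_zero, ← map_neg, ← e2]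
    congr 1
    module
  rw [e3, pR_apply, wLin_apply, ← wLin_apply D, map_sub, map_smul, wLin_apply, wLin_apply,
    D.wOp_wOp, ← corH_eq_cor D (dvd_mul_right N p), ← corL_apply, map_sub, map_smul, corL_apply,
    corL_apply, corH_eq_cor D, corH_eq_cor D, D.cor_wOp_res, D.cor_res, hT,
    ← Nat.cast_smul_eq_nsmul O, Nat.cast_add, Nat.cast_one, ← hαβ]
  module

/-- Iterates of `U_p` after restriction, modulo the maximal ideal. -/
theorem redH_pow_uE_res (H : ResHyp p S a) (D : LevData N p) (hg : GoodIndex N p)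
    (h' : p ∣ N * p) (n : ℕ) (z : GHom (Gamma0 N) O) :
    redH (N * p) ((uE O (Fact.out : p.Prime) h' ^ (n + 1)) (D.res z)) =
      redH (N * p) (D.res ((tL O hg ^ (n + 1)) z) - D.wOp (D.res ((tL O hg ^ n) z))) := by
  induction n generalizing z with
  | zero =>
    rw [zero_add, pow_one, pow_one, pow_zero, uE_apply, uEnd_eq_uOp D, uOp_res D hg]
    rfl
  | succ n ih =>
    have hp0 : ∀ v : GHom (Gamma0 (N * p)) O, redH (N * p) (p • v) = 0 := fun v =>
      AddMonoidHom.ext fun t => by
        rw [map_nsmul]; exact H.p_smul _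
    have hw0 : redH (N * p) ((uE O (Fact.out : p.Prime) h' ^ (n + 1)) (D.wOp (D.res z))) = 0 := by
      rw [pow_succ, Module.End.mul_apply, uE_apply, uEnd_eq_uOp D, uOp_wOp_res, map_nsmul]
      exact hp0 _
    rw [pow_succ _ (n + 1), Module.End.mul_apply, uE_apply, uEnd_eq_uOp D, uOp_res D hg, map_sub,
      map_sub, ih, hw0, sub_zero, ← tL_apply hg, ← Module.End.mul_apply, ← Module.End.mul_apply,
      ← pow_succ, ← pow_succ]

theorem tL_pow_mem (hS : Supp S N) (hg : GoodIndex N p) {z : GHom (Gamma0 N) O}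
    (hz : z ∈ locG O S a N) : ∀ n : ℕ, (tL O hg ^ n) z ∈ locG O S a N := fun n => by
  induction n with
  | zero => simpa using hz
  | succ n ih =>
    rw [pow_succ', Module.End.mul_apply]
    exact map_mem_locG _ (fun i => opL_tL hS i hg) ih

/-- The step is injective modulo the maximal ideal. -/
theorem redH_eq_zero_of_pI (H : ResHyp p S a) (hS : Supp S (N * p)) (hg : GoodIndex N p)
    (hinj : ∀ z ∈ locG O S a N, redH N (transferHom hg z) = 0 → redH N z = 0) {δ : O}
    (hδ : IsUnit δ) {z : GHom (Gamma0 N) O} (hz : z ∈ locG O S a N)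
    (h0 : redH (N * p) (pI δ z) = 0) : redH N z = 0 := by
  obtain ⟨D⟩ := Fermat.Agent.Raise.exists_levData (N := N) (Fact.out : p.Prime) hg.not_dvd
  have hS0 : Supp S N := hS.of_dvd (dvd_mul_right N p)
  have h : N * 1 ∣ N * p := mul_dvd_mul_left N (one_dvd p)
  have h2 : N * p ∣ N * p := dvd_rfl
  have h' : p ∣ N * p := dvd_mul_left p N
  set f := uE O (Fact.out : p.Prime) h'
  rw [pI_apply δ z h h', map_smul] at h0
  replace h0 := eq_zero_of_isUnit_smul hδ _ h0
  obtain ⟨n₀, hn⟩ := Auto.fitProj_spec f 1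
  have h1 := linear_eq_zero_of_mem_mPow
    (fun r hr v => AddMonoidHom.ext fun t => smul_eq_zero_of_mem hr (v t)) (redH (N * p))
    ((hn n₀ le_rfl (degH 1 one_pos h z)).1)
  rw [map_sub, h0, zero_sub, neg_eq_zero, degH_one_eq_res D] at h1
  obtain ⟨m, hm⟩ := Nat.exists_eq_add_of_le' (Nat.factorial_pos n₀)
  rw [hm, redH_pow_uE_res H D hg h', ← degH_one_eq_res D h, ← degH_eq_wOp_res D h2, map_sub,
    redH_degH, redH_degH] at h1
  have hT1 := tL_pow_mem (a := a) hS0 hg hz
  have key : redH N ((tL O hg ^ m) z) = 0 := by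
    have := H.pair_redH D.prime hg.not_dvd hS0 hS h h2
      (x := -redH N ((tL O hg ^ (m + 1)) z)) (neg_mem (H.redH_mem hS0 (hT1 _))) (hT1 m) (by
        rw [map_neg, neg_add_eq_sub, ← neg_sub, h1, neg_zero])
    exact this
  clear hm h1 hn h0
  induction m with
  | zero => simpa using key
  | succ m ih =>
    rw [pow_succ', Module.End.mul_apply] at key
    exact ih (hinj _ (hT1 m) key)

/-- `T_p` is bijective on the residual part. -/
theorem surjective_tL_pow (hS : Supp S N) (hg : GoodIndex N p)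
    (hinj : ∀ z ∈ locG O S a N, redH N (transferHom hg z) = 0 → redH N z = 0) (n : ℕ)
    {v : GHom (Gamma0 N) O} (hv : v ∈ locG O S a N) :
    ∃ u ∈ locG O S a N, (tL O hg ^ n) u = v := by
  obtain ⟨ϖ, hϖ⟩ := IsDiscreteValuationRing.exists_irreducible O
  haveI : Module.Finite O (locG O S a N) := Module.IsNoetherian.finite O _
  haveI : Module.Free O (locG O S a N) := Module.free_of_finite_type_torsion_free'
  have hb : Function.Bijective ((tL O hg).restrict (p := locG O S a N) (q := locG O S a N)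
      fun _ hx => map_mem_locG _ (fun i => opL_tL hS i hg) hx) := by
    refine Levels.bijective_of_saturated hϖ _ (fun v z hvz => ?_) le_rfl
    obtain ⟨y, hy⟩ := (redH_eq_zero_iff hϖ _).mp (hinj v.1 v.2
      ((redH_eq_zero_iff hϖ _).mpr ⟨z.1, congrArg Subtype.val hvz⟩))
    refine ⟨⟨projG S a N y, projG_mem y⟩, Subtype.ext ?_⟩
    rw [Submodule.coe_smul, ← map_smul, ← hy, projG_apply v.2]
  induction n with
  | zero => exact ⟨v, hv, by simp⟩
  | succ n ih =>
    obtain ⟨u, hu, hu'⟩ := ih
    obtain ⟨w, hw⟩ := hb.2 ⟨u, hu⟩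
    refine ⟨w.1, w.2, ?_⟩
    rw [pow_succ, Module.End.mul_apply, ← hu']
    exact congrArg _ (congrArg Subtype.val hw)

/-- The map back is surjective from the ordinary part. -/
theorem exists_pR_eq (H : ResHyp p S a) (D : LevData N p) (hS : Supp S (N * p))
    (hg : GoodIndex N p)
    (hinj : ∀ z ∈ locG O S a N, redH N (transferHom hg z) = 0 → redH N z = 0) (h' : p ∣ N * p)
    {x : GHom (Gamma0 N) O} (hx : x ∈ locG O S a N) :
    ∃ y ∈ locG O S a (N * p), fitProj (uE O (Fact.out : p.Prime) h') y = y ∧ pR D y = x := by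
  classical
  have hS0 : Supp S N := hS.of_dvd (dvd_mul_right N p)
  have h : N * 1 ∣ N * p := mul_dvd_mul_left N (one_dvd p)
  have h2 : N * p ∣ N * p := dvd_rfl
  set f := uE O (Fact.out : p.Prime) h'
  have hfnat : ∀ (i : OffS S) z, fitProj f (opL O (N * p) S i z) =
      opL O (N * p) S i (fitProj f z) := fun i z =>
    (Auto.fitProj_natural (f := f) (f' := f) (opL O (N * p) S i)
      (fun y => (opL_uE hS i _ h' y).symm) z).symm
  have hRnat : ∀ (i : OffS S) z, pR D (opL O (N * p) S i z) = opL O N S i (pR D z) := fun i z => by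
    rw [opL_apply i (hS0.good i), opL_apply i (hS.good i)]
    exact pR_transfer D _ _ z
  set K := locG O S a (N * p) ⊓ LinearMap.ker (1 - fitProj f)
  set V := locG O S a N
  haveI : Module.Finite O V := Module.IsNoetherian.finite O _
  let R : K →ₗ[O] V := ((pR D).comp K.subtype).codRestrict V fun y => pR_mem D hS y.2.1
  suffices hR : LinearMap.range R = ⊤ by
    obtain ⟨y, hy⟩ := (LinearMap.range_eq_top.mp hR) ⟨x, hx⟩
    exact ⟨y.1, y.2.1, (sub_eq_zero.mp y.2.2).symm, congrArg Subtype.val hy⟩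
  refine range_eq_top_of_functional R fun lam hlam => ?_
  let F : GHom (Gamma0 N) O →ₗ[O] ResidueField O :=
    lam.comp ((projG S a N).codRestrict V projG_mem)
  have hF : ∀ z, F (projG S a N z) = F z := fun z =>
    congrArg lam (Subtype.ext (projG_apply (projG_mem z)))
  have hkill : ∀ y, F (pR D (fitProj f y)) = 0 := fun y => by
    rw [← hF, ← projG_natural _ hRnat, ← projG_natural _ hfnat]
    have hm : fitProj f (projG S a (N * p) y) ∈ locG O S a (N * p) :=
      map_mem_locG _ hfnat (projG_mem y)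
    refine (congrArg lam (Subtype.ext ?_)).trans
      (hlam ⟨fitProj f (projG S a (N * p) y), hm, ?_⟩)
    · exact projG_apply (pR_mem D hS hm)
    · show (1 - fitProj f) _ = 0
      rw [LinearMap.sub_apply, Module.End.one_apply, fitProj_idem_apply, sub_self]
  have hFp : ∀ v : GHom (Gamma0 N) O, F (p • v) = 0 := fun v => by
    rw [map_nsmul]; exact H.p_smul _
  have hstep : ∀ (m k : ℕ) y, F ((tL O hg ^ k) (pR D ((f ^ (m + 1)) y))) =
      F ((tL O hg ^ (k + m + 1)) (pR D y)) - F ((tL O hg ^ (k + m)) (D.cor y)) := by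
    intro m
    induction m with
    | zero =>
      intro k y
      rw [zero_add, pow_one, add_zero, pR_apply D (f y), uE_apply, uEnd_eq_uOp D,
        cor_wOp_uOp D hg, map_sub, map_sub, ← pR_apply D, pow_succ, Module.End.mul_apply]
      rfl
    | succ m ih =>
      intro k y
      rw [pow_succ f (m + 1), Module.End.mul_apply, ih, pR_apply D (f y), uE_apply,
        uEnd_eq_uOp D, cor_wOp_uOp D hg, cor_uOp, map_sub (tL O hg ^ _), map_sub F,
        map_nsmul (tL O hg ^ _), hFp, sub_zero, ← pR_apply D,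
        show k + (m + 1) + 1 = k + m + 1 + 1 by omega, pow_succ _ (k + m + 1),
        Module.End.mul_apply, ← add_assoc k m 1]
      rfl
  obtain ⟨n₀, hn⟩ := Auto.fitProj_spec f 1
  obtain ⟨m, hm⟩ := Nat.exists_eq_add_of_le' (Nat.factorial_pos n₀)
  have hrel : ∀ y, F ((tL O hg ^ (m + 1)) (pR D y)) = F ((tL O hg ^ m) (D.cor y)) := fun y => by
    have h1 := linear_eq_zero_of_mem_mPow (fun r hr v => smul_eq_zero_of_mem hr v) (F.comp (pR D))
      ((hn n₀ le_rfl y).1)
    rw [hm, LinearMap.comp_apply, map_sub, map_sub, hkill, zero_sub, neg_eq_zero] at h1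
    have h2 := hstep m 0 y
    rw [pow_zero, Module.End.one_apply, h1, zero_add, eq_comm, sub_eq_zero] at h2
    exact h2
  set Fk : ℕ → (GHom (Gamma0 N) O →ₗ[O] ResidueField O) := fun k => F.comp (tL O hg ^ k)
  have hFk : ∀ k z, Fk k (projG S a N z) = Fk k z := fun k z => by
    show F ((tL O hg ^ k) (projG S a N z)) = F ((tL O hg ^ k) z)
    rw [projG_natural (tL O hg ^ k) (fun i x => ?_), hF]
    clear z
    induction k generalizing x with
    | zero => rfl
    | succ k ih => rw [pow_succ, Module.End.mul_apply, Module.End.mul_apply, opL_tL hS0 i hg, ih]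
  set Λ : ℕ → (GHom (Gamma0 N) ℤ →+ ResidueField O) := fun k =>
    (Fk k).toAddMonoidHom.comp (castCls O N)
  have hΛ : (Λ (m + 1)).comp ((corH (dvd_mul_right N p)).comp D.wOp) =
      (Λ m).comp (corH (dvd_mul_right N p)) := by
    refine AddMonoidHom.ext fun c => ?_
    letI := Fintype.ofFinite (Cosets N (N * p))
    show F ((tL O hg ^ (m + 1)) (castCls O N (corH (dvd_mul_right N p) (D.wOp c)))) =
      F ((tL O hg ^ m) (castCls O N (corH (dvd_mul_right N p) c)))
    have hcw : castCls O (N * p) (D.wOp c) = D.wOp (castCls O (N * p) c) :=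
      castCls_natural D.isFam_w c
    have hcc : ∀ c, castCls O N (D.cor c) = D.cor (castCls O (N * p) c) := fun c =>
      castCls_natural D.isFam_cos c
    rw [corH_eq_cor D, corH_eq_cor D, hcc, hcc, hcw, ← pR_apply D]
    exact hrel _
  have hrel' : degH 1 one_pos h (dualPhi (Λ m)) +
      degH p D.prime.pos h2 (-dualPhi (Λ (m + 1))) = 0 := by
    rw [map_neg, ← Raise.dualPhi_corH (dvd_mul_right N p) h, ← hΛ, ← AddMonoidHom.comp_assoc,
      dualPhi_wOp, Raise.dualPhi_corH (dvd_mul_right N p) h, degH_eq_wOp_res D,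
      degH_one_eq_res D, add_neg_cancel]
  obtain ⟨i', m', hbad, hu', hm1, hmu⟩ := H.exists_pair_primes (L := N) D.prime
  obtain ⟨k', hk'⟩ := exists_nil_dualPhi hS0 i' (Fk m) (hFk m)
  obtain ⟨j', hj'⟩ := exists_nil_dualPhi hS0 m' (Fk m) (hFk m)
  have hΦ := (Raise.pair_eq_zero D.prime hg.not_dvd (hS0.good i') (hS.good i') hbad
    (eq_zero_of_isUnit_smul hu') (hS0.good m') (hS.good m') hm1 (eq_zero_of_isUnit_smul hmu) h h2
    k' j' _ _ (Raise.dualPhi_mem _) (neg_mem (Raise.dualPhi_mem _)) hrel' hk' hj').1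
  have hF0 := H.functional_eq_zero hS0 (Fk m) (hFk m) hΦ
  refine LinearMap.ext fun v => ?_
  obtain ⟨u, hu, huv⟩ := surjective_tL_pow hS0 hg hinj m v.2
  have := LinearMap.congr_fun hF0 u
  rwa [show Fk m u = F ((tL O hg ^ m) u) from rfl, huv,
    show F v.1 = lam v from congrArg lam (Subtype.ext (projG_apply v.2))] at this

/-- A class of level `N p` with `U_p` a sign, `w` its negative and trace zero vanishes. -/
theorem eq_zero_of_sign (H : ResHyp p S a) (D : LevData N p) [NeZero (N * p * p)]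
    (hS : Supp S (N * p)) (hg : GoodIndex N p)
    (θ : CuspForm.heckeAlgebra N 2 (↑S : Set ℕ) →+* O) (χ : ℕ → O)
    (hθ : ∀ (l : ℕ) (hl : l.Prime) (hlN : ¬ l ∣ N) (hlS : l ∉ (↑S : Set ℕ)),
      θ (CuspForm.heckeAlgebra.T hl hlN hlS) = χ l)
    {ε : O} (hε : ε * ε = 1) {v : GHom (Gamma0 (N * p)) O} (hv : v ∈ locG O S a (N * p))
    (heig : ∀ (l : ℕ) (hg : GoodIndex (N * p) l), l ∉ S → transferHom hg v = χ l • v)
    (hU : D.uOp v = ε • v) (hw : D.wOp v = -(ε • v)) (hcor : D.cor v = 0) : v = 0 := by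
  have hp := (Fact.out : p.Prime)
  have hS2 : Supp S (N * p * p) := fun r hr hrd => (hr.dvd_mul.mp hrd).elim (hS r hr)
    fun h => hS r hr (h.trans (dvd_mul_left p N))
  have h11 : N * p * 1 ∣ N * p * p := mul_dvd_mul_left _ (one_dvd p)
  have h22 : N * p * p ∣ N * p * p := dvd_rfl
  have hq0 : N * p ∣ N * p * p := dvd_mul_right _ p
  have hpd : p ∣ N * p * p := dvd_mul_left p _
  set x := degL O p hp.pos h22 v - ((p : O) * ε) • degL O 1 one_pos h11 v with hx
  have hxloc : x ∈ locG O S a (N * p * p) :=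
    Submodule.sub_mem _ (map_mem_locG _ (fun i => opL_degL hS hS2 i hp.pos h22) hv)
      (Submodule.smul_mem _ _ (map_mem_locG _ (fun i => opL_degL hS hS2 i one_pos h11) hv))
  have hxU : uEnd hp hpd x = 0 := by
    rw [← uE_apply O hp hpd x, hx, map_sub, map_smul, uE_apply, uE_apply, degL_apply, degL_apply,
      uEnd_degH' (one_mul p).symm hp one_pos hp.pos hpd h22 h11,
      ← degH_uEnd one_pos h11 hp hp.not_dvd_one (dvd_mul_left p N) hpd, uEnd_eq_uOp D, hU,
      ← degL_apply, ← degL_apply, map_smul, smul_smul, mul_assoc (p : O), hε, mul_one,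
      Nat.cast_smul_eq_nsmul, sub_self]
  have hxc : corH hq0 x = (ε - (p : O) * ε * (p : O)) • v := by
    have h1 : wLin D (uE O hp (dvd_mul_left p N) (wLin D v)) = ε • v := by
      have hw' : wLin D v = -(ε • v) := hw
      have hU' : uE O hp (dvd_mul_left p N) v = ε • v := hU
      rw [hw', map_neg, map_smul, hU', map_neg, map_smul, map_smul, hw']
      simp only [smul_neg, neg_neg, smul_smul, mul_assoc, hε, mul_one]
    rw [← corL_apply, hx, map_sub, map_smul, corL_apply, corL_apply, degL_apply, degL_apply,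
      corH_degH_one, card_cosets_sq D, corH_degH_q D h22 hq0, ← Nat.cast_smul_eq_nsmul O,
      smul_smul, sub_smul]
    exact congrArg (· - _) h1
  have hcor' : corH (dvd_trans (dvd_mul_right N p) hq0) x = 0 := by
    rw [← corH_corH (dvd_mul_right N p) hq0 (dvd_trans (dvd_mul_right N p) hq0), hxc,
      ← corL_apply, map_smul, corL_apply, corH_eq_cor D, hcor, smul_zero]
  have hxeig : ∀ (l : ℕ) (hl : GoodIndex (N * p * p) l), l ∉ S →
      transferHom hl x = χ l • x := by
    intro l hl hlS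
    have hl' : GoodIndex (N * p) l := ⟨hl.prime, fun h => hl.not_dvd (h.trans hq0)⟩
    rw [← tL_apply hl, hx, map_sub, map_smul, tL_apply, tL_apply, degL_apply, degL_apply,
      ← degH_transfer hp.pos h22 hl' hl, ← degH_transfer one_pos h11 hl' hl, heig l hl' hlS,
      ← degL_apply, ← degL_apply, map_smul, map_smul, smul_sub, smul_comm]
    rfl
  have hx0 : x = 0 := by
    have main : ∀ (M : ℕ) [NeZero M] (_ : M = N * p ^ 2) (hd : N ∣ M) (hpM : p ∣ M)
        (z : GHom (Gamma0 M) O), z ∈ ParHom M O →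
        (∀ (l : ℕ) (hl : GoodIndex M l), l ∉ S → transferHom hl z = χ l • z) →
        uEnd hp hpM z = 0 → corH hd z = 0 → z = 0 := by
      intro M _ e hd hpM z hz1 hz2 hz3 hz4
      subst e
      exact eq_zero_of_corH_eq_zero hp hg.not_dvd dvd_rfl S
        (fun l hl hld => hS l hl ((hl.dvd_mul.mp hld).elim (fun h => h.trans (dvd_mul_right N p))
          fun h => (hl.dvd_of_dvd_pow h).trans (dvd_mul_left p N))) θ χ hθ z hz1 hz2 hz3 hz4
    exact main (N * p * p) (by ring) _ hpd x (H.locG_le_parHom hS2 hxloc) hxeig hxU hcor'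
  have := congrArg (corH hq0) hx0
  rw [hxc, map_zero] at this
  refine (smul_eq_zero.mp this).resolve_left fun h0 => ?_
  have h1 : (1 : O) - (p : O) * (p : O) = 0 := by linear_combination ε * h0 - (1 - (p:O) * p) * hε
  have h2 : ((p * p : ℕ) : O) = ((1 : ℕ) : O) := by push_cast; linear_combination -h1
  have := Nat.cast_injective h2
  exact hp.one_lt.ne' (Nat.eq_one_of_mul_eq_one_right this)

/-- The map back is injective on eigen classes. -/
theorem eq_zero_of_pR (H : ResHyp p S a) (D : LevData N p) (hS : Supp S (N * p))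
    (hg : GoodIndex N p) (θ : CuspForm.heckeAlgebra N 2 (↑S : Set ℕ) →+* O) (χ : ℕ → O)
    (hθ : ∀ (l : ℕ) (hl : l.Prime) (hlN : ¬ l ∣ N) (hlS : l ∉ (↑S : Set ℕ)),
      θ (CuspForm.heckeAlgebra.T hl hlN hlS) = χ l)
    {α β : O} (hβ : β ∈ maximalIdeal O) (hαβ : α * β = (p : O))
    (hT : ∀ z ∈ locG O S a N, (∀ (l : ℕ) (hl : GoodIndex N l), l ∉ S →
      transferHom hl z = χ l • z) → transferHom hg z = (α + β) • z)
    (h' : p ∣ N * p) {y : GHom (Gamma0 (N * p)) O} (hy : y ∈ locG O S a (N * p))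
    (hyord : fitProj (uE O (Fact.out : p.Prime) h') y = y)
    (heig : ∀ (l : ℕ) (hl : GoodIndex (N * p) l), l ∉ S → transferHom hl y = χ l • y)
    (h0 : pR D y = 0) : y = 0 := by
  have hp := (Fact.out : p.Prime)
  haveI : NeZero (N * p * p) := ⟨mul_ne_zero (NeZero.ne _) hp.ne_zero⟩
  rw [pR_apply] at h0
  have hS0 : Supp S N := hS.of_dvd (dvd_mul_right N p)
  set f := uE O hp h'
  have hf : ∀ v, f v = D.uOp v := fun v => rfl
  have hfmem : ∀ {v}, v ∈ locG O S a (N * p) → f v ∈ locG O S a (N * p) := fun {v} hv =>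
    map_mem_locG f (fun i => opL_uE hS i hp h') hv
  have hUy : D.uOp y = -D.wOp y := by
    have := D.res_cor (D.wOp y)
    rw [h0, map_zero, D.wOp_wOp] at this
    exact eq_neg_of_add_eq_zero_right this.symm
  set z := D.cor y with hz
  have hres : D.res z = y - D.uOp (D.uOp y) := by
    rw [hz, D.res_cor, hUy, map_neg, sub_neg_eq_add]
  have hzloc : z ∈ locG O S a N := by
    have := map_mem_locG (corL O (dvd_mul_right N p))
      (fun i => opL_corL hS0 hS i _) hy
    rwa [corL_apply, corH_eq_cor D] at this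
  have hzeig : ∀ (l : ℕ) (hl : GoodIndex N l), l ∉ S → transferHom hl z = χ l • z := by
    intro l hl hlS
    have hl' : GoodIndex (N * p) l := ⟨hl.prime, fun h => hlS (hS l hl.prime h)⟩
    rw [hz, ← D.cor_transfer hl' hl, heig l hl' hlS, ← corH_eq_cor D (dvd_mul_right N p),
      ← corH_eq_cor D (dvd_mul_right N p), ← corL_apply, ← corL_apply, map_smul]
  have hTz := hT z hzloc hzeig
  have hUres : D.uOp (D.res z) = (α + β) • D.res z - wLin D (D.res z) := by
    rw [uOp_res D hg, hTz, ← degH_one_eq_res D (mul_dvd_mul_left N (one_dvd p)),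
      ← degH_one_eq_res D (mul_dvd_mul_left N (one_dvd p)), ← degL_apply, ← degL_apply, map_smul,
      wLin_apply]
  have hres_ord : fitProj f (D.res z) = D.res z := by
    rw [hres, map_sub, ← hf, ← hf, ← fitProj_apply_comm, ← fitProj_apply_comm, hyord]
  set y' := β • D.res z - wLin D (D.res z) with hy'
  have hy'2 : y' = f (D.res z) - α • D.res z := by
    rw [hf, hUres, hy']; module
  have hy'0 : y' = 0 := by
    have e1 : fitProj f y' = y' := by
      rw [hy'2, map_sub, map_smul, ← fitProj_apply_comm, hres_ord]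
    rw [← e1]
    refine fitProj_eq_zero_of_eigen f hβ ?_
    rw [hy', map_sub, map_smul, hf, hf, hUres, wLin_apply, uOp_wOp_res,
      ← Nat.cast_smul_eq_nsmul O, ← hαβ]
    module
  have hz0 : z = 0 := by
    have h1 := congrArg (fun v => pR D v) hy'0
    simp only [map_zero] at h1
    rw [hy', map_sub, map_smul, pR_apply, pR_apply, wLin_apply, D.wOp_wOp, D.cor_res,
      D.cor_wOp_res, hTz, ← Nat.cast_smul_eq_nsmul O, Nat.cast_add, Nat.cast_one, ← hαβ, smul_smul,
      ← sub_smul] at h1
    refine eq_zero_of_isUnit_smul (r := β * (α + β) - (α * β + 1)) ?_ z h1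
    rw [show β * (α + β) - (α * β + 1) = -(1 - β * β) by ring]
    exact (IsLocalRing.isUnit_one_sub_self_of_mem_nonunits _
      ((mem_maximalIdeal _).mp (Ideal.mul_mem_left _ β hβ))).neg
  have hUU : D.uOp (D.uOp y) = y := by
    rw [hz0, map_zero] at hres
    exact (sub_eq_zero.mp hres.symm).symm
  have hcU : D.cor (D.uOp y) = 0 := by rw [cor_uOp, h0, nsmul_zero]
  have hwU : D.wOp (D.uOp y) = -y := by rw [hUy, map_neg, D.wOp_wOp]
  have heigU : ∀ (l : ℕ) (hl : GoodIndex (N * p) l), l ∉ S →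
      transferHom hl (D.uOp y) = χ l • D.uOp y := fun l hl hlS => by
    rw [← hf, uE_apply, ← uEnd_transfer hp h' hl, heig l hl hlS, ← uE_apply O hp h', map_smul]
    rfl
  have hs : ∀ ε : O, ε * ε = 1 → y + ε • D.uOp y = 0 := fun ε hε => by
    refine eq_zero_of_sign H D hS hg θ χ hθ hε
      (Submodule.add_mem _ hy (Submodule.smul_mem _ _ (hfmem hy))) (fun l hl hlS => ?_) ?_ ?_ ?_
    · rw [← tL_apply hl, map_add, map_smul, tL_apply, tL_apply, heig l hl hlS, heigU l hl hlS,
        smul_add, smul_comm]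
    · rw [← hf, map_add, map_smul, hf, hf, hUU, smul_add, smul_smul, hε, one_smul, add_comm]
    · rw [← wLin_apply D, map_add, map_smul, wLin_apply, wLin_apply, hwU,
        show D.wOp y = -D.uOp y by rw [hUy, neg_neg], smul_add, smul_smul, hε, one_smul]
      simp only [smul_neg]
      abel
    · rw [← corH_eq_cor D (dvd_mul_right N p), ← corL_apply, map_add, map_smul, corL_apply,
        corL_apply, corH_eq_cor D, corH_eq_cor D, ← hz, hz0, hcU, smul_zero, add_zero]
  have h1 := hs 1 (one_mul 1)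
  have h2 := hs (-1) (by ring)
  have h3 : (2 : O) • y = 0 := by
    linear_combination (norm := module) h1 + h2
  exact (smul_eq_zero.mp h3).resolve_left two_ne_zero

end Fermat.Agent.R59.Raised
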