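/-
S59, unit C2: the steps at a finite set of primes composed.

At level `B ∏ q²` the part killed by every `U_q` (and ordinary at `p` if asked) receives the
residual part of level `N` saturatedly, maps onto it compatibly with the Hecke operators, the
composite is the product of the factors on the classes with the given eigenvalues, and the map back
is injective on eigen classes of level `N`.
-/
import Fermat.Agent.R59.Raised.PStep
import Fermat.Agent.R59.Defs

set_option autoImplicit false
set_option linter.unusedSectionVars false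
set_option linter.style.haveILetI false

noncomputable section

namespace Fermat.Agent.R59.Raised

open CongruenceSubgroup IsLocalRing
open Fermat.Agent.Raise (GHom)
open Fermat.Agent.GalRep (GoodIndex transferHom ParHom)
open Fermat.Agent.Auto (fitProj)
open scoped MatrixGroups

variable {O : Type} [CommRing O] [IsDomain O] [IsDiscreteValuationRing O]
  [IsAdicComplete (maximalIdeal O) O] [Finite (ResidueField O)]

variable (O) in
/-- The residual classes killed by `U_r` for `r ∈ P`, and ordinary at `p` if asked. -/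
def condK (S : Finset ℕ) (a : ℕ → O) (p : ℕ) [hp : Fact p.Prime] (P : Finset ℕ) (o : Bool) (L : ℕ)
    [NeZero L] : Submodule O (GHom (Gamma0 L) O) where
  carrier := {z | z ∈ locG O S a L ∧
    (∀ (r : ℕ) (hr : r.Prime) (h : r ∣ L), r ∈ P → uE O hr h z = 0) ∧
    (o = true → ∀ h : p ∣ L, fitProj (uE O hp.out h) z = z)}
  zero_mem' := ⟨zero_mem _, fun _ _ _ _ => map_zero _, fun _ _ => map_zero _⟩
  add_mem' := fun {x y} hx hy => ⟨add_mem hx.1 hy.1,
    fun r hr h hP => by rw [map_add, hx.2.1 r hr h hP, hy.2.1 r hr h hP, add_zero],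
    fun ho h => by rw [map_add, hx.2.2 ho h, hy.2.2 ho h]⟩
  smul_mem' := fun c x hx => ⟨Submodule.smul_mem _ c hx.1,
    fun r hr h hP => by rw [map_smul, hx.2.1 r hr h hP, smul_zero],
    fun ho h => by rw [map_smul, hx.2.2 ho h]⟩

variable {S : Finset ℕ} {a : ℕ → O} {p : ℕ} [Fact p.Prime]

theorem mem_condK {P : Finset ℕ} {o : Bool} {L : ℕ} [NeZero L] {z : GHom (Gamma0 L) O} :
    z ∈ condK O S a p P o L ↔ z ∈ locG O S a L ∧
      (∀ (r : ℕ) (hr : r.Prime) (h : r ∣ L), r ∈ P → uE O hr h z = 0) ∧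
      (o = true → ∀ h : p ∣ L, fitProj (uE O (Fact.out : p.Prime) h) z = z) := Iff.rfl

theorem condK_le {P : Finset ℕ} {o : Bool} {L : ℕ} [NeZero L] :
    condK O S a p P o L ≤ locG O S a L := fun _ hz => hz.1

variable [CharZero O]

/-- The part is saturated. -/
theorem condK_saturated {P : Finset ℕ} {o : Bool} {L : ℕ} [NeZero L] {c : O}
    {z : GHom (Gamma0 L) O} (hc : c ≠ 0) (hz : c • z ∈ condK O S a p P o L) :
    z ∈ condK O S a p P o L := by
  obtain ⟨h1, h2, h3⟩ := mem_condK.mp hz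
  refine mem_condK.mpr ⟨?_, fun r hr h hP => ?_, fun ho h => ?_⟩
  · have h4 := projG_apply h1
    rw [map_smul] at h4
    rw [← smul_right_injective _ hc h4]
    exact projG_mem z
  · have := h2 r hr h hP
    rw [map_smul] at this
    exact (smul_eq_zero.mp this).resolve_left hc
  · have := h3 ho h
    rw [map_smul] at this
    exact smul_right_injective _ hc this

/-- The good operators preserve the part. -/
theorem condK_transfer {P : Finset ℕ} {o : Bool} {L : ℕ} [NeZero L] (hS : Supp S L) {ℓ : ℕ}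
    (hg : GoodIndex L ℓ) {z : GHom (Gamma0 L) O} (hz : z ∈ condK O S a p P o L) :
    transferHom hg z ∈ condK O S a p P o L := by
  obtain ⟨h1, h2, h3⟩ := mem_condK.mp hz
  rw [← tL_apply hg]
  refine mem_condK.mpr ⟨map_mem_locG _ (fun i => opL_tL hS i hg) h1, fun r hr h hP => ?_,
    fun ho h => ?_⟩
  · rw [tL_apply, uE_apply, uEnd_transfer hr h hg, ← uE_apply O hr h, h2 r hr h hP,
      Raise.transferHom_zero]
  · rw [← Auto.fitProj_natural (f := uE O (Fact.out : p.Prime) h) (f' := uE O (Fact.out : p.Prime) h) (tL O hg)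
      (fun x => (uEnd_transfer (Fact.out : p.Prime) h hg x).symm), h3 ho h]

theorem corH_uEnd' {L m L' r : ℕ} [NeZero L] [NeZero L'] (e : L' = L * m) (h : L ∣ L')
    (hr : r.Prime) (hrm : ¬ r ∣ m) (hrL : r ∣ L) (hrL' : r ∣ L') {A : Type} [AddCommGroup A]
    (z : GHom (Gamma0 L') A) :
    corH h (uEnd hr hrL' z) = uEnd hr hrL (corH h z) := by
  subst e
  exact corH_uEnd hr hrm hrL hrL' z

theorem uE_comm {L r s : ℕ} (hr : r.Prime) (hs : s.Prime) (hrL : r ∣ L) (hsL : s ∣ L)
    (z : GHom (Gamma0 L) O) : uE O hr hrL (uE O hs hsL z) = uE O hs hsL (uE O hr hrL z) :=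
  uEnd_uEnd hr hs hrL hsL z

/-- The composite of the steps. -/
theorem exists_chain (H : ResHyp p S a) {N B : ℕ} [NeZero N] [NeZero B] (hNB : N ∣ B)
    (hSB : Supp S B) (o : Bool) (t : ℕ → O) (γ₀ : O)
    (E : GHom (Gamma0 N) O → Prop)
    (i₀ : GHom (Gamma0 N) O →ₗ[O] GHom (Gamma0 B) O)
    (r₀ : GHom (Gamma0 B) O →ₗ[O] GHom (Gamma0 N) O)
    (hi : ∀ z ∈ locG O S a N, i₀ z ∈ condK O S a p ∅ o B)
    (hiT : ∀ (ℓ : ℕ) (hg : GoodIndex N ℓ) (hg' : GoodIndex B ℓ) z,
      i₀ (transferHom hg z) = transferHom hg' (i₀ z))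
    (hrT : ∀ (ℓ : ℕ) (hg : GoodIndex N ℓ) (hg' : GoodIndex B ℓ) y,
      r₀ (transferHom hg' y) = transferHom hg (r₀ y))
    (hinj : ∀ z ∈ locG O S a N, redH B (i₀ z) = 0 → redH N z = 0)
    (hsurj : ∀ x ∈ locG O S a N, ∃ y ∈ condK O S a p ∅ o B, r₀ y = x)
    (hcomp : ∀ z ∈ locG O S a N, E z → r₀ (i₀ z) = γ₀ • z)
    (θ : CuspForm.heckeAlgebra N 2 (↑S : Set ℕ) →+* O) (χ : ℕ → O)
    (hθ : ∀ (l : ℕ) (hl : l.Prime) (hlN : ¬ l ∣ N) (hlS : l ∉ (↑S : Set ℕ)),
      θ (CuspForm.heckeAlgebra.T hl hlN hlS) = χ l)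
    (hker : ∀ y ∈ condK O S a p ∅ o B,
      (∀ (l : ℕ) (hl : GoodIndex B l), l ∉ S → transferHom hl y = χ l • y) → r₀ y = 0 → y = 0)
    (sig : Finset ℕ) (hsig : ∀ q ∈ sig, q.Prime ∧ q ≠ p ∧ ¬ q ∣ B ∧ q ∈ S)
    (hEt : ∀ z, E z → ∀ q ∈ sig, ∀ hg : GoodIndex N q, transferHom hg z = t q • z) :
    ∃ (L : ℕ) (_ : NeZero L) (i : GHom (Gamma0 N) O →ₗ[O] GHom (Gamma0 L) O)
      (r : GHom (Gamma0 L) O →ₗ[O] GHom (Gamma0 N) O),
      L = B * ∏ q ∈ sig, q * q ∧ Supp S L ∧
      (∀ z ∈ locG O S a N, i z ∈ condK O S a p sig o L) ∧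
      (∀ (ℓ : ℕ) (hg : GoodIndex N ℓ) (hg' : GoodIndex L ℓ) z,
        i (transferHom hg z) = transferHom hg' (i z)) ∧
      (∀ (ℓ : ℕ) (hg : GoodIndex N ℓ) (hg' : GoodIndex L ℓ) y,
        r (transferHom hg' y) = transferHom hg (r y)) ∧
      (∀ z ∈ locG O S a N, redH L (i z) = 0 → redH N z = 0) ∧
      (∀ x ∈ locG O S a N, ∃ y ∈ condK O S a p sig o L, r y = x) ∧
      (∀ z ∈ locG O S a N, E z → r (i z) = ((∏ q ∈ sig, gammaQ q (t q)) * γ₀) • z) ∧
      (∀ y ∈ condK O S a p sig o L,
        (∀ (l : ℕ) (hl : GoodIndex L l), l ∉ S → transferHom hl y = χ l • y) →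
          r y = 0 → y = 0) := by
  classical
  induction sig using Finset.induction with
  | empty =>
    exact ⟨B, inferInstance, i₀, r₀, by simp, hSB, hi, hiT, hrT, hinj, hsurj,
      fun z hz hEz => by rw [Finset.prod_empty, one_mul, hcomp z hz hEz], hker⟩
  | insert q P hqP ih =>
    obtain ⟨L, _, i, r, hL, hSL, hiK, hiT', hrT', hinj', hsurj', hcomp', hker'⟩ :=
      ih (fun x hx => hsig x (Finset.mem_insert_of_mem hx))
        (fun z hz x hx => hEt z hz x (Finset.mem_insert_of_mem hx))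
    obtain ⟨hq, hqp, hqB, hqS⟩ := hsig q (Finset.mem_insert_self q P)
    have hprod : ∀ (T : Finset ℕ) (s : ℕ), (∀ x ∈ T, x.Prime) → s.Prime → s ∉ T →
        ¬ s ∣ ∏ x ∈ T, x * x := fun T s hT hs hsT h => by
      obtain ⟨x, hx, hsx⟩ := (Prime.dvd_finsetProd_iff hs.prime _).mp h
      rcases hs.dvd_mul.mp hsx with h' | h' <;>
        exact hsT ((Nat.prime_dvd_prime_iff_eq hs (hT x hx)).mp h' ▸ hx)
    have hPp : ∀ x ∈ P, x.Prime := fun x hx => (hsig x (Finset.mem_insert_of_mem hx)).1
    have hqL : ¬ q ∣ L := fun h => by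
      rw [hL] at h
      exact (hq.dvd_mul.mp h).elim hqB (hprod P q hPp hq hqP)
    have hNL : N ∣ L := hNB.trans (hL ▸ dvd_mul_right B _)
    haveI : NeZero (L * q) := ⟨mul_ne_zero (NeZero.ne L) hq.ne_zero⟩
    haveI : NeZero (L * q * q) := ⟨mul_ne_zero (NeZero.ne _) hq.ne_zero⟩
    have hgq : GoodIndex L q := ⟨hq, hqL⟩
    have hgqN : GoodIndex N q := ⟨hq, fun h => hqL (h.trans hNL)⟩
    have hS' : Supp S (L * q * q) := fun s hs hsd => by
      rcases hs.dvd_mul.mp hsd with h | h
      · rcases hs.dvd_mul.mp h with h | h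
        · exact hSL s hs h
        · exact (Nat.prime_dvd_prime_iff_eq hs hq).mp h ▸ hqS
      · exact (Nat.prime_dvd_prime_iff_eq hs hq).mp h ▸ hqS
    have hd : L ∣ L * q * q := ⟨q * q, by ring⟩
    have hqd : q ∣ L * q * q := dvd_mul_left q _
    have hp := (Fact.out : p.Prime)
    have hpqq : ¬ p ∣ q * q := fun h => (hp.dvd_mul.mp h).elim
      (fun h => hqp ((Nat.prime_dvd_prime_iff_eq hp hq).mp h).symm)
      (fun h => hqp ((Nat.prime_dvd_prime_iff_eq hp hq).mp h).symm)
    have hrne : ∀ s ∈ P, s ≠ q := fun s hs e => hqP (e ▸ hs)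
    have hsqq : ∀ s ∈ P, s.Prime → ¬ s ∣ q * q := fun s hsP hs h => (hs.dvd_mul.mp h).elim
      (fun h => hrne s hsP ((Nat.prime_dvd_prime_iff_eq hs hq).mp h))
      (fun h => hrne s hsP ((Nat.prime_dvd_prime_iff_eq hs hq).mp h))
    have hdown : ∀ {s : ℕ}, s.Prime → ¬ s ∣ q * q → s ∣ L * q * q → s ∣ L := fun {s} hs hn h => by
      rw [mul_assoc] at h
      exact (hs.dvd_mul.mp h).resolve_right hn
    have hup : ∀ {s : ℕ}, s ∣ L → s ∣ L * q * q := fun h => h.trans hd
    have hcor : ∀ {y}, y ∈ condK O S a p (insert q P) o (L * q * q) →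
        corL O hd y ∈ condK O S a p P o L := by
      intro y hy
      obtain ⟨h1, h2, h3⟩ := mem_condK.mp hy
      refine mem_condK.mpr ⟨map_mem_locG _ (fun j => opL_corL hSL hS' j hd) h1,
        fun s hs h hsP => ?_, fun ho h => ?_⟩
      · rw [uE_apply, corL_apply,
          ← corH_uEnd' (mul_assoc L q q) hd hs (hsqq s hsP hs) h (hup h), ← uE_apply O hs,
          h2 s hs (hup h) (Finset.mem_insert_of_mem hsP), map_zero]
      · rw [← Auto.fitProj_natural (f := uE O hp (hup h)) (f' := uE O hp h) (corL O hd)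
          (fun x => corH_uEnd' (mul_assoc L q q) hd hp hpqq h (hup h) x), h3 ho (hup h)]
    refine ⟨L * q * q, inferInstance, (iStep hgq).comp i, r.comp (corL O hd), ?_, hS', ?_, ?_, ?_,
      ?_, ?_, ?_, ?_⟩
    · rw [Finset.prod_insert hqP, hL]; ring
    · intro z hz
      obtain ⟨h1, h2, h3⟩ := mem_condK.mp (hiK z hz)
      rw [LinearMap.comp_apply]
      refine mem_condK.mpr ⟨iStep_mem hgq hS' h1, fun s hs h hsP => ?_, fun ho h => ?_⟩
      · rcases Finset.mem_insert.mp hsP with rfl | hsP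
        · exact uEnd_iStep hgq h (i z)
        · have hsL := hdown hs (hsqq s hsP hs) h
          rw [uE_apply, ← uEnd_iStep_comm hgq hs (hrne s hsP) hsL h, ← uE_apply O hs,
            h2 s hs hsL hsP, map_zero]
      · have hpL := hdown hp hpqq h
        rw [← Auto.fitProj_natural (f := uE O hp hpL) (f' := uE O hp h) (iStep hgq)
          (fun x => uEnd_iStep_comm hgq hp (Ne.symm hqp) hpL h x), h3 ho hpL]
    · intro ℓ hg hg' z
      have hgL : GoodIndex L ℓ := ⟨hg.prime, fun h => hg'.not_dvd (h.trans hd)⟩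
      rw [LinearMap.comp_apply, LinearMap.comp_apply, hiT' ℓ hg hgL, iStep_transfer hgq hgL hg']
    · intro ℓ hg hg' y
      have hgL : GoodIndex L ℓ := ⟨hg.prime, fun h => hg'.not_dvd (h.trans hd)⟩
      rw [LinearMap.comp_apply, LinearMap.comp_apply, corL_apply, corL_apply,
        corH_transfer hd hgL hg', hrT' ℓ hg hgL]
    · intro z hz h0
      exact hinj' z hz (redH_eq_zero_of_iStep H hgq hqp hS' (hiK z hz).1 h0)
    · intro x hx
      obtain ⟨y₀, hy₀, rfl⟩ := hsurj' x hx
      obtain ⟨h1, h2, h3⟩ := mem_condK.mp hy₀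
      obtain ⟨y, hy, hyq, hyc⟩ := exists_corH_eq H hq hqp hqL hS' hd hqd h1
      have hloc : ∀ {s : ℕ} (hs : s.Prime) (h : s ∣ L * q * q) {w},
          w ∈ locG O S a (L * q * q) →
          fitProj (uE O hs h) w ∈ locG O S a (L * q * q) := fun {s} hs h {w} hw =>
        map_mem_locG _ (fun j v => (Auto.fitProj_natural (f := uE O hs h) (f' := uE O hs h)
          (opL O (L * q * q) S j) (fun u => (opL_uE hS' j hs h u).symm) v).symm) hw
      have hcomm : ∀ {s s' : ℕ} (hs : s.Prime) (h : s ∣ L * q * q) (hs' : s'.Prime)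
          (h' : s' ∣ L * q * q) (w : GHom (Gamma0 (L * q * q)) O),
          uE O hs' h' (fitProj (uE O hs h) w) = fitProj (uE O hs h) (uE O hs' h' w) :=
        fun {s s'} hs h hs' h' w => Auto.fitProj_natural (uE O hs' h')
          (fun u => uE_comm hs' hs h' h u) w
      obtain ⟨y₁, hy₁, hy₁q, hy₁c, hy₁o⟩ : ∃ y₁ ∈ locG O S a (L * q * q),
          uE O hq hqd y₁ = 0 ∧ corL O hd y₁ = y₀ ∧
          (o = true → ∀ h : p ∣ L * q * q, fitProj (uE O hp h) y₁ = y₁) := by
        by_cases hop : o = true ∧ p ∣ L * q * q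
        · obtain ⟨ho, h⟩ := hop
          have hpL := hdown hp hpqq h
          refine ⟨fitProj (uE O hp h) y, hloc hp h hy, ?_, ?_, fun _ _ => fitProj_idem_apply _ _⟩
          · rw [hcomm hp h hq hqd, uE_apply O hq hqd y, hyq, map_zero]
          · rw [Auto.fitProj_natural (f' := uE O hp hpL) (corL O hd)
              (fun u => corH_uEnd' (mul_assoc L q q) hd hp hpqq hpL h u), corL_apply, hyc,
              h3 ho hpL]
        · exact ⟨y, hy, hyq, hyc, fun ho h => absurd ⟨ho, h⟩ hop⟩
      have hrec : ∀ T : Finset ℕ, T ⊆ P → ∃ w ∈ locG O S a (L * q * q),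
          uE O hq hqd w = 0 ∧ corL O hd w = y₀ ∧
          (o = true → ∀ h : p ∣ L * q * q, fitProj (uE O hp h) w = w) ∧
          ∀ (s : ℕ) (hs : s.Prime) (h : s ∣ L * q * q), s ∈ T → uE O hs h w = 0 := by
        intro T
        induction T using Finset.induction with
        | empty => exact fun _ => ⟨y₁, hy₁, hy₁q, hy₁c, hy₁o,
            fun _ _ _ h => absurd h (Finset.notMem_empty _)⟩
        | insert s T hsT ihT =>
          intro hsub
          obtain ⟨w, hw, hwq, hwc, hwo, hwT⟩ :=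
            ihT ((Finset.subset_insert s T).trans hsub)
          have hsP : s ∈ P := hsub (Finset.mem_insert_self s T)
          obtain ⟨hs, hsp, hsB, hsS⟩ := hsig s (Finset.mem_insert_of_mem hsP)
          have hsL : s ∣ L := hL ▸ dvd_mul_of_dvd_right
            ((dvd_mul_right s s).trans (Finset.dvd_prod_of_mem (fun x => x * x) hsP)) B
          have h := hup hsL
          refine ⟨w - fitProj (uE O hs h) w, Submodule.sub_mem _ hw (hloc hs h hw), ?_, ?_,
            fun ho h' => ?_, fun s' hs' h' hs'T => ?_⟩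
          · rw [map_sub, hcomm hs h hq hqd, hwq, map_zero, sub_zero]
          · rw [map_sub, hwc, Auto.fitProj_natural (f' := uE O hs hsL) (corL O hd)
              (fun u => corH_uEnd' (mul_assoc L q q) hd hs (hsqq s hsP hs) hsL h u), hwc,
              fitProj_eq_zero_of_apply _ (h2 s hs hsL hsP), sub_zero]
          · rw [map_sub, Auto.fitProj_natural (f' := uE O hs h) (fitProj (uE O hp h'))
              (fun u => (hcomm hp h' hs h u).symm), hwo ho h']
          · rcases Finset.mem_insert.mp hs'T with rfl | hs'T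
            · have hne : B * (∏ x ∈ (insert q P).erase s', x * x) ≠ 0 :=
                mul_ne_zero (NeZero.ne B) (Finset.prod_ne_zero_iff.mpr fun x hx =>
                  mul_ne_zero (hsig x (Finset.mem_of_mem_erase hx)).1.ne_zero
                    (hsig x (Finset.mem_of_mem_erase hx)).1.ne_zero)
              haveI : NeZero (B * ∏ x ∈ (insert q P).erase s', x * x) := ⟨hne⟩
              haveI : NeZero ((B * ∏ x ∈ (insert q P).erase s', x * x) * s') :=
                ⟨mul_ne_zero hne hs.ne_zero⟩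
              refine uEnd_eq_zero_of_fit H (M := B * (∏ x ∈ (insert q P).erase s', x * x))
                ?_ hs hsp ?_ hS' h' (Submodule.sub_mem _ hw (hloc hs h hw)) ?_
              · calc L * q * q = B * ∏ x ∈ insert q P, x * x := by
                      rw [Finset.prod_insert hqP, hL]; ring
                  _ = B * ((∏ x ∈ (insert q P).erase s', x * x) * (s' * s')) := by
                      rw [Finset.prod_erase_mul _ (fun x => x * x) (Finset.mem_insert_of_mem hsP)]
                  _ = _ := by ring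
              · exact fun hdvd => (hs.dvd_mul.mp hdvd).elim hsB
                  (hprod _ s' (fun x hx => (hsig x (Finset.mem_of_mem_erase hx)).1) hs
                    (Finset.notMem_erase _ _))
              · rw [map_sub, fitProj_idem_apply, sub_self]
            · rw [map_sub, hcomm hs h hs' h', hwT s' hs' h' hs'T, map_zero, sub_zero]
      obtain ⟨w, hw, hwq, hwc, hwo, hwP⟩ := hrec P subset_rfl
      refine ⟨w, mem_condK.mpr ⟨hw, fun s hs h hsP => ?_, hwo⟩, by
        rw [LinearMap.comp_apply, hwc]⟩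
      rcases Finset.mem_insert.mp hsP with rfl | hsP
      · exact hwq
      · exact hwP s hs h hsP
    · intro z hz hEz
      have hT := hEt z hEz q (Finset.mem_insert_self q P) hgqN
      have hTi : transferHom hgq (i z) = t q • i z := by
        rw [← hiT' q hgqN hgq, hT, map_smul]
      rw [LinearMap.comp_apply, LinearMap.comp_apply, corL_apply, corH_iStep, gamOp_apply, hTi,
        Raise.transferHom_smul, hTi, smul_smul, ← sub_smul, smul_smul, map_smul, hcomp' z hz hEz,
        smul_smul, Finset.prod_insert hqP, gammaQ]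
      congr 1
      ring
    · intro y hy heig h0
      have hx := hcor hy
      have hxe : ∀ (l : ℕ) (hl : GoodIndex L l), l ∉ S →
          transferHom hl (corL O hd y) = χ l • corL O hd y := fun l hl hlS => by
        have hl' : GoodIndex (L * q * q) l := ⟨hl.prime, fun h => hlS (hS' l hl.prime h)⟩
        rw [corL_apply, ← corH_transfer hd hl hl', heig l hl' hlS, ← corL_apply, map_smul,
          corL_apply]
      have hx0 := hker' _ hx hxe h0
      have main : ∀ (M : ℕ) [NeZero M] (_ : M = L * q ^ 2) (hLM : L ∣ M) (hqM : q ∣ M)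
          (w : GHom (Gamma0 M) O), w ∈ ParHom M O → Supp S M →
          (∀ (l : ℕ) (hl : GoodIndex M l), l ∉ S → transferHom hl w = χ l • w) →
          uEnd hq hqM w = 0 → corH hLM w = 0 → w = 0 := by
        intro M _ e hLM hqM w hw1 hw2 hw3 hw4 hw5
        subst e
        exact eq_zero_of_corH_eq_zero hq hqL hNL S hw2 θ χ hθ w hw1 hw3 hw4 hw5
      exact main (L * q * q) (by ring) hd hqd y (H.locG_le_parHom hS' hy.1) hS' heig
        (hy.2.1 q hq hqd (Finset.mem_insert_self q P)) hx0

end Fermat.Agent.R59.Raised
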