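/-
S59, unit C2d: classes of a level prime to `p` killed by an ordinary residual representation. The
congruence relation makes classes killed by `T_p` congruent to powers, and such classes vanish by
`GalRep.Ordinary.noOrdInKer` at level `p N`.
-/
import Fermat.Agent.GalRep.Ordinary.Socle
import Fermat.Agent.GalRep.Ordinary.NoOrdInKer
import Fermat.Agent.R59.Raised.PRoot.Restrict
import Fermat.Agent.R59.Raised.PRoot.Congr

set_option autoImplicit false
set_option linter.unusedSectionVars false
set_option linter.style.haveILetI false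

noncomputable section

namespace Fermat.Agent.R59.Raised

open Fermat.Agent.Galois (GQ)
open Fermat.Agent.Deform
open Fermat.Agent.GalRep
open Fermat.Agent.GalRep.Ordinary
open IsLocalRing UpperHalfPlane CongruenceSubgroup
open scoped MatrixGroups Manifold

variable {N p : ℕ} [NeZero N] [Fact p.Prime] [NeZero p]
  {A : ValuationSubring (AlgebraicClosure ℚ)}

/-- Multiples of power representatives. -/
theorem hasPowRep_zsmul {n : ℕ} [NeZero n] {χ : ParHom N (ZMod n)} (h : HasPowRep A χ) (a : ℤ) :
    HasPowRep A (a • χ) := by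
  obtain ⟨j, rfl | rfl⟩ := Int.eq_nat_or_neg a
  · rw [natCast_zsmul]
    exact h.nsmul j
  · rw [show (-(j : ℤ)) • χ = -((j : ℤ) • χ) from neg_zsmul χ (j : ℤ), natCast_zsmul, neg_eq_of_add_eq_zero_right (add_pred_nsmul_eq_zero (j • χ))]
    exact (h.nsmul j).nsmul _

/-- The group ring keeps classes with all conjugates congruent to powers congruent to powers. -/
theorem hasPowRep_ringAct {x : ParHom N (ZMod p)}
    (hpow : ∀ g : GQ, HasPowRep A ((kummerGalois N p).galois g x)) (X : MonoidAlgebra ℤ GQ) :
    HasPowRep A (ringAct (p := p) N X x) := by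
  induction X using MonoidAlgebra.induction_on with
  | of g => rw [ringAct, MonoidAlgebra.lift_of]; exact hpow g
  | add a b ha hb => rw [map_add, LinearMap.add_apply]; exact ha.add hb
  | smul a b hb => rw [map_zsmul, LinearMap.smul_apply]; exact hasPowRep_zsmul hb a

variable {T : Type} [CommRing T] [IsLocalRing T] [Algebra ℤ_[p] T]
  [IsHausdorff (maximalIdeal T) T] [Finite (ResidueField T)]
  [CharP (ResidueField T) p] {r : GQ →* Mat2 T}

/-- A class killed like an ordinary residual representation with all its conjugates congruent to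
powers vanishes. -/
theorem eq_zero_of_powOrbit (hp2 : p ≠ 2) (hpN : ¬ p ∣ N) (hA : A.LiesOverPrime p)
    (hnd : TraceNondeg ((mapHom (residue T)).comp r)) (hord : IsResOrd p r A)
    {x : ParHom N (ZMod p)}
    (kill : ∀ X : MonoidAlgebra ℤ GQ, gK r X = 0 → ringAct (p := p) N X x = 0)
    (hpow : ∀ g : GQ, HasPowRep A ((kummerGalois N p).galois g x)) : x = 0 := by
  haveI : NeZero (p * N) := ⟨mul_ne_zero (NeZero.ne p) (NeZero.ne N)⟩
  obtain ⟨g, hg⟩ := Period.exists_bottom_row (N : ℤ) (p : ℤ)
    (Nat.Coprime.isCoprime ((Fact.out : p.Prime).coprime_iff_not_dvd.mpr hpN).symm)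
  set x' : ParHom (p * N) (ZMod p) := resR (dvd_mul_left N p) x
  have hres : ∀ X : MonoidAlgebra ℤ GQ,
      resR (dvd_mul_left N p) (ringAct (p := p) N X x) = ringAct (p := p) (p * N) X x' := fun X =>
    ringAct_comm _ (resR_galois (dvd_mul_left N p)) X x
  have kill' : ∀ X : MonoidAlgebra ℤ GQ, gK r X = 0 → ringAct (p := p) (p * N) X x' = 0 :=
    fun X hX => by rw [← hres, kill X hX, map_zero]
  let M := (AddMonoidHom.mk' (fun X => ringAct (p := p) (p * N) X x')
    fun X Y => by rw [map_add, LinearMap.add_apply]).range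
  have hle : M ≤ powKer A p N p := by
    rintro _ ⟨X, rfl⟩
    show ringAct (p := p) (p * N) X x' ∈ _
    rw [← hres, mem_powKer_iff hg hA]
    exact ⟨(hasPowRep_ringAct hpow X).res _, (hasPowRep_ringAct hpow X).alR_res hg⟩
  have hbot := noOrdInKer hp2 hpN A hA M (isOrdModule_range x' hnd hord kill') hle
  have hx' : x' = 0 := by
    have h1 : ringAct (p := p) (p * N) (1 : MonoidAlgebra ℤ GQ) x' ∈ M := ⟨1, rfl⟩
    rw [hbot, AddSubgroup.mem_bot, map_one, Module.End.one_apply] at h1
    exact h1
  exact resR_injective hpN (hx'.trans (map_zero _).symm)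

/-- A class killed like an ordinary residual representation and by `T_p` vanishes. -/
theorem eq_zero_of_heckeHom_eq_zero (hp2 : p ≠ 2) (hg : GoodIndex N p) (hA : A.LiesOverPrime p)
    (hnd : TraceNondeg ((mapHom (residue T)).comp r)) (hord : IsResOrd p r A)
    {x : ParHom N (ZMod p)}
    (kill : ∀ X : MonoidAlgebra ℤ GQ, gK r X = 0 → ringAct (p := p) N X x = 0)
    (hT : heckeHom hg x = 0) : x = 0 := by
  refine eq_zero_of_powOrbit hp2 hg.not_dvd hA hnd hord kill fun g => ?_
  set y := (kummerGalois N p).galois g x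
  have hcomm : ∀ (t : GQ) (χ : ParHom N (ZMod p)),
      heckeHom hg ((kummerGalois N p).galois t χ) = (kummerGalois N p).galois t (heckeHom hg χ) :=
    fun t χ => (eq_heckeHom hg (kummerHeckeComm N p (kummerGalois N p)
      (⟨⟨p, Fact.out⟩, hg.not_dvd⟩ : GoodPrime N) t χ _ (isHeckeTransfer_heckeHom hg χ))).symm
  obtain ⟨σ, hσ⟩ := Galois.exists_isFrobeniusAt (Fact.out : p.Prime) hA
  have h1 := hasPowRep_congruence hA hg hσ y
  rw [hcomm σ y, show heckeHom hg y = 0 by rw [hcomm, hT, map_zero], map_zero, sub_zero,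
    Semistable.parHom_nsmul_self, add_zero] at h1
  have h2 := h1.galois (inv_mem (mul_mem hσ.mem_decompositionSubgroup hσ.mem_decompositionSubgroup))
  rwa [← Module.End.mul_apply, ← Module.End.mul_apply, ← map_mul, ← map_mul,
    mul_assoc, inv_mul_cancel, map_one, Module.End.one_apply] at h2

end Fermat.Agent.R59.Raised
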