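/-
S59, unit C2d: the unit root at `p` of a point of the minimal system is a root of
`X² - a_p X + p`.

Justification: the representation at the point is ordinary (`GalRep.Ordinary.noOrdInKer` at level
`p N`, with the eigen system pulled back along restriction); places over `p` are conjugate, so one
`α` serves all of them.  At a level prime to `p` the congruence relation puts
`(α² + p - α T_p) x`, `x` fixed by a moving element of inertia, among the classes congruent to powers,
which vanish in the residually ordinary part (`PRoot.Local`, `PRoot.Vanish`).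
-/
import Fermat.Agent.R59.Defs
import Fermat.Agent.R59.Raised.Loc
import Fermat.Agent.R59.Raised.PRoot.Vanish
import Fermat.Agent.R59.Glue.Local
import Fermat.Agent.R59.Levels.Transfer
import Fermat.Agent.R59.Phi.Bridge
import Fermat.Agent.Auto.Level.NonEis
import Fermat.Agent.GalRep.Model.Reduction
import Fermat.Agent.GD.TW56.BaseChange
import Fermat.Agent.GD.Global.ClassFormation.Frob
import Fermat.Agent.Galois.Places

set_option autoImplicit false
set_option linter.style.haveILetI false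
set_option linter.unusedSectionVars false
set_option linter.unusedVariables false
set_option maxHeartbeats 800000

noncomputable section

open IsLocalRing CongruenceSubgroup
open Fermat.Agent.Galois (GQ)
open Fermat.Agent.GalRep (GoodIndex GoodPrime transferHom cyc goodIndex)
open Fermat.Agent.Raise (GHom)
open scoped IsMulCommutative Pointwise

namespace Fermat.Agent.R59.Raised

variable {p : ℕ} [Fact p.Prime] {O : Type} [CommRing O] [IsDomain O] [IsDiscreteValuationRing O]
  [IsAdicComplete (maximalIdeal O) O] [Finite (ResidueField O)]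
  [Algebra ℤ_[p] O] [Module.Finite ℤ_[p] O] [CharZero O]
  {ρbar : ResidualGaloisRep (ResidueField O)} {N : ℕ} [NeZero N] {U aux S : Finset ℕ} {a : ℕ → O}

omit [IsDomain O] [IsDiscreteValuationRing O] [IsAdicComplete (maximalIdeal O) O]
  [Finite (ResidueField O)] [CharZero O] in
/-- The lattice Hecke operators on classes with coefficients are the transfers. -/
theorem extC_latHecke [Module.Free ℤ_[p] O] (ℓ : GoodPrime N) (z : ParC N O) :
    ((extC O (GalRep.latHecke N p ℓ) z : ParC N O) : GHom (Gamma0 N) O) =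
      transferHom (goodIndex ℓ) (z : GHom (Gamma0 N) O) := by
  have h : extC O (GalRep.latHecke N p ℓ) z =
      ⟨transferHom (goodIndex ℓ) (z : GHom (Gamma0 N) O),
        GalRep.transferHom_mem (goodIndex ℓ) (⟨z.1, z.2⟩ : GalRep.ParHom N O)⟩ :=
    coordC_ext fun (Λ : O →ₗ[ℤ_[p]] ℤ_[p]) => by
      rw [coordC_extC]
      exact Subtype.ext (GalRep.transferHom_comp (goodIndex ℓ) Λ.toAddMonoidHom _)
  rw [h]

/-- A matrix representation conjugate to a residually nondegenerate one is nondegenerate. -/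
theorem traceNondeg_of_conj {k : Type} [Field k] {r r' : GQ →* Deform.Mat2 k}
    (h : Deform.TraceNondeg r') (V : (Deform.Mat2 k)ˣ) (hV : ∀ g, r g * V = V * r' g) :
    Deform.TraceNondeg r := by
  intro T hT
  have h1 : (↑V⁻¹ : Deform.Mat2 k) * T * V = 0 := h _ fun g => by
    have e : (↑V⁻¹ : Deform.Mat2 k) * T * V * r' g = ↑V⁻¹ * (T * r g) * V := by
      rw [mul_assoc _ (V : Deform.Mat2 k) (r' g), ← hV g]
      simp only [mul_assoc]
    rw [e, Matrix.trace_units_conj']
    exact hT g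
  calc T = (V : Deform.Mat2 k) * (↑V⁻¹ * T * V) * ↑V⁻¹ := by
        simp [mul_assoc]
    _ = 0 := by rw [h1, mul_zero, zero_mul]

/-- Two matrices of one representation are conjugate. -/
theorem exists_conj_of_hasMatrix {R : Type} [CommRing R] [IsLocalRing R] {ρ : GaloisRepAdic R}
    {r r' : GQ →* Deform.Mat2 R} (h : Deform.HasMatrix ρ r) (h' : Deform.HasMatrix ρ r') :
    ∃ V : (Deform.Mat2 R)ˣ, ∀ σ, r σ * V = V * r' σ := by
  obtain ⟨b, hb⟩ := h
  obtain ⟨b', hb'⟩ := h'
  refine ⟨⟨b.toMatrix b', b'.toMatrix b, b.toMatrix_mul_toMatrix_flip b',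
    b'.toMatrix_mul_toMatrix_flip b⟩, fun σ => ?_⟩
  show r σ * b.toMatrix b' = b.toMatrix b' * r' σ
  rw [← hb σ, ← hb' σ, linearMap_toMatrix_mul_basis_toMatrix,
    basis_toMatrix_mul_linearMap_toMatrix]

/-- A conjugate of an inertia element is one at the conjugate place. -/
theorem conj_inertia_smul {A : ValuationSubring (AlgebraicClosure ℚ)} (hA : A.LiesOverPrime p)
    {h s : GQ} (hs : s ∈ (h • A).inertiaSubgroupIn ℚ) : h⁻¹ * s * h ∈ A.inertiaSubgroupIn ℚ := by
  have hP := GD.liesOverPrime_smul hA h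
  obtain ⟨φ, hφ⟩ := Galois.exists_isFrobeniusAt (Fact.out : p.Prime) hP
  have hφs : (h • A).IsFrobeniusAt (φ * s) p := by
    obtain ⟨hd, hfr⟩ := hφ
    obtain ⟨⟨s', hs'⟩, hker, rfl⟩ := hs
    refine ⟨mul_mem hd hs', fun x => ?_⟩
    have e : (⟨φ * s', mul_mem hd hs'⟩ : (h • A).decompositionSubgroup ℚ) =
        ⟨φ, hd⟩ * ⟨s', hs'⟩ := rfl
    refine (congrArg (· • x) e).trans ?_
    rw [mul_smul]
    refine Eq.trans (congrArg _ ?_) (hfr x)
    exact RingEquiv.congr_fun (MonoidHom.mem_ker.mp hker) x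
  have h1 := GD.frobeniusAt_conj hφ h⁻¹
  have h2 := GD.frobeniusAt_conj hφs h⁻¹
  rw [inv_smul_smul, inv_inv] at h1 h2
  have h3 := MCurve.Spec.frobenius_inv_mul_mem h2 h1
  convert h3 using 1
  group

/-- The unit root is the unit root of the Hecke polynomial at `p`. -/
theorem exists_unit_root (H : Seed p O ρbar N U aux S a false)
    (hord : (GaloisRepAdic.ofResidualGaloisRep ρbar).IsOrdinaryAt p)
    (X₀ : Sys p O ρbar N S) (hlat : X₀.IsLattice a) (hcond : X₀.X.Cond U U false)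
    (g : X₀.X.R →ₐ[O] O) :
    ∃ α : O, IsUnit α ∧ X₀.X.HasUnitRoot g α ∧
      ∀ (hg : GoodIndex N p) (z : GHom (Gamma0 N) O), z ∈ locG O S a N →
        (∀ (i : OffS S) (A : ValuationSubring (AlgebraicClosure ℚ)), A.LiesOverPrime (i.1 : ℕ) →
          ∀ τ : GQ, A.IsFrobeniusAt τ (i.1 : ℕ) →
            opL O N S i z = g (X₀.X.ρ.trace τ) • z) →
        α • transferHom hg z = (α ^ 2 + (p : O)) • z := by
  have hp : p.Prime := Fact.out
  have hp2 := H.p_ne_two
  have hpm := H.p_mem_maximal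
  haveI : NeZero p := ⟨hp.ne_zero⟩
  haveI : NeZero (p * N) := ⟨mul_ne_zero hp.ne_zero (NeZero.ne N)⟩
  haveI : Module.IsTorsionFree ℤ_[p] O := Module.isTorsionFree_iff_algebraMap_injective.mpr (by
    refine (injective_iff_map_eq_zero _).mpr fun x hx => ?_
    by_contra hx0
    have hu := (PadicInt.unitCoeff_spec hx0)
    rw [hu, map_mul, map_pow, map_natCast] at hx
    rcases mul_eq_zero.mp hx with h | h
    · exact ((PadicInt.unitCoeff hx0).isUnit.map (algebraMap ℤ_[p] O)).ne_zero h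
    · exact hp.ne_zero (Nat.cast_eq_zero.mp (pow_eq_zero_iff'.mp h).1))
  haveI : Module.Free ℤ_[p] O := Module.free_of_finite_type_torsion_free'
  haveI : CharP (ResidueField O) p := (CharP.charP_iff_prime_eq_zero hp).mpr (by
    rw [← map_natCast (residue O), residue_eq_zero_iff]; exact hpm)
  have hpN : ¬ p ∣ N := fun h => Bool.false_ne_true (H.p_dvd_iff.mp h)
  have hred := GalRep.Model.kummerReduction N
  have hred' := GalRep.Model.kummerReduction (p * N)
  -- the representation at the point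
  let φ : X₀.X.R →+* O := g.toRingHom
  have hgs : Function.Surjective φ := fun o => ⟨algebraMap O X₀.X.R o, g.commutes o⟩
  have hφ : IsLocalHom φ := IsLocalHom.of_surjective _ hgs
  set ρ := X₀.X.ρ.baseChangeAlong φ hφ
  have hdetρ : ρ.DetIsCyclotomic p :=
    Fermat.Agent.TW56.detIsCyclotomic_baseChange hφ X₀.X.det_cyclotomic
  have he : ρ.residual.IsEquiv (ρbar.baseChangeAlong (RingHom.id (ResidueField O))) :=
    Levels.residual_baseChangeAlong X₀.X.ρ (ResidueField.map (algebraMap O X₀.X.R)) φ hφ _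
      (fun x => by
        obtain ⟨y, rfl⟩ := residue_surjective x
        haveI := hφ
        rw [RingHom.id_apply, ResidueField.map_residue, ResidueField.map_residue]
        exact congrArg _ (g.commutes y).symm) X₀.X.residual
  obtain ⟨θ, hθ⟩ := X₀.occurs g
  obtain ⟨rR, hrR⟩ := Deform.exists_hasMatrix X₀.X.ρ
  have hrg := hrR.baseChangeAlong φ hφ
  have hdet : ∀ σ, LinearMap.det (ρ.ρ σ) = algebraMap ℤ_[p] O (cyc p σ : ℤ_[p]) := fun σ => by
    rw [det_eq_cyc (O := O) hdetρ σ, Algebra.algebraMap_self, RingHom.id_apply]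
  have hchar : ∀ (ℓ : ℕ) (hℓ : ℓ.Prime) (hℓN : ¬ ℓ ∣ N) (hℓS : ℓ ∉ (↑S : Set ℕ)),
      ∀ A : ValuationSubring (AlgebraicClosure ℚ), A.LiesOverPrime ℓ →
        ∀ σ : GQ, A.IsFrobeniusAt σ ℓ → LinearMap.charpoly (ρ.ρ σ) =
          Polynomial.X ^ 2 - Polynomial.C (θ (CuspForm.heckeAlgebra.T hℓ hℓN hℓS)) * Polynomial.X +
            Polynomial.C ((ℓ : O)) := by
    intro ℓ hℓ hℓN hℓS A hA σ hσ
    have hℓp : ℓ ≠ p := fun h => hℓS (by rw [h]; exact H.p_mem)
    obtain ⟨hd, hc⟩ := trace_det_of_hasMatrix hrg σ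
    rw [← hc, Matrix.charpoly_fin_two, hd, hdet, GalRep.cyc_frobenius p hℓ hℓp hA hσ, map_natCast,
      ← hrg.trace_eq, Levels.trace_baseChangeAlong, hθ ℓ hℓ hℓN hℓS A hA σ hσ]
    rfl
  obtain ⟨ψ, hψ, hψc⟩ := GalRep.exists_extension (D := GalRep.Ordinary.latDatum (p := p) hred)
    (S := (↑S : Set ℕ)) hpm (fun x hx => GalRep.Ordinary.eq_zero_of_forall_mem_pow hx) θ
  obtain ⟨π, hπ, hπu, hπd⟩ := exists_closureHom hred hred' hpN S
  -- ordinarity at the point
  have htr : ∀ {r : GQ →* Deform.Mat2 O}, Deform.HasMatrix ρ r → ∀ σ, (r σ).trace =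
      ψ ⟨GalRep.uTrace (GalRep.Ordinary.latDatum hred) σ,
        GalRep.uTrace_mem (GalRep.Ordinary.latDatum hred) GalRep.frobeniusPowDensity S σ⟩ :=
    fun hr σ => GalRep.trace_eq_uTrace _ S GalRep.frobeniusPowDensity θ ψ hψ hψc ρ hchar hr σ
  have htr' : ∀ {r : GQ →* Deform.Mat2 O}, Deform.HasMatrix ρ r → ∀ σ, (r σ).trace =
      ψ.comp π ⟨GalRep.uTrace (GalRep.Ordinary.latDatum hred') σ,
        GalRep.uTrace_mem (GalRep.Ordinary.latDatum hred') GalRep.frobeniusPowDensity S σ⟩ :=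
    fun hr σ => by rw [AlgHom.comp_apply, hπu]; exact htr hr σ
  obtain ⟨r₀bar, h₀bar⟩ := Deform.exists_rhasMatrix ρbar
  have hnd : ∀ {r : GQ →* Deform.Mat2 O}, Deform.HasMatrix ρ r →
      Deform.TraceNondeg ((Deform.mapHom (residue O)).comp r) := fun {r} hr => by
    obtain ⟨e⟩ := he
    obtain ⟨V, hV⟩ := Deform.RHasMatrix.exists_conj (hr.residual.of_equiv ⟨e⟩)
      (h₀bar.baseChangeAlong (RingHom.id (ResidueField O)))
    refine traceNondeg_of_conj ?_ V hV
    rw [show (Deform.mapHom (RingHom.id (ResidueField O))).comp r₀bar = r₀bar from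
      MonoidHom.ext fun σ => Matrix.map_id _]
    exact h₀bar.traceNondeg H.absIrr
  have hresord : ∀ {r : GQ →* Deform.Mat2 O}, Deform.HasMatrix ρ r →
      ∀ P : ValuationSubring (AlgebraicClosure ℚ), P.LiesOverPrime p →
        GalRep.Ordinary.IsResOrd p r P := fun {r} hr P hP => by
    refine GalRep.Ordinary.isResOrd_of_residual hr (fun σ => ?_)
      (Levels.isOrdinaryAt_ofResidual _ he hord) hP
    rw [(trace_det_of_hasMatrix hr σ).1, hdet, ← sub_eq_zero, ← map_sub, residue_eq_zero_iff,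
      ← map_natCast (algebraMap ℤ_[p] O), ← map_sub]
    have hk : (cyc p σ : ℤ_[p]) - ((PadicInt.toZMod (cyc p σ : ℤ_[p])).val : ℤ_[p]) ∈
        RingHom.ker (PadicInt.toZMod (p := p)) := by
      rw [RingHom.mem_ker, map_sub, map_natCast, ZMod.natCast_zmod_val, sub_self]
    rw [PadicInt.ker_toZMod, PadicInt.maximalIdeal_eq_span_p, Ideal.mem_span_singleton] at hk
    obtain ⟨c, hc⟩ := hk
    rw [hc, map_mul, map_natCast]
    exact Ideal.mul_mem_right _ _ hpm
  have hordρ : ρ.IsOrdinaryAt p :=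
    GalRep.Ordinary.isOrdinaryAt_of_noOrdInKer hp2 hpN (GalRep.Ordinary.noOrdInKer hp2 hpN) hred'
      (ψ.comp π) (fun k => by
        obtain ⟨n, hn⟩ := hψc k
        exact ⟨n, fun c hc => hn (π c) (hπd n c hc)⟩)
      hrg (hnd hrg) (htr' hrg) (hresord hrg)
  obtain ⟨A, hA⟩ := Galois.exists_liesOverPrime hp
  obtain ⟨r, hr, hOA⟩ := Phi.exists_ordAt hordρ hdetρ hA
  obtain ⟨φA, hφA⟩ := Galois.exists_isFrobeniusAt hp hA
  have hdr : ∀ σ, (r σ).det = cO p O σ := fun σ => (trace_det_of_hasMatrix hr σ).1.trans (hdet σ)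
  refine ⟨r φA 1 1, ?_, ?_, ?_⟩
  · have h1 := hdr φA
    rw [Matrix.det_fin_two, hOA.low φA hφA.1, mul_zero, sub_zero] at h1
    refine isUnit_of_mul_isUnit_right (x := r φA 0 0) ?_
    rw [h1]
    exact (Units.isUnit (cyc p φA)).map (algebraMap ℤ_[p] O)
  · -- one root at all places
    intro P hP
    obtain ⟨h, rfl⟩ := Galois.exists_smul_eq_of_liesOverPrime hp hA hP
    obtain ⟨V₀, hV₀⟩ := exists_conj_of_hasMatrix hrg hr
    set V := V₀ * (r.toHomUnits h) with hV
    set VR : (Deform.Mat2 X₀.X.R)ˣ := Units.map (Deform.mapHom (algebraMap O X₀.X.R)) V with hVR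
    let r' : GQ →* Deform.Mat2 X₀.X.R :=
      { toFun := fun σ => (↑VR⁻¹ : Deform.Mat2 X₀.X.R) * rR σ * VR
        map_one' := by simp
        map_mul' := fun a b => by simp [mul_assoc] }
    have hr'1 : ∀ σ, rR σ * VR = VR * r' σ := fun σ => by simp [r', mul_assoc]
    have hr'2 : ∀ σ, r' σ = (↑VR⁻¹ : Deform.Mat2 X₀.X.R) * rR σ * VR := fun σ => rfl
    have hback : ∀ M : Deform.Mat2 O,
        Deform.mapHom φ (Deform.mapHom (algebraMap O X₀.X.R) M) = M := fun M =>
      Matrix.ext fun i j => g.commutes (M i j)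
    have key : ∀ σ, Deform.mapHom φ (r' σ) = r (h⁻¹ * σ * h) := by
      intro σ
      rw [hr'2, map_mul, map_mul, hVR, ← map_inv, Units.coe_map, Units.coe_map, hback, hback]
      have e := hV₀ σ
      rw [hV, mul_inv_rev, Units.val_mul, Units.val_mul, ← map_inv,
        MonoidHom.coe_toHomUnits, MonoidHom.coe_toHomUnits]
      change r h⁻¹ * (↑V₀⁻¹ : Deform.Mat2 O) * ((Deform.mapHom φ).comp rR σ) * (↑V₀ * r h) = _
      rw [show r h⁻¹ * (↑V₀⁻¹ : Deform.Mat2 O) * ((Deform.mapHom φ).comp rR σ) * (↑V₀ * r h) =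
        r h⁻¹ * ((↑V₀⁻¹ : Deform.Mat2 O) * (((Deform.mapHom φ).comp rR σ) * ↑V₀)) * r h by
          simp only [mul_assoc], e, Units.inv_mul_cancel_left, ← map_mul, ← map_mul]
    refine ⟨r', hrR.conj VR hr'1, fun σ hσ => ?_, fun σ hσ => ?_, fun σ hσ => ?_⟩
    · show Deform.mapHom φ (r' σ) 1 0 = 0
      rw [key]
      exact hOA.low _ (GD.decomposition_smul hσ)
    · show Deform.mapHom φ (r' σ) 1 1 = 1
      rw [key]
      exact hOA.unram _ (conj_inertia_smul hA hσ)
    · show Deform.mapHom φ (r' σ) 1 1 = _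
      rw [key]
      have h1 := GD.frobeniusAt_conj hσ h⁻¹
      rw [inv_smul_smul, inv_inv] at h1
      have h2 := MCurve.Spec.frobenius_inv_mul_mem h1 hφA
      rw [show h⁻¹ * σ * h = φA * (φA⁻¹ * (h⁻¹ * σ * h)) by group, map_mul, Matrix.mul_apply,
        Fin.sum_univ_two, hOA.low φA hφA.1, hOA.unram _ h2, zero_mul, zero_add, mul_one]
  -- the relation
  intro hg z hz heig
  have hSupp : Supp S N := H.level_mem
  have hne : Auto.NonEis S a := Auto.nonEis_of_absIrr hpm H.absIrr fun l hl hlS =>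
    H.charpoly_frob l hl (fun h => hlS (h ▸ H.p_mem)) fun hU => hlS (H.level_mem l hl
      ((H.dvd_iff l hl (H.mem_U l hU).2.1).mpr (Or.inl hU)))
  have hpar : z ∈ GalRep.ParHom N O := by
    let φ' : GHom (Gamma0 N) O →ₗ[O] (Additive (Auto.grp N (1 : (ZMod N)ˣ →* Unit)) →+ O) :=
      { toFun := Levels.ofG, map_add' := fun _ _ => rfl, map_smul' := fun _ _ => rfl }
    let e : Auto.PrimeOff N S → OffS S := fun i => ⟨i.1.1, i.2⟩
    have hz' : z ∈ Auto.locPart (fun i => opL O N S (e i)) (fun i => a ((e i).1 : ℕ)) :=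
      fun i => hz (e i)
    have h := Auto.map_mem_locPart (T' := Auto.hT' N (1 : (ZMod N)ˣ →* Unit) O S) φ'
      (fun i y => Levels.toG_injective (by
        rw [opL_apply (e i) (hSupp.good (e i)), Auto.hT', Levels.toG_homT]
        rfl)) hz'
    intro γ hγ
    exact Levels.homLoc_le_parabolic hp2 hpm hSupp hne h
      ⟨(γ : Matrix.SpecialLinearGroup (Fin 2) ℤ), Levels.gamma0_le_grp_one γ.2⟩ hγ
  let zC : ParC N O := ⟨z, hpar⟩
  have hEig : IsEig hred ψ zC := by
    rintro ⟨c, hc⟩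
    induction hc using Algebra.adjoin_induction with
    | mem x hx =>
      obtain ⟨i, rfl⟩ := hx
      let j : OffS S := ⟨i.1.1, i.2⟩
      obtain ⟨B, hB⟩ := Galois.exists_liesOverPrime j.1.2
      obtain ⟨τ, hτ⟩ := Galois.exists_isFrobeniusAt j.1.2 hB
      refine Eq.trans (b := θ (CuspForm.heckeAlgebra.T i.1.1.2 i.1.2 i.2) • zC) ?_
        (congrArg (· • zC) (hψ i).symm)
      rw [hθ _ i.1.1.2 i.1.2 i.2 B hB τ hτ]
      refine Subtype.ext ?_
      show ((extC O (GalRep.latHeckePoly N p (MvPolynomial.X i.1)) zC : ParC N O) :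
        GHom (Gamma0 N) O) = _
      rw [latHeckePoly_gen, extC_latHecke]
      exact (opL_apply j (goodIndex i.1) z).symm.trans (heig j B hB τ hτ)
    | algebraMap t =>
      show extC O (algebraMap ℤ_[p] (Module.End ℤ_[p] (GalRep.Lat N p)) t) zC = _
      rw [extC_algebraMap]
      exact congrArg (· • zC) (ψ.commutes t).symm
    | add x y hx hy ihx ihy =>
      show actC O hred (⟨x, hx⟩ + ⟨y, hy⟩) zC = ψ (⟨x, hx⟩ + ⟨y, hy⟩) • zC
      rw [map_add, add_smul, ← ihx, ← ihy]
      exact congrArg (· zC) (map_add (extC O (N := N)) x y)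
    | mul x y hx hy ihx ihy =>
      show actC O hred (⟨x, hx⟩ * ⟨y, hy⟩) zC = ψ (⟨x, hx⟩ * ⟨y, hy⟩) • zC
      rw [map_mul ψ, mul_comm (ψ ⟨x, hx⟩), mul_smul, ← ihx, ← map_smul, ← ihy]
      exact congrArg (· zC) (map_mul (extC O (N := N)) x y) |>.trans rfl
  obtain ⟨σ, hσ, hω⟩ := GalRep.Ordinary.exists_inertia_cyc_ne_one hp2 hA
  have hc : IsUnit (1 - cO p O σ) := by
    rw [cO, ← map_one (algebraMap ℤ_[p] O), ← map_sub]
    refine IsUnit.map _ (notMem_maximalIdeal.mp fun hm => hω ?_)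
    rw [← PadicInt.ker_toZMod, RingHom.mem_ker, map_sub, map_one, sub_eq_zero] at hm
    exact hm.symm
  set α := r φA 1 1
  have htrN := htr hr
  let Op : ParC N O → ParC N O := fun x =>
    α • heckeC O hpN x - (α ^ 2 + (p : O)) • x
  have hOpG : ∀ τ x, galC (p := p) O τ (Op x) = Op (galC (p := p) O τ x) := fun τ x => by
    simp only [Op, map_sub, map_smul, galC_heckeC]
  have hOpE : ∀ x, IsEig hred ψ x → IsEig hred ψ (Op x) := fun x hx =>
    ((hx.hecke hpN).smul α).sub (hx.smul _)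
  have hfixed : ∀ x, IsEig hred ψ x → galC (p := p) O σ x = x → Op x = 0 := fun x hx hfix =>
    eq_zero_of_powK hred hred' hpN hπ (htr' hr) hA (hnd hr) (hresord hr A hA) hp2 hσ hω
      (hOpE x hx) (by rw [hOpG, hfix])
      (fun k => powK_defect htrN hpN hA hOA.low hOA.unram hdr hσ hc hφA hx hfix k)
  have hmov : ∀ x, IsEig hred ψ x →
      galC (p := p) O σ (Op x) = cO p O σ • Op x := fun x hx => by
    have h1 := hfixed _ ((hx.galois σ).sub (hx.smul (cO p O σ)))
      (hx.fixed htrN hA hOA.low hOA.unram hdr hσ)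
    rw [hOpG, ← sub_eq_zero, ← h1]
    simp only [Op, map_sub, map_smul]
    module
  have h0 : Op zC = 0 :=
    eq_zero_of_moved hred hred' hpN hπ (htr' hr) hA (hnd hr) (hresord hr A hA) hp2 hσ hω
      (hOpE zC hEig) fun τ => by rw [hOpG τ zC]; exact hmov _ (hEig.galois τ)
  have h1 := congrArg (fun x : ParC N O => (x : GHom (Gamma0 N) O)) h0
  simp only [Op, heckeC] at h1
  rw [Submodule.coe_sub, Submodule.coe_smul, Submodule.coe_smul, extC_latHecke,
    ZeroMemClass.coe_zero, sub_eq_zero] at h1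
  exact h1

end Fermat.Agent.R59.Raised
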