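/-
S59, unit C2d: `T_p` is injective modulo the maximal ideal on the residual part of a level prime to
`p` when the residual representation is ordinary at `p`.

Justification: a simultaneous eigen class of the residual system in the kernel gives, through a
functional of the residue field, a class modulo `p` killed like the residual representation and by
`T_p`; such classes vanish (`eq_zero_of_heckeHom_eq_zero`).
-/
import Fermat.Agent.R59.Defs
import Fermat.Agent.R59.Raised.Loc
import Fermat.Agent.R59.Raised.Bridge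
import Fermat.Agent.R59.Raised.PCore
import Fermat.Agent.R59.Raised.PRoot.Vanish
import Fermat.Agent.R59.Levels.Transfer
import Fermat.Agent.R59.Raised.PRoot
import Fermat.Agent.R59.Glue.Local
import Fermat.Agent.GalRep.Model.Reduction

set_option autoImplicit false
set_option linter.unusedSectionVars false
set_option linter.style.haveILetI false

noncomputable section

open IsLocalRing CongruenceSubgroup
open Fermat.Agent.Galois (GQ)
open Fermat.Agent.GalRep (GoodIndex GoodPrime transferHom ParHom heckeHom cyc goodIndex KummerReduction)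
open Fermat.Agent.Raise (GHom)
open Fermat.Agent.R59.Raise (opSub)
open scoped IsMulCommutative

set_option linter.unusedVariables false

namespace Fermat.Agent.R59.Raised

/-- A common zero of commuting locally nilpotent endomorphisms of a finite module. -/
theorem exists_common_zero_of_nilpotent {R V ι : Type} [CommRing R] [AddCommGroup V] [Module R V]
    [Finite V] (f : ι → Module.End R V) (hcomm : ∀ i j, Commute (f i) (f j))
    (hnil : ∀ i v, ∃ j : ℕ, (f i ^ j) v = 0) {v₀ : V} (h₀ : v₀ ≠ 0) :
    ∃ v, v ≠ 0 ∧ ∀ i, f i v = 0 := by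
  classical
  let P : Set (Submodule R V) := {W | W ≠ ⊥ ∧ ∀ i, W.map (f i) ≤ W}
  haveI : Finite (Submodule R V) := Finite.of_injective _ SetLike.coe_injective
  obtain ⟨W, ⟨hW0, hWs⟩, hmin⟩ := (Set.toFinite P).exists_minimal
    ⟨⊤, fun h => h₀ ((Submodule.mem_bot R).mp (h ▸ Submodule.mem_top)), fun i => le_top⟩
  obtain ⟨v, hv, hv0⟩ := Submodule.exists_mem_ne_zero_of_ne_bot hW0
  refine ⟨v, hv0, fun i => ?_⟩
  by_contra hne
  have hP : W.map (f i) ∈ P := by
    refine ⟨fun h => hne ((Submodule.mem_bot R).mp (h ▸ Submodule.mem_map_of_mem hv)), fun l => ?_⟩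
    rw [← Submodule.map_comp, ← Module.End.mul_eq_comp, (hcomm l i).eq, Module.End.mul_eq_comp,
      Submodule.map_comp]
    exact Submodule.map_mono (hWs l)
  have heq : W ≤ W.map (f i) := hmin hP (hWs i)
  -- iterates of `f i` are onto `W`
  have hpow : ∀ j, W ≤ W.map (f i ^ j) := by
    intro j
    induction j with
    | zero => rw [pow_zero, Module.End.one_eq_id, Submodule.map_id]
    | succ j ih =>
      refine heq.trans ((Submodule.map_mono ih).trans ?_)
      rw [← Submodule.map_comp, ← Module.End.mul_eq_comp, pow_succ']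
  choose j hj using hnil i
  haveI := Fintype.ofFinite V
  obtain ⟨u, -, hu⟩ := Submodule.mem_map.mp (hpow (Finset.univ.sup j) hv)
  refine hv0 ?_
  obtain ⟨c, hc⟩ := Nat.exists_eq_add_of_le (Finset.le_sup (f := j) (Finset.mem_univ u))
  rw [← hu, hc, add_comm, pow_add, Module.End.mul_apply, hj, map_zero]

/-- A change of coefficients along a field isomorphism keeps the traces nondegenerate. -/
theorem traceNondeg_of_surjective {k k' : Type} [Field k] [Field k'] (f : k →+* k')
    (hf : Function.Surjective f) {r : GQ →* Deform.Mat2 k} (h : Deform.TraceNondeg r) :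
    Deform.TraceNondeg ((Deform.mapHom f).comp r) := by
  intro M hM
  obtain ⟨M₀, rfl⟩ : ∃ M₀ : Deform.Mat2 k, M₀.map f = M :=
    ⟨fun i j => (hf (M i j)).choose, Matrix.ext fun i j => (hf (M i j)).choose_spec⟩
  rw [h M₀ fun σ => f.injective ?_, Matrix.map_zero _ (map_zero f)]
  rw [map_zero]
  refine Eq.trans ?_ (hM σ)
  show f (M₀ * r σ).trace = (M₀.map f * (r σ).map f).trace
  rw [← Matrix.map_mul]
  exact AddMonoidHom.map_trace f.toAddMonoidHom _

variable {p : ℕ} [Fact p.Prime] {O : Type} [CommRing O] [IsDomain O] [IsDiscreteValuationRing O]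
  [IsAdicComplete (maximalIdeal O) O] [Finite (ResidueField O)]
  [Algebra ℤ_[p] O] [Module.Finite ℤ_[p] O] [CharZero O]
  {ρbar : ResidualGaloisRep (ResidueField O)} {N : ℕ} [NeZero N] {U aux S : Finset ℕ} {a : ℕ → O}

/-- `T_p` is injective modulo the maximal ideal on the residual part. -/
theorem tP_injective_mod (H : Seed p O ρbar N U aux S a false)
    (hord : (GaloisRepAdic.ofResidualGaloisRep ρbar).IsOrdinaryAt p)
    (X₀ : Sys p O ρbar N S) (hlat : X₀.IsLattice a) (hcond : X₀.X.Cond U U false)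
    (hg : GoodIndex N p) (z : GHom (Gamma0 N) O) (hz : z ∈ locG O S a N)
    (h : redH N (transferHom hg z) = 0) : redH N z = 0 := by
  classical
  by_contra hne
  have hp : p.Prime := Fact.out
  have hp2 := H.p_ne_two
  have hpm := H.p_mem_maximal
  have hS : Supp S N := H.level_mem
  have R := resHyp_of_seed H
  haveI : NeZero p := ⟨hp.ne_zero⟩
  set k := ResidueField O
  haveI : CharP k p := (CharP.charP_iff_prime_eq_zero hp).mpr (by
    rw [← map_natCast (residue O), residue_eq_zero_iff]; exact hpm)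
  haveI : Module.IsTorsionFree ℤ_[p] O := Module.isTorsionFree_iff_algebraMap_injective.mpr (by
    refine (injective_iff_map_eq_zero _).mpr fun x hx => ?_
    by_contra hx0
    have hu := (PadicInt.unitCoeff_spec hx0)
    rw [hu, map_mul, map_pow, map_natCast] at hx
    rcases mul_eq_zero.mp hx with h | h
    · exact ((PadicInt.unitCoeff hx0).isUnit.map (algebraMap ℤ_[p] O)).ne_zero h
    · exact hp.ne_zero (Nat.cast_eq_zero.mp (pow_eq_zero_iff'.mp h).1))
  haveI : Module.Free ℤ_[p] O := Module.free_of_finite_type_torsion_free'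
  -- the socle of the kernel of `T_p`
  haveI : Module.Finite k (GHom (Gamma0 N) k) := Fermat.Agent.Raise.ghom_finite N k k
  haveI : Finite (GHom (Gamma0 N) k) := Module.finite_of_finite k
  let Tk : Module.End O (GHom (Gamma0 N) k) :=
    { toFun := transferHom hg
      map_add' := GalRep.transferHom_add hg
      map_smul' := fun r x => R59.Raise.transferHom_smul hg r x }
  let fk : OffS S → Module.End O (GHom (Gamma0 N) k) := fun i =>
    { toFun := opSub (hS.good i) (a (i.1 : ℕ))
      map_add' := fun x y => by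
        show transferHom _ (x + y) - _ • (x + y) = _
        rw [GalRep.transferHom_add, smul_add]; exact add_sub_add_comm _ _ _ _
      map_smul' := fun r x => by
        show transferHom _ (r • x) - _ • (r • x) = r • (transferHom _ x - _ • x)
        rw [R59.Raise.transferHom_smul, smul_sub, smul_comm] }
  let V : Submodule O (GHom (Gamma0 N) k) := (locG O S a N).map (redH N) ⊓ LinearMap.ker Tk
  have hfV : ∀ i, ∀ x ∈ V, fk i x ∈ V := fun i x hx => by
    obtain ⟨⟨w, hw, rfl⟩, hx2⟩ := Submodule.mem_inf.mp hx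
    refine Submodule.mem_inf.mpr ⟨⟨opL O N S i w - a (i.1 : ℕ) • w,
      sub_mem (map_mem_locG _ (fun j y => (LinearMap.congr_fun (opL_commute N S i j).eq y)) hw)
        (Submodule.smul_mem _ _ hw), ?_⟩, ?_⟩
    · rw [map_sub, map_smul, opL_apply i (hS.good i), redH_transfer]
      rfl
    · rw [LinearMap.mem_ker] at hx2 ⊢
      show transferHom hg (transferHom _ (redH N w) - _ • redH N w) = 0
      rw [R59.Raise.transferHom_sub, R59.Raise.transferHom_smul, GalRep.transferHom_comm,
        show transferHom hg (redH N w) = 0 from hx2, R59.Raise.transferHom_zero, smul_zero, sub_zero]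
  have hv₀ : redH N z ∈ V :=
    Submodule.mem_inf.mpr ⟨⟨z, hz, rfl⟩, LinearMap.mem_ker.mpr ((redH_transfer hg z).symm.trans h)⟩
  haveI : Finite V := Subtype.finite
  let fV : OffS S → Module.End O V := fun i => (fk i).restrict (hfV i)
  obtain ⟨⟨ξ, hξV⟩, hξ0, hξ⟩ := exists_common_zero_of_nilpotent fV (fun i j => by
      refine LinearMap.ext fun x => Subtype.ext ?_
      show opSub (hS.good i) (a _) (opSub (hS.good j) (a _) x.1) =
        opSub (hS.good j) (a _) (opSub (hS.good i) (a _) x.1)
      simp only [opSub, R59.Raise.transferHom_sub, R59.Raise.transferHom_smul, smul_sub]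
      rw [GalRep.transferHom_comm (hS.good i) (hS.good j), smul_comm]
      abel)
    (fun i x => by
      obtain ⟨⟨w, hw, hwx⟩, -⟩ := Submodule.mem_inf.mp x.2
      obtain ⟨j, hj⟩ := exists_nil_redH i (hS.good i) hw
      refine ⟨j, Subtype.ext ?_⟩
      rw [Module.End.pow_restrict j, LinearMap.restrict_apply]
      show (fk i ^ j) x.1 = 0
      rw [Module.End.pow_apply, ← hwx]
      exact hj)
    (v₀ := ⟨redH N z, hv₀⟩) fun h0 => hne (congrArg Subtype.val h0)
  have hξ0' : ξ ≠ 0 := fun h0 => hξ0 (Subtype.ext h0)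
  obtain ⟨⟨z', hz', rfl⟩, hTξ⟩ := Submodule.mem_inf.mp hξV
  have heig : ∀ i : OffS S, redH N (opL O N S i z') = a (i.1 : ℕ) • redH N z' := fun i => by
    rw [opL_apply i (hS.good i), redH_transfer, ← sub_eq_zero]
    exact congrArg Subtype.val (hξ i)
  -- the residual system
  have hred := GalRep.Model.kummerReduction N
  haveI : Finite (ResidueField k) := Finite.of_surjective (residue k) residue_surjective
  haveI : CharP (ResidueField k) p := charP_of_injective_ringHom (residue k).injective p
  obtain ⟨χ, hχ⟩ := H.point S subset_rfl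
  have hbot : ∀ x ∈ maximalIdeal k, x = 0 := fun x hx => by_contra fun h0 => hx (isUnit_iff_ne_zero.mpr h0)
  obtain ⟨ψ, hψ, hψc⟩ := GalRep.exists_extension (D := GalRep.Ordinary.latDatum (p := p) hred)
    (S := (↑S : Set ℕ)) (I := maximalIdeal k)
    (by rw [CharP.cast_eq_zero]; exact zero_mem _)
    (fun x hx => hbot x (by simpa only [pow_one] using hx 1)) ((residue O).comp χ)
  let ρ := GaloisRepAdic.ofResidualGaloisRep ρbar
  obtain ⟨r, hr₀⟩ := Deform.exists_rhasMatrix ρbar
  have hr : Deform.HasMatrix ρ r := hr₀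
  have htr := GalRep.trace_eq_uTrace (GalRep.Ordinary.latDatum (p := p) hred) S
    GalRep.frobeniusPowDensity ((residue O).comp χ) ψ hψ hψc ρ
    (fun ℓ hℓ hℓN hℓS A hA σ hσ => by
      rw [RingHom.comp_apply, hχ ℓ hℓ hℓN hℓS]
      exact frob_of_seed H ℓ hℓ (fun h => hℓS h) A hA σ hσ) hr
  have hnd := traceNondeg_of_surjective (residue k) residue_surjective (hr₀.traceNondeg H.absIrr)
  obtain ⟨A, hA⟩ := Galois.exists_liesOverPrime hp
  have hresord : GalRep.Ordinary.IsResOrd p r A := by
    refine GalRep.Ordinary.isResOrd_of_residual hr (fun σ => ?_) ?_ hA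
    · obtain ⟨hd, -⟩ := trace_det_of_hasMatrix hr σ
      rw [hd, det_eq_cyc (O := k) H.det_cyclotomic σ, Algebra.algebraMap_self, RingHom.id_apply]
      refine congrArg (residue k) ?_
      obtain ⟨c, hc⟩ : (p : ℤ_[p]) ∣
          (cyc p σ : ℤ_[p]) - ((PadicInt.toZMod (cyc p σ : ℤ_[p])).val : ℤ_[p]) := by
        rw [← Ideal.mem_span_singleton, ← PadicInt.maximalIdeal_eq_span_p, ← PadicInt.ker_toZMod,
          RingHom.mem_ker, map_sub, map_natCast, ZMod.natCast_zmod_val, sub_self]
      refine (congrArg (algebraMap ℤ_[p] k) (eq_add_of_sub_eq hc)).trans ?_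
      rw [map_add, map_mul, map_natCast, map_natCast, CharP.cast_eq_zero, zero_mul, zero_add]
    · exact Levels.isOrdinaryAt_ofResidual (residue k)
        ((hr.residual).isEquiv (hr₀.baseChangeAlong (residue k))) hord
  obtain ⟨σ₀, hσ₀, hω⟩ := GalRep.Ordinary.exists_inertia_cyc_ne_one hp2 hA
  obtain ⟨g₀, hab⟩ := hresord.exists_commutator hnd hσ₀ (GalRep.Ordinary.natCast_omega_ne_one hω)
  -- the Hecke algebra acts on the eigen class through `ψ`
  let zC : ParC N O := ⟨z', R.locG_le_parHom hS hz'⟩
  let red : ParC N O →ₗ[O] GHom (Gamma0 N) k :=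
    (redH N).comp (ModularCurve.Period.parabolicHoms O (Gamma0 N) O).subtype
  obtain ⟨ϖ, hϖ⟩ := IsDiscreteValuationRing.exists_irreducible O
  have hlift : ∀ w : ParC N O, red w = 0 → ∃ u : ParC N O, w = ϖ • u := fun w hw => by
    obtain ⟨y, hy⟩ := (redH_eq_zero_iff hϖ _).mp hw
    exact ⟨⟨y, fun γ hγ => mul_left_cancel₀ hϖ.ne_zero (((DFunLike.congr_fun hy _).symm.trans
      (w.2 γ hγ)).trans (mul_zero ϖ).symm)⟩, Subtype.ext hy⟩
  have hker : ∀ (f : Module.End O (ParC N O)) (w : ParC N O), red w = 0 → red (f w) = 0 :=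
    fun f w hw => by
      obtain ⟨u, rfl⟩ := hlift w hw
      rw [map_smul, map_smul]
      exact AddMonoidHom.ext fun t => smul_eq_zero_of_mem
        (hϖ.maximalIdeal_eq ▸ Ideal.mem_span_singleton_self ϖ) _
  have hact : ∀ c, ∃ o : O, residue O o = ψ c ∧
      red (actC O hred c zC) = o • redH N z' := by
    rintro ⟨c, hc⟩
    induction hc using Algebra.adjoin_induction with
    | mem x hx =>
      obtain ⟨i, rfl⟩ := hx
      let j : OffS S := ⟨i.1.1, i.2⟩
      refine ⟨a ((i.1 : Nat.Primes) : ℕ), (hχ _ i.1.1.2 i.1.2 i.2).symm.trans (hψ i).symm,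
        Eq.trans ?_ (heig j)⟩
      show redH N ((extC O (GalRep.latHeckePoly N p (MvPolynomial.X i.1)) zC : ParC N O) :
        GHom (Gamma0 N) O) = _
      rw [latHeckePoly_gen, extC_latHecke, opL_apply j (goodIndex i.1)]
    | algebraMap t =>
      refine ⟨algebraMap ℤ_[p] O t, (ψ.commutes t).symm, ?_⟩
      show red (extC O (algebraMap ℤ_[p] (Module.End ℤ_[p] (GalRep.Lat N p)) t) zC) = _
      rw [extC_algebraMap, map_smul]
      rfl
    | add x y hx hy ihx ihy =>
      obtain ⟨o, ho, hox⟩ := ihx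
      obtain ⟨o', ho', hoy⟩ := ihy
      refine ⟨o + o', by rw [map_add, ho, ho', ← map_add]; rfl, ?_⟩
      show red (actC O hred (⟨x, hx⟩ + ⟨y, hy⟩) zC) = _
      rw [add_smul, ← hox, ← hoy, ← map_add]
      exact congrArg red (congrArg (· zC) (map_add (extC O (N := N)) x y))
    | mul x y hx hy ihx ihy =>
      obtain ⟨o, ho, hox⟩ := ihx
      obtain ⟨o', ho', hoy⟩ := ihy
      refine ⟨o' * o, by rw [map_mul, ho, ho', mul_comm, ← map_mul]; rfl, ?_⟩
      show red (actC O hred (⟨x, hx⟩ * ⟨y, hy⟩) zC) = _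
      rw [show actC O hred (⟨x, hx⟩ * ⟨y, hy⟩) zC = actC O hred ⟨x, hx⟩ (actC O hred ⟨y, hy⟩ zC) from
        (congrArg (· zC) (map_mul (extC O (N := N)) x y)).trans rfl]
      have h0 : red (actC O hred ⟨y, hy⟩ zC - o' • zC) = 0 := by
        rw [map_sub, map_smul, hoy]; exact sub_self _
      have h1 := hker (actC O hred ⟨x, hx⟩) _ h0
      rw [map_sub, map_sub, map_smul, map_smul, sub_eq_zero] at h1
      rw [h1, hox, smul_smul]
  -- a class modulo `p`
  obtain ⟨t₀, ht₀⟩ : ∃ t, redH N z' t ≠ 0 := by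
    by_contra h0
    push Not at h0
    exact hξ0' (AddMonoidHom.ext h0)
  obtain ⟨Λ, hΛ, hΛu⟩ := exists_detect (p := p) ((residue_ne_zero_iff_isUnit _).mp ht₀)
  have hcoord : ∀ w : ParC N O, red w = 0 → GalRep.Ordinary.red1 (coordC Λ w) = 0 := fun w hw => by
    refine Subtype.ext (AddMonoidHom.ext fun x => ?_)
    rw [GalRep.Ordinary.red1_apply, coordC_apply]
    exact hΛ _ ((residue_eq_zero_iff _).mp (DFunLike.congr_fun hw x))
  let D := GalRep.Ordinary.latDatum (p := p) hred
  let v : D.L := coordC Λ zC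
  have kill : ∀ X : MonoidAlgebra ℤ GQ, GalRep.Ordinary.gK r X = 0 →
      GalRep.Ordinary.ringAct (p := p) N X (GalRep.Ordinary.redD hred v) = 0 := by
    intro X hX
    obtain ⟨w₁, hw₁⟩ := GalRep.Ordinary.gD_mem_of_residual D S ψ htr hab hX (v := v) fun c hc =>
      (GalRep.Ordinary.redD_eq_zero_iff hred).mp (by
        show GalRep.Ordinary.red1 (asLat hred c (coordC Λ zC)) = 0
        rw [← coordC_extC, ← actC]
        refine hcoord _ ?_
        obtain ⟨o, ho, hoz⟩ := hact c
        rw [hoz]
        exact AddMonoidHom.ext fun t => smul_eq_zero_of_mem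
          ((residue_eq_zero_iff _).mp (ho.trans (hbot _ hc))) _)
    rw [← GalRep.Ordinary.redD_gD hred, show GalRep.Ordinary.gD D X v = (p : ℤ_[p]) • w₁ from hw₁]
    exact (GalRep.Ordinary.redD_eq_zero_iff hred).mpr ⟨w₁, rfl⟩
  have hT : heckeHom hg (GalRep.Ordinary.red1 (coordC Λ zC)) = 0 := by
    have hw : red ⟨transferHom hg z', GalRep.transferHom_mem hg (⟨z', zC.2⟩ : ParHom N O)⟩ = 0 :=
      (redH_transfer hg z').trans hTξ
    refine Eq.trans (Subtype.ext (AddMonoidHom.ext fun x => ?_)) (hcoord _ hw)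
    rw [GalRep.Ordinary.red1_apply, coordC_apply]
    show transferHom hg (GalRep.Ordinary.red1 (coordC Λ zC) : GHom (Gamma0 N) (ZMod p)) x =
      PadicInt.toZMod (Λ (transferHom hg z' x))
    rw [show (GalRep.Ordinary.red1 (coordC Λ zC) : GHom (Gamma0 N) (ZMod p)) =
      ((PadicInt.toZMod (p := p)).toAddMonoidHom.comp Λ.toAddMonoidHom).comp z' from
        AddMonoidHom.ext fun y => GalRep.Ordinary.red1_apply _ y, GalRep.transferHom_comp]
    rfl
  have hx0 := eq_zero_of_heckeHom_eq_zero hp2 hg hA hnd hresord kill hT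
  refine hΛu ?_
  have hx1 : GalRep.Ordinary.red1 (coordC Λ zC) = 0 := hx0
  rw [show Λ (z' t₀) = (coordC Λ zC : GHom (Gamma0 N) ℤ_[p]) t₀ from (coordC_apply Λ zC t₀).symm,
    ← GalRep.Ordinary.red1_apply, hx1]
  rfl

end Fermat.Agent.R59.Raised
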