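/-
S59, unit C2: the base of the chain, the level of the seed or, when raising at `p`, the ordinary
part one step above it.
-/
import Fermat.Agent.R59.Raised.Chain
import Fermat.Agent.R59.Raised.PRoot
import Fermat.Agent.R59.Raised.PInj
import Fermat.Agent.R59.Raised.Bridge

set_option autoImplicit false
set_option linter.unusedSectionVars false
set_option linter.style.haveILetI false

noncomputable section

namespace Fermat.Agent.R59.Raised

open CongruenceSubgroup IsLocalRing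
open Fermat.Agent.Galois (GQ)
open Fermat.Agent.GalRep (GoodIndex transferHom ParHom)
open Fermat.Agent.Raise (GHom)
open scoped MatrixGroups

variable {p : ℕ} [Fact p.Prime] {O : Type} [CommRing O] [IsDomain O] [IsDiscreteValuationRing O]
  [IsAdicComplete (maximalIdeal O) O] [Finite (ResidueField O)]
  [Algebra ℤ_[p] O] [Module.Finite ℤ_[p] O] [CharZero O]
  {ρbar : ResidualGaloisRep (ResidueField O)} {N : ℕ} [NeZero N] {U aux S : Finset ℕ} {a : ℕ → O}
  {ord : Bool}

/-- The residual classes with eigenvalues `χ`. -/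
def EigG (S : Finset ℕ) (a : ℕ → O) (χ : ℕ → O) (z : GHom (Gamma0 N) O) : Prop :=
  z ∈ locG O S a N ∧ ∀ (l : ℕ) (hl : GoodIndex N l), l ∉ S → transferHom hl z = χ l • z

/-- The base of the chain. -/
theorem exists_base (H : Seed p O ρbar N U aux S a ord) (X₀ : Sys p O ρbar N S)
    (hlat : X₀.IsLattice a) (hcond : X₀.X.Cond U U ord) (g : X₀.X.R →ₐ[O] O) (raiseP : Bool)
    (hP : raiseP = true → ord = false ∧ (GaloisRepAdic.ofResidualGaloisRep ρbar).IsOrdinaryAt p)
    (θ : CuspForm.heckeAlgebra N 2 (↑S : Set ℕ) →+* O) (χ : ℕ → O)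
    (hθ : ∀ (l : ℕ) (hl : l.Prime) (hlN : ¬ l ∣ N) (hlS : l ∉ (↑S : Set ℕ)),
      θ (CuspForm.heckeAlgebra.T hl hlN hlS) = χ l)
    (hχ : ∀ (l : ℕ) (hl : l.Prime), l ∉ S → ∀ A : ValuationSubring (AlgebraicClosure ℚ),
      A.LiesOverPrime l → ∀ τ : GQ, A.IsFrobeniusAt τ l → g (X₀.X.ρ.trace τ) = χ l) :
    ∃ (B : ℕ) (_ : NeZero B) (γp : O) (i : GHom (Gamma0 N) O →ₗ[O] GHom (Gamma0 B) O)
      (r : GHom (Gamma0 B) O →ₗ[O] GHom (Gamma0 N) O),
      (N ∣ B ∧ Squarefree B ∧ Supp S B ∧ (∀ l : ℕ, l.Prime → l ∣ B → l ∣ N ∨ l = p) ∧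
        (p ∣ B ↔ (ord || raiseP) = true)) ∧
      (raiseP = false → γp = 1) ∧
      (raiseP = true → ∃ α : O, IsUnit α ∧ X₀.X.HasUnitRoot g α ∧ γp = α ^ 2 - 1) ∧
      (∀ z ∈ locG O S a N, i z ∈ condK O S a p ∅ raiseP B) ∧
      (∀ (ℓ : ℕ) (hg : GoodIndex N ℓ) (hg' : GoodIndex B ℓ) z,
        i (transferHom hg z) = transferHom hg' (i z)) ∧
      (∀ (ℓ : ℕ) (hg : GoodIndex N ℓ) (hg' : GoodIndex B ℓ) y,
        r (transferHom hg' y) = transferHom hg (r y)) ∧
      (∀ z ∈ locG O S a N, redH B (i z) = 0 → redH N z = 0) ∧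
      (∀ x ∈ locG O S a N, ∃ y ∈ condK O S a p ∅ raiseP B, r y = x) ∧
      (∀ z ∈ locG O S a N, EigG S a χ z → r (i z) = γp • z) ∧
      (∀ y ∈ condK O S a p ∅ raiseP B,
        (∀ (l : ℕ) (hl : GoodIndex B l), l ∉ S → transferHom hl y = χ l • y) → r y = 0 → y = 0) := by
  have hS : Supp S N := H.level_mem
  have hRH := resHyp_of_seed H
  cases raiseP with
  | false =>
    refine ⟨N, inferInstance, 1, LinearMap.id, LinearMap.id,
      ⟨dvd_rfl, H.squarefree, hS, fun l _ h => Or.inl h, by simpa using H.p_dvd_iff⟩,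
      fun _ => rfl, fun h => absurd h Bool.false_ne_true, fun z hz => mem_condK.mpr ⟨hz,
        fun _ _ _ h => absurd h (Finset.notMem_empty _), fun h => absurd h Bool.false_ne_true⟩,
      fun ℓ hg hg' z => rfl, fun ℓ hg hg' y => rfl, fun z _ h => h,
      fun x hx => ⟨x, mem_condK.mpr ⟨hx, fun _ _ _ h => absurd h (Finset.notMem_empty _),
        fun h => absurd h Bool.false_ne_true⟩, rfl⟩,
      fun z _ _ => (one_smul O z).symm, fun y _ _ h => h⟩
  | true =>
    obtain ⟨rfl, hord⟩ := hP rfl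
    have hp := (Fact.out : p.Prime)
    have hpN : ¬ p ∣ N := fun h => Bool.false_ne_true (H.p_dvd_iff.mp h)
    have hgp : GoodIndex N p := ⟨hp, hpN⟩
    obtain ⟨D⟩ := Fermat.Agent.Raise.exists_levData hp hpN
    haveI : NeZero (N * p) := ⟨mul_ne_zero (NeZero.ne N) hp.ne_zero⟩
    have hS' : Supp S (N * p) := fun r hr hrd => (hr.dvd_mul.mp hrd).elim (hS r hr)
      fun h => (Nat.prime_dvd_prime_iff_eq hr hp).mp h ▸ H.p_mem
    obtain ⟨α, hα, hroot, hrel⟩ := exists_unit_root H hord X₀ hlat hcond g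
    obtain ⟨u, hu⟩ := id hα
    set β : O := (p : O) * (u⁻¹ : Oˣ) with hβdef
    have hαβ : α * β = (p : O) := by rw [hβdef, ← hu, mul_left_comm, Units.mul_inv, mul_one]
    have hβ : β ∈ maximalIdeal O := Ideal.mul_mem_right _ _ H.p_mem_maximal
    have hδ : IsUnit (α - β) := by
      by_contra h
      exact (mem_maximalIdeal _).mp
        (by simpa using Ideal.add_mem _ ((mem_maximalIdeal _).mpr h) hβ) hα
    have hT : ∀ z ∈ locG O S a N, (∀ (l : ℕ) (hl : GoodIndex N l), l ∉ S →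
        transferHom hl z = χ l • z) → transferHom hgp z = (α + β) • z := by
      intro z hz he
      have h1 := hrel hgp z hz fun i A hA τ hτ => by
        rw [opL_apply i (hS.good i), he _ (hS.good i) i.2, hχ _ i.1.2 i.2 A hA τ hτ]
      refine smul_right_injective _ hα.ne_zero ?_
      show α • transferHom hgp z = α • ((α + β) • z)
      rw [h1, smul_smul, mul_add, hαβ, pow_two]
    have hinj : ∀ z ∈ locG O S a N, redH N (transferHom hgp z) = 0 → redH N z = 0 :=
      fun z hz h => tP_injective_mod H hord X₀ hlat hcond hgp z hz h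
    refine ⟨N * p, inferInstance, α ^ 2 - 1, pI (α - β), pR D,
      ⟨dvd_mul_right N p, ?_, hS', fun l hl h => (hl.dvd_mul.mp h).imp id
        ((Nat.prime_dvd_prime_iff_eq hl hp).mp), by simp⟩,
      fun h => absurd h.symm Bool.false_ne_true, fun _ => ⟨α, hα, hroot, rfl⟩,
      fun z hz => mem_condK.mpr ⟨pI_mem hS' _ hz,
        fun _ _ _ h => absurd h (Finset.notMem_empty _), fun _ h => fitProj_pI _ h z⟩,
      fun ℓ hg hg' z => pI_transfer _ hg hg' z, fun ℓ hg hg' y => pR_transfer D hg hg' y,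
      fun z hz h => redH_eq_zero_of_pI hRH hS' hgp hinj hδ hz h, fun x hx => ?_,
      fun z hz he => pR_pI D hgp hα hβ hαβ (hT z hz he.2), fun y hy he h0 => ?_⟩
    · exact (Nat.squarefree_mul ((hp.coprime_iff_not_dvd.mpr hpN).symm)).mpr
        ⟨H.squarefree, hp.squarefree⟩
    · obtain ⟨y, hy, hyo, hyx⟩ := exists_pR_eq hRH D hS' hgp hinj (dvd_mul_left p N) hx
      exact ⟨y, mem_condK.mpr ⟨hy, fun _ _ _ h => absurd h (Finset.notMem_empty _),
        fun _ _ => hyo⟩, hyx⟩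
    · exact eq_zero_of_pR hRH D hS' hgp θ χ hθ hβ hαβ hT (dvd_mul_left p N) hy.1
        (hy.2.2 rfl (dvd_mul_left p N)) he h0

end Fermat.Agent.R59.Raised
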