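/-
S59, unit C2: the growth of the congruence module along a saturated map with a one-sided inverse up
to a factor on the eigenvectors.
-/
import Fermat.Agent.R59.Min.EigenRank
import Mathlib

set_option autoImplicit false
set_option linter.unusedSectionVars false
set_option linter.style.haveILetI false

noncomputable section

namespace Fermat.Agent.R59.Raised

variable {O : Type} [CommRing O] [IsDomain O] [IsDiscreteValuationRing O]

/-- The length of a quotient by multiples of a submodule of a free module. -/
theorem length_quotient_smul {V : Type} [AddCommGroup V] [Module O V] [Module.Finite O V]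
    [Module.Free O V] {γ : O} (hγ : γ ≠ 0) (I : Submodule O V) :
    Module.length O (V ⧸ Submodule.map (γ • LinearMap.id : V →ₗ[O] V) I) =
      Module.length O (V ⧸ I) +
        (Module.finrank O V : ℕ∞) * Module.length O (O ⧸ Ideal.span {γ}) := by
  set m : V →ₗ[O] V := γ • LinearMap.id
  let j : (V ⧸ I) →ₗ[O] V ⧸ I.map m := I.mapQ _ m (Submodule.le_comap_map m I)
  let q : (V ⧸ I.map m) →ₗ[O] V ⧸ LinearMap.range m :=
    Submodule.factor (LinearMap.map_le_range)
  have hj : Function.Injective j := by
    rw [injective_iff_map_eq_zero]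
    intro x hx
    obtain ⟨v, rfl⟩ := Submodule.mkQ_surjective I x
    obtain ⟨u, hu, huv⟩ := (Submodule.Quotient.mk_eq_zero _).mp hx
    rw [show u = v from smul_right_injective V hγ huv] at hu
    exact (Submodule.Quotient.mk_eq_zero I).mpr hu
  have hq : Function.Surjective q := Submodule.factor_surjective _
  have hexact : Function.Exact j q := fun x => by
    obtain ⟨v, rfl⟩ := Submodule.mkQ_surjective _ x
    constructor
    · intro h
      obtain ⟨u, hu⟩ := (Submodule.Quotient.mk_eq_zero _).mp h
      exact ⟨Submodule.Quotient.mk u, congrArg (Submodule.mkQ (I.map m)) hu⟩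
    · rintro ⟨y, hy⟩
      obtain ⟨u, rfl⟩ := Submodule.mkQ_surjective I y
      rw [← hy]
      exact (Submodule.Quotient.mk_eq_zero _).mpr ⟨u, rfl⟩
  rw [Module.length_eq_add_of_exact j q hj hq hexact]
  congr 1
  let b := Module.finBasis O V
  let e : (V ⧸ LinearMap.range m) ≃ₗ[O]
      (Fin (Module.finrank O V) → O ⧸ Ideal.span {γ}) := by
    refine (Submodule.Quotient.equiv _ (Submodule.pi Set.univ fun _ => Ideal.span {γ}) b.equivFun
      ?_).trans (Submodule.quotientPi _)
    ext f
    simp only [Submodule.mem_map, LinearMap.mem_range, Submodule.mem_pi, Set.mem_univ, forall_const,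
      Ideal.mem_span_singleton']
    constructor
    · rintro ⟨_, ⟨u, rfl⟩, rfl⟩ i
      exact ⟨b.equivFun u i, by simp [m, mul_comm]⟩
    · intro h
      choose c hc using h
      refine ⟨m (b.equivFun.symm c), ⟨_, rfl⟩, funext fun i => ?_⟩
      rw [show m (b.equivFun.symm c) = γ • b.equivFun.symm c from rfl]
      show b.equivFun (γ • b.equivFun.symm c) i = f i
      rw [map_smul, b.equivFun.apply_symm_apply, Pi.smul_apply, smul_eq_mul, mul_comm, hc i]
  rw [e.length_eq, Module.length_pi_of_fintype, Finset.sum_const, Finset.card_univ,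
    Fintype.card_fin, nsmul_eq_mul]

variable {R R' : Type} [CommRing R] [Algebra O R] [CommRing R'] [Algebra O R']
  {M : Type} [AddCommGroup M] [Module O M] [Module R M] [IsScalarTower O R M]
  [Module.Finite O M] [Module.Free O M]
  {M' : Type} [AddCommGroup M'] [Module O M'] [Module R' M'] [IsScalarTower O R' M']
  [Module.Finite O M'] [Module.Free O M']

/-- The growth of the congruence module. -/
theorem omega_growth (σ : R' →ₐ[O] R) (hσ : Function.Surjective σ) (g : R →ₐ[O] O)
    (hsep : ∃ s : R, g s ≠ 0 ∧ ∀ x : R, g x = 0 → s * x = 0)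
    (hfaith : Module.annihilator R M = ⊥)
    (hsep' : ∃ s : R', g.comp σ s ≠ 0 ∧ ∀ x : R', g.comp σ x = 0 → s * x = 0)
    (i : M →ₗ[O] M') (r : M' →ₗ[O] M) (hiR : ∀ (y : R') (m : M), i (σ y • m) = y • i m)
    (hrR : ∀ (y : R') (m : M'), r (y • m) = σ y • r m) (hr : Function.Surjective r) {γ : O}
    (hcomp : ∀ z ∈ eigen g M, r (i z) = γ • z)
    (hinj : ∀ (c : O) (m : M) (w : M'), c ≠ 0 → i m = c • w → ∃ v, m = c • v)
    (hrinj : ∀ w ∈ eigen (g.comp σ) M', r w = 0 → w = 0) :
    γ ≠ 0 ∧ Module.finrank O (coEigen (g.comp σ) M') = Module.finrank O (coEigen g M) ∧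
      omegaLen g M + (Module.finrank O (coEigen g M) : ℕ∞) *
          Module.length O (O ⧸ Ideal.span {γ}) ≤ omegaLen (g.comp σ) M' := by
  have hi0 : ∀ m, i m = 0 → m = 0 := fun m hm => by
    obtain ⟨ϖ, hϖ⟩ := IsDiscreteValuationRing.exists_irreducible O
    haveI : IsHausdorff (IsLocalRing.maximalIdeal O) M :=
      IsHausdorff.of_le_jacobson _ _ (IsLocalRing.maximalIdeal_le_jacobson _)
    refine IsHausdorff.haus (inferInstance : IsHausdorff (IsLocalRing.maximalIdeal O) M) m
      fun k => SModEq.zero.mpr ?_
    obtain ⟨v, hv⟩ := hinj (ϖ ^ k) m 0 (pow_ne_zero k hϖ.ne_zero) (by rw [hm, smul_zero])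
    rw [hv]
    exact Submodule.smul_mem_smul (Ideal.pow_mem_pow (hϖ.maximalIdeal_eq ▸
      Ideal.mem_span_singleton_self ϖ) k) trivial
  have hiE : ∀ z ∈ eigen g M, i z ∈ eigen (g.comp σ) M' := fun z hz y => by
    rw [← hiR, hz (σ y), map_smul, AlgHom.comp_apply]
  have hrE : ∀ w ∈ eigen (g.comp σ) M', r w ∈ eigen g M := fun w hw x => by
    obtain ⟨y, rfl⟩ := hσ x
    rw [← hrR, hw y, map_smul, AlgHom.comp_apply]
  -- the factor
  have hpos := finrank_coEigen_pos g M hsep hfaith
  have heq := finrank_eigen_eq_coEigen g M hsep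
  have hγ : γ ≠ 0 := by
    intro h0
    have : eigen g M = ⊥ := (Submodule.eq_bot_iff _).mpr fun z hz =>
      hi0 z (hrinj _ (hiE z hz) (by rw [hcomp z hz, h0, zero_smul]))
    rw [this, finrank_bot] at heq
    omega
  -- the eigenfunctionals
  haveI : Module.Free O (Module.Dual O M) :=
    Module.Free.of_basis (Module.Free.chooseBasis O M).dualBasis
  haveI : Module.Free O (Module.Dual O M') :=
    Module.Free.of_basis (Module.Free.chooseBasis O M').dualBasis
  haveI : Module.Finite O (coEigen g M) := inferInstance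
  haveI : Module.Finite O (coEigen (g.comp σ) M') := inferInstance
  haveI : Module.IsTorsionFree O (coEigen g M) :=
    Function.Injective.moduleIsTorsionFree _ (coEigen g M).injective_subtype
      fun c f => map_smul (coEigen g M).subtype c f
  haveI : Module.IsTorsionFree O (coEigen (g.comp σ) M') :=
    Function.Injective.moduleIsTorsionFree _ (coEigen (g.comp σ) M').injective_subtype
      fun c f => map_smul (coEigen (g.comp σ) M').subtype c f
  haveI : Module.Free O (coEigen g M) :=
    @Module.free_of_finite_type_torsion_free' O _ (coEigen g M) _ _ _ _ _ _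
  let ρ : coEigen g M →ₗ[O] coEigen (g.comp σ) M' :=
    (r.dualMap.comp (coEigen g M).subtype).codRestrict _ fun f y m => by
      show (f : Module.Dual O M) (r (y • m)) = g.comp σ y * (f : Module.Dual O M) (r m)
      rw [hrR]
      exact f.2 _ _
  have hρi : Function.Injective ρ := fun f f' h => Subtype.ext (LinearMap.ext fun m => by
    obtain ⟨w, rfl⟩ := hr m
    exact LinearMap.congr_fun (congrArg Subtype.val h) w)
  have hrank : Module.finrank O (coEigen (g.comp σ) M') = Module.finrank O (coEigen g M) := by
    refine le_antisymm ?_ (LinearMap.finrank_le_finrank_of_injective hρi)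
    rw [← finrank_eigen_eq_coEigen (g.comp σ) M' hsep', ← heq]
    let rE : eigen (g.comp σ) M' →ₗ[O] eigen g M :=
      (r.comp (eigen (g.comp σ) M').subtype).codRestrict _ fun w => hrE w w.2
    exact LinearMap.finrank_le_finrank_of_injective (f := rE)
      ((injective_iff_map_eq_zero _).mpr fun w hw => Subtype.ext
        (hrinj w w.2 (congrArg Subtype.val hw)))
  have hρs : Function.Surjective ρ := by
    intro f'
    letI : AddCommGroup (coEigen (g.comp σ) M') := Submodule.addCommGroup _
    have hq : Module.finrank O (coEigen (g.comp σ) M' ⧸ LinearMap.range ρ) = 0 := by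
      have := Submodule.finrank_quotient_add_finrank (R := O) (LinearMap.range ρ)
      rw [LinearMap.finrank_range_of_inj hρi] at this
      omega
    obtain ⟨⟨c, hc⟩, hcf⟩ :=
      (Module.finrank_eq_zero_iff_isTorsion.mp hq) (x := Submodule.Quotient.mk f')
    rw [← Submodule.Quotient.mk_smul, Submodule.Quotient.mk_eq_zero] at hcf
    obtain ⟨f₀, hf₀⟩ := hcf
    have hc0 : c ≠ 0 := nonZeroDivisors.ne_zero hc
    have hker : LinearMap.ker r ≤ LinearMap.ker (f' : Module.Dual O M') := fun w hw => by
      have := LinearMap.congr_fun (congrArg Subtype.val hf₀) w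
      change (f₀ : Module.Dual O M) (r w) = c * (f' : Module.Dual O M') w at this
      rw [LinearMap.mem_ker.mp hw, map_zero, eq_comm] at this
      exact (mul_eq_zero.mp this).resolve_left hc0
    let f : Module.Dual O M :=
      (Submodule.liftQ _ (f' : Module.Dual O M') hker).comp
        (r.quotKerEquivOfSurjective hr).symm.toLinearMap
    have hf : ∀ w, f (r w) = (f' : Module.Dual O M') w := fun w => by
      show Submodule.liftQ _ _ hker ((r.quotKerEquivOfSurjective hr).symm (r w)) = _
      rw [show (r.quotKerEquivOfSurjective hr).symm (r w) = Submodule.Quotient.mk w from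
        (LinearEquiv.symm_apply_eq _).mpr rfl]
      rfl
    have hfmem : f ∈ coEigen g M := fun x m => by
      obtain ⟨w, rfl⟩ := hr m
      obtain ⟨y, rfl⟩ := hσ x
      rw [← hrR, hf, hf]
      exact f'.2 y w
    exact ⟨⟨f, hfmem⟩, Subtype.ext (LinearMap.ext hf)⟩
  refine ⟨hγ, hrank, ?_⟩
  -- the cokernels
  let e := (LinearEquiv.ofBijective ρ ⟨hρi, hρs⟩).dualMap
  set I := LinearMap.range (pairingMap g M)
  have hle : (LinearMap.range (pairingMap (g.comp σ) M')).map e.toLinearMap ≤
      I.map (γ • LinearMap.id : Module.Dual O (coEigen g M) →ₗ[O] _) := by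
    rintro _ ⟨_, ⟨w, rfl⟩, rfl⟩
    have hrw := hrE w w.2
    have hd : γ • (w : M') - i (r w) = 0 := hrinj _
      (Submodule.sub_mem _ (Submodule.smul_mem _ γ w.2) (hiE _ hrw))
      (by rw [map_sub, map_smul, hcomp _ hrw, sub_self])
    obtain ⟨v, hv⟩ := hinj γ (r w) w hγ (sub_eq_zero.mp hd).symm
    have hvE : v ∈ eigen g M := fun x => by
      refine smul_right_injective M hγ ?_
      show γ • (x • v) = γ • (g x • v)
      rw [← smul_comm x γ v, ← hv, hrw x, hv, smul_comm]
    refine ⟨pairingMap g M ⟨v, hvE⟩, ⟨_, rfl⟩, LinearMap.ext fun f => ?_⟩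
    show γ * (f : Module.Dual O M) v = (f : Module.Dual O M) (r w)
    rw [hv, map_smul, smul_eq_mul]
  have hfin : Module.finrank O (Module.Dual O (coEigen g M)) = Module.finrank O (coEigen g M) :=
    Module.finrank_linearMap_self O O (coEigen g M)
  haveI : Module.Free O (Module.Dual O (coEigen g M)) :=
    Module.Free.of_basis (Module.Free.chooseBasis O (coEigen g M)).dualBasis
  rw [omegaLen, omegaLen, ← hfin, ← length_quotient_smul hγ I]
  refine le_of_le_of_eq (Module.length_le_of_surjective (Submodule.factor hle)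
    (Submodule.factor_surjective hle)) ?_
  exact (Submodule.Quotient.equiv (LinearMap.range (pairingMap (g.comp σ) M')) _ e
    rfl).length_eq.symm

end Fermat.Agent.R59.Raised
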