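/-
S59, unit C2c: a system on a Hecke stable saturated part of the lattice of a higher level.

Justification: `Levels.exists_levelData` at `N'` gives the representation over an algebra acting on
`latLoc`; its image in `End K` is reduced (semisimplicity) and generated by traces (Chebotarev),
`σ` is restriction along `i`.  The local conditions: `RepAt` (unipotent at `U`, flat or ordinary at
`p`) and unramified at the auxiliary primes as `a r ^ 2 - (r + 1) ^ 2` is a unit.
-/
import Fermat.Agent.R59.Levels.SeedPart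

set_option autoImplicit false
set_option linter.style.haveILetI false
set_option linter.unusedVariables false

noncomputable section

open IsLocalRing

namespace Fermat.Agent.R59.Raised

open Fermat.Agent.Galois (GQ)
open Fermat.Agent.Auto (Lat latLoc latT PrimeOff)

variable {p : ℕ} [Fact p.Prime] {O : Type} [CommRing O] [IsDomain O] [IsDiscreteValuationRing O]
  [IsAdicComplete (maximalIdeal O) O] [Finite (ResidueField O)]
  [Algebra ℤ_[p] O] [Module.Finite ℤ_[p] O] [CharZero O]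
  {ρbar : ResidualGaloisRep (ResidueField O)} {N : ℕ} [NeZero N] {U aux S : Finset ℕ} {a : ℕ → O}
  {ord : Bool}

/-- A part `K` of the lattice of level `N'` receiving the minimal module gives a system over it. -/
theorem exists_sub_sys (H : Seed p O ρbar N U aux S a ord) (X₀ : Sys p O ρbar N S)
    (hlat : X₀.IsLattice a) (sig : Finset ℕ)
    (hsig : ∀ q ∈ sig, q.Prime ∧ q ≠ p ∧ q ∉ U ∧ q ∉ aux ∧ q ∈ S) (N' : ℕ) [NeZero N']
    (o : Bool) (ho : o = true → (GaloisRepAdic.ofResidualGaloisRep ρbar).IsOrdinaryAt p)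
    (hNN' : N ∣ N') (hp2 : ¬ p ^ 2 ∣ N') (hpN : p ∣ N' ↔ o = true)
    (hprimes : ∀ l : ℕ, l.Prime → l ∣ N' → l = p ∨ l ∈ U ∪ aux ∪ sig)
    (honce : ∀ l ∈ U ∪ aux, ¬ l ^ 2 ∣ N')
    (K : Submodule O (Lat N' (1 : (ZMod N')ˣ →* Unit) O))
    (hK : K ≤ latLoc N' (1 : (ZMod N')ˣ →* Unit) O S a)
    (hsat : ∀ (c : O) (x : Lat N' (1 : (ZMod N')ˣ →* Unit) O), c ≠ 0 → c • x ∈ K → x ∈ K)
    (hT : ∀ (l : PrimeOff N' S), ∀ x ∈ K, latT N' 1 O l.1 x ∈ K)
    (i : X₀.M →ₗ[O] K) (hi : Function.Injective i)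
    (hiT : ∀ (l : PrimeOff N' S) (A : ValuationSubring (AlgebraicClosure ℚ)),
      A.LiesOverPrime ((l.1 : Nat.Primes) : ℕ) → ∀ τ : GQ,
        A.IsFrobeniusAt τ ((l.1 : Nat.Primes) : ℕ) → ∀ m : X₀.M,
          ((i (X₀.X.ρ.trace τ • m) : K) : Lat N' (1 : (ZMod N')ˣ →* Unit) O) =
            latT N' 1 O l.1 (i m : Lat N' (1 : (ZMod N')ˣ →* Unit) O)) :
    ∃ (Y : Sys p O ρbar N' S) (σ : Y.X.R →ₐ[O] X₀.X.R) (e : Y.M ≃ₗ[O] K),
      Y.X.IsHom X₀.X σ ∧ Y.X.Cond (U ∪ sig) U o ∧
      ∀ (l : PrimeOff N' S) (A : ValuationSubring (AlgebraicClosure ℚ)),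
        A.LiesOverPrime ((l.1 : Nat.Primes) : ℕ) → ∀ τ : GQ,
          A.IsFrobeniusAt τ ((l.1 : Nat.Primes) : ℕ) → ∀ y : Y.M,
            ((e (Y.X.ρ.trace τ • y) : K) : Lat N' (1 : (ZMod N')ˣ →* Unit) O) =
              latT N' 1 O l.1 (e y : Lat N' (1 : (ZMod N')ˣ →* Unit) O) := by
  have hne : K ≠ ⊥ := fun h => by
    haveI : Subsingleton K := by rw [h]; infer_instance
    haveI : Subsingleton X₀.M := hi.subsingleton
    exact one_ne_zero (α := X₀.X.R) (Submodule.mem_bot _ |>.mp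
      (X₀.faithful ▸ Module.mem_annihilator.mpr fun m => Subsingleton.elim _ _))
  have hMS : ∀ l : ℕ, l.Prime → l ∣ N' → l ∈ S := fun l hl h => by
    rcases hprimes l hl h with rfl | h'
    · exact H.p_mem
    · rcases Finset.mem_union.mp h' with h' | h'
      · by_cases hlp : l = p
        · exact hlp ▸ H.p_mem
        · exact H.level_mem l hl ((H.dvd_iff l hl hlp).mpr (Finset.mem_union.mp h'))
      · exact (hsig l h').2.2.2.2
  obtain ⟨Y, e, hcond, he⟩ := Levels.exists_sys_of_seed H sig N' o ho hNN' hMS hp2 hpN hprimes honce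
    K hK hne hT
  let f : X₀.M →ₗ[O] Y.M := e.symm.toLinearMap ∘ₗ i
  have hf : Function.Injective f := e.symm.injective.comp hi
  have hint : ∀ (g : GQ) (m : X₀.M),
      f (X₀.X.ρ.trace g • m) = Y.X.ρ.trace g • f m := fun g m =>
    Levels.intertwine_of_frobenius (L₁ := X₀.M) (L₂ := Y.M) X₀.X.ρ Y.X.ρ
      (Algebra.lsmul O O X₀.M) (Algebra.lsmul O O Y.M) f S
      (fun l hl hlS A hA τ hτ x => e.injective (Subtype.ext (by
        let j : PrimeOff N' S := ⟨⟨⟨l, hl⟩, fun h => hlS (hMS l hl h)⟩, hlS⟩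
        show (e (e.symm (i (X₀.X.ρ.trace τ • x)))).1 = (e (Y.X.ρ.trace τ • f x)).1
        rw [he j A hA τ hτ, e.apply_symm_apply, hiT j A hA τ hτ]
        show _ = latT N' 1 O j.1 (e (e.symm (i x))).1
        rw [e.apply_symm_apply]))) g m
  have hex : ∀ r : Y.X.R, ∃ s : X₀.X.R, ∀ m, f (s • m) = r • f m := by
    intro r
    have hr := (Y.X.adjoin_trace).ge (Algebra.mem_top : r ∈ (⊤ : Subalgebra O Y.X.R))
    induction hr using Algebra.adjoin_induction with
    | mem z hz => obtain ⟨g, rfl⟩ := hz; exact ⟨_, hint g⟩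
    | algebraMap c => exact ⟨algebraMap O _ c, fun m => by rw [algebraMap_smul, algebraMap_smul, map_smul]⟩
    | add y z _ _ hy hz =>
      obtain ⟨c, hc⟩ := hy
      obtain ⟨d, hd⟩ := hz
      exact ⟨c + d, fun m => by rw [add_smul, map_add, hc, hd, add_smul]⟩
    | mul y z _ _ hy hz =>
      obtain ⟨c, hc⟩ := hy
      obtain ⟨d, hd⟩ := hz
      exact ⟨c * d, fun m => by rw [mul_smul, hc, hd, mul_smul]⟩
  choose σ hσ using hex
  have huniq : ∀ r s, (∀ m, f (s • m) = r • f m) → σ r = s := fun r s h => by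
    refine sub_eq_zero.mp (Submodule.mem_bot _ |>.mp (X₀.faithful ▸ Module.mem_annihilator.mpr
      fun m => hf ?_))
    rw [sub_smul, map_sub, hσ, h, sub_self, map_zero]
  exact ⟨Y,
    { toFun := σ
      map_one' := huniq 1 1 fun m => by rw [one_smul, one_smul]
      map_mul' := fun r s => huniq _ _ fun m => by rw [mul_smul, hσ, hσ, mul_smul]
      map_zero' := huniq 0 0 fun m => by rw [zero_smul, zero_smul, map_zero]
      map_add' := fun r s => huniq _ _ fun m => by rw [add_smul, map_add, hσ, hσ, add_smul]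
      commutes' := fun c => huniq _ _ fun m => by rw [algebraMap_smul, algebraMap_smul, map_smul] },
    e, fun g => huniq _ _ (hint g), hcond, he⟩

end Fermat.Agent.R59.Raised
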