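/-
S59, unit C2: the system at the raised level and the growth of the congruence module.

Justification: the module is the part of the lattice of level `N ∏ q² (· p)` killed by every `U_q`
(and ordinary for `U_p`), where every system has multiplicity `2 ^ (#aux + 1)`.  At `q` the map
`v ↦ v - T_q v|q + q v|q²` is saturated (Ihara twice), its transpose surjective, the composite is
`gammaQ q a_q` up to a unit; at `p` the map `v ↦ v - β v|p` with composite `α² - 1`, the unit root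
`α` of `X² - a_p X + p` being Frobenius on the unramified quotient (congruence relation at `p`).
`γ ≠ 0` as `|a_q| < q + 1`.
-/
import Fermat.Agent.R59.Defs
import Fermat.Agent.R59.Raised.Base
import Fermat.Agent.R59.Raised.Omega
import Fermat.Agent.R59.Raised.Sub

set_option autoImplicit false
set_option linter.style.haveILetI false

open IsLocalRing CongruenceSubgroup
open Fermat.Agent.Galois (GQ)
open Fermat.Agent.GalRep (GoodIndex GoodPrime transferHom)
open Fermat.Agent.Raise (GHom)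
open Fermat.Agent.Auto (Lat latLoc latT PrimeOff)
open Fermat.Agent.R59.Raised

namespace Fermat.Agent.R59

/-- A prime dividing a product of squares is one of the primes. -/
theorem Raised.mem_of_dvd_prod_sq {s : ℕ} {T : Finset ℕ} (hs : s.Prime) (hT : ∀ q ∈ T, q.Prime)
    (h : s ∣ ∏ q ∈ T, q * q) : s ∈ T := by
  obtain ⟨x, hx, hsx⟩ := (Prime.dvd_finsetProd_iff hs.prime _).mp h
  rcases hs.dvd_mul.mp hsx with h' | h' <;>
    exact (Nat.prime_dvd_prime_iff_eq hs (hT x hx)).mp h' ▸ hx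

/-- A square of a prime outside `T` does not divide a squarefree number times the squares. -/
theorem Raised.not_sq_dvd {s B : ℕ} {T : Finset ℕ} (hs : s.Prime) (hT : ∀ q ∈ T, q.Prime)
    (hB : Squarefree B) (hsT : s ∉ T) : ¬ s ^ 2 ∣ B * ∏ q ∈ T, q * q := fun h =>
  hs.not_isUnit (hB s (pow_two s ▸ (Nat.Coprime.pow_left 2 (hs.coprime_iff_not_dvd.mpr
    fun h' => hsT (mem_of_dvd_prod_sq hs hT h'))).dvd_of_dvd_mul_right h))

variable {p : ℕ} [Fact p.Prime] {O : Type} [CommRing O] [IsDomain O] [IsDiscreteValuationRing O]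
  [IsAdicComplete (maximalIdeal O) O] [Finite (ResidueField O)]
  [Algebra ℤ_[p] O] [Module.Finite ℤ_[p] O] [CharZero O]
  {ρbar : ResidualGaloisRep (ResidueField O)} {N : ℕ} [NeZero N] {U aux S : Finset ℕ} {a : ℕ → O}
  {ord : Bool}

/-- The raised system. -/
theorem exists_raised_sys (H : Seed p O ρbar N U aux S a ord) (X₀ : Sys p O ρbar N S)
    (hlat : X₀.IsLattice a) (hcond : X₀.X.Cond U U ord) (g : X₀.X.R →ₐ[O] O) (sig : Finset ℕ)
    (hsig : ∀ q ∈ sig, q.Prime ∧ q ≠ p ∧ q ∉ U ∧ q ∉ aux ∧ q ∈ S) (raiseP : Bool)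
    (hP : raiseP = true → ord = false ∧ (GaloisRepAdic.ofResidualGaloisRep ρbar).IsOrdinaryAt p) :
    ∃ (N' : ℕ) (_ : NeZero N') (Y : Sys p O ρbar N' S) (σ : Y.X.R →ₐ[O] X₀.X.R) (t : ℕ → O) (γp : O),
      (¬ p ^ 2 ∣ N' ∧ (∀ q : ℕ, q.Prime → ¬ q ^ 3 ∣ N') ∧
        (∀ q : ℕ, q.Prime → q ∣ N' → q ∈ S) ∧ (∀ q ∈ U ∪ sig, q ∣ N') ∧
        ((ord || raiseP) = true → p ∣ N')) ∧
      Y.X.IsHom X₀.X σ ∧ Y.X.Cond (U ∪ sig) U (ord || raiseP) ∧
      (∀ q ∈ sig, X₀.X.HasFrobTrace g q (t q)) ∧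
      (raiseP = false → γp = 1) ∧
      (raiseP = true → ∃ α : O, IsUnit α ∧ X₀.X.HasUnitRoot g α ∧ γp = α ^ 2 - 1) ∧
      (∏ q ∈ sig, gammaQ q (t q)) * γp ≠ 0 ∧
      Module.finrank O (coEigen (g.comp σ) Y.M) = Module.finrank O (coEigen g X₀.M) ∧
      omegaLen g X₀.M + (Module.finrank O (coEigen g X₀.M) : ℕ∞) *
          Module.length O (O ⧸ Ideal.span {(∏ q ∈ sig, gammaQ q (t q)) * γp}) ≤
        omegaLen (g.comp σ) Y.M := by
  classical
  have hS : Supp S N := H.level_mem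
  have hRH := resHyp_of_seed H
  obtain ⟨e₀, he₀⟩ := exists_sys_equiv H X₀ hlat
  obtain ⟨θ, hθ'⟩ := X₀.occurs g
  set χ : ℕ → O := fun l =>
    if h : l.Prime ∧ ¬ l ∣ N ∧ l ∉ (↑S : Set ℕ) then
      θ (CuspForm.heckeAlgebra.T h.1 h.2.1 h.2.2) else 0 with hχdef
  have hθ : ∀ (l : ℕ) (hl : l.Prime) (hlN : ¬ l ∣ N) (hlS : l ∉ (↑S : Set ℕ)),
      θ (CuspForm.heckeAlgebra.T hl hlN hlS) = χ l := fun l hl hlN hlS => by
    rw [hχdef]; simp only
    rw [dif_pos ⟨hl, hlN, hlS⟩]
  have hχ : ∀ (l : ℕ) (hl : l.Prime), l ∉ S → ∀ A : ValuationSubring (AlgebraicClosure ℚ),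
      A.LiesOverPrime l → ∀ τ : GQ, A.IsFrobeniusAt τ l → g (X₀.X.ρ.trace τ) = χ l :=
    fun l hl hlS A hA τ hτ => by
      have hlN : ¬ l ∣ N := fun h => hlS (hS l hl h)
      rw [← hθ l hl hlN (by simpa using hlS), ← hθ' l hl hlN (by simpa using hlS) A hA τ hτ]
  have hEig : ∀ m : X₀.M, EigG S a χ (e₀ m : GHom (Gamma0 N) O) ↔ m ∈ eigen g X₀.M := by
    intro m
    constructor
    · intro he r
      have hr := (Levels.adjoin_frobenius_eq_top X₀.X.ρ X₀.X.adjoin_trace S).ge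
        (Algebra.mem_top : r ∈ (⊤ : Subalgebra O X₀.X.R))
      induction hr using Algebra.adjoin_induction with
      | mem z hz =>
        obtain ⟨l, hl, hlS, A, hA, τ, hτ, rfl⟩ := hz
        let i : OffS S := ⟨⟨l, hl⟩, hlS⟩
        refine e₀.injective (Subtype.ext ?_)
        rw [map_smul e₀, Submodule.coe_smul, he₀ i A hA τ hτ, opL_apply i (hS.good i),
          he.2 l (hS.good i) hlS, hχ l hl hlS A hA τ hτ]
      | algebraMap c =>
        rw [algebraMap_smul, AlgHom.commutes, Algebra.algebraMap_self, RingHom.id_apply]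
      | add y z _ _ hy hz => rw [add_smul, map_add, hy, hz, add_smul]
      | mul y z _ _ hy hz =>
        rw [mul_smul, hz, smul_comm, hy, map_mul, smul_smul, mul_comm]
    · refine fun hm => ⟨(e₀ m).2, fun l hl hlS => ?_⟩
      obtain ⟨A, hA⟩ := Galois.exists_liesOverPrime hl.prime
      obtain ⟨τ, hτ⟩ := Galois.exists_isFrobeniusAt hl.prime hA
      let i : OffS S := ⟨⟨l, hl.prime⟩, hlS⟩
      rw [← opL_apply (O := O) i hl, ← he₀ i A hA τ hτ, hm, map_smul, Submodule.coe_smul,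
        hχ l hl.prime hlS A hA τ hτ]
  -- the eigenvalues at the primes of `sig`
  let t : ℕ → O := fun q => if hq : q.Prime then
    g (X₀.X.ρ.trace (Galois.exists_isFrobeniusAt hq
      (Galois.exists_liesOverPrime hq).choose_spec).choose) else 0
  have hdvdN : ∀ q ∈ sig, ¬ q ∣ N := fun q hq h => by
    obtain ⟨hqp, hqp', hqU, hqaux, -⟩ := hsig q hq
    exact ((H.dvd_iff q hqp hqp').mp h).elim hqU hqaux
  have hact : ∀ q ∈ sig, ∀ (hgq : GoodIndex N q) (m : X₀.M),
      ∀ A : ValuationSubring (AlgebraicClosure ℚ), A.LiesOverPrime q → ∀ τ : GQ,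
        A.IsFrobeniusAt τ q →
          (e₀ (X₀.X.ρ.trace τ • m) : GHom (Gamma0 N) O) = transferHom hgq (e₀ m) :=
    fun q hq hgq m A hA τ hτ =>
      trace_frob_eq_transfer H X₀ e₀ he₀ (hsig q hq).2.1 (hsig q hq).2.2.1 hgq hA hτ m
  have htq : ∀ q ∈ sig, X₀.X.HasFrobTrace g q (t q) := by
    intro q hq A hA τ hτ
    have hqp := (hsig q hq).1
    show g _ = dite _ _ _
    rw [dif_pos hqp]
    refine congrArg g (sub_eq_zero.mp (Submodule.mem_bot _ |>.mp (X₀.faithful ▸
      Module.mem_annihilator.mpr fun m => e₀.injective (Subtype.ext ?_))))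
    rw [sub_smul, map_sub, Submodule.coe_sub, hact q hq ⟨hqp, hdvdN q hq⟩ m A hA τ hτ,
      hact q hq ⟨hqp, hdvdN q hq⟩ m _ (Galois.exists_liesOverPrime hqp).choose_spec _
        (Galois.exists_isFrobeniusAt hqp (Galois.exists_liesOverPrime hqp).choose_spec).choose_spec,
      sub_self, map_zero, Submodule.coe_zero]
  have hEt : ∀ z, EigG S a χ z → ∀ q ∈ sig, ∀ hg : GoodIndex N q,
      transferHom hg z = t q • z := by
    intro z hz q hq hg
    obtain ⟨m, hm⟩ : ∃ m, e₀ m = ⟨z, hz.1⟩ := e₀.surjective _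
    obtain rfl : (e₀ m : GHom (Gamma0 N) O) = z := congrArg Subtype.val hm
    obtain ⟨A, hA⟩ := Galois.exists_liesOverPrime hg.prime
    obtain ⟨τ, hτ⟩ := Galois.exists_isFrobeniusAt hg.prime hA
    rw [← hact q hq hg m A hA τ hτ, (hEig m).mp hz, htq q hq A hA τ hτ, map_smul,
      Submodule.coe_smul]
  -- the levels
  obtain ⟨B, _, γp, iB, rB, ⟨hNB, hBsq, hSB, hBprimes, hpB⟩, hγ1, hγ2, hiK, hiT, hrT, hinj, hsurj,
    hcomp, hker⟩ := exists_base H X₀ hlat hcond g raiseP hP θ χ hθ hχ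
  have hsigB : ∀ q ∈ sig, q.Prime ∧ q ≠ p ∧ ¬ q ∣ B ∧ q ∈ S := fun q hq => by
    obtain ⟨hqp, hqp', -, -, hqS⟩ := hsig q hq
    exact ⟨hqp, hqp', fun h => (hBprimes q hqp h).elim (hdvdN q hq) hqp', hqS⟩
  obtain ⟨L, _, i, r, hL, hSL, hiK', hiT', hrT', hinj', hsurj', hcomp', hker'⟩ :=
    exists_chain hRH hNB hSB raiseP t γp (EigG S a χ) iB rB hiK hiT hrT hinj hsurj hcomp θ χ hθ
      hker sig hsigB hEt
  have hsigp : ∀ q ∈ sig, q.Prime := fun q hq => (hsig q hq).1
  have hpsig : p ∉ sig := fun h => (hsig p h).2.1 rfl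
  have hBL : B ∣ L := hL ▸ dvd_mul_right _ _
  have hNL : N ∣ L := hNB.trans hBL
  have hp := (Fact.out : p.Prime)
  have hpL : p ∣ L ↔ (ord || raiseP) = true := by
    rw [← hpB, hL]
    refine ⟨fun h => (hp.dvd_mul.mp h).resolve_right
      fun h' => hpsig (mem_of_dvd_prod_sq hp hsigp h'), fun h => dvd_mul_of_dvd_left h _⟩
  have hp2 : ¬ p ^ 2 ∣ L := hL ▸ not_sq_dvd hp hsigp hBsq hpsig
  have hcube : ∀ q : ℕ, q.Prime → ¬ q ^ 3 ∣ L := by
    intro q hq h
    by_cases hqs : q ∈ sig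
    · rw [hL, ← Finset.mul_prod_erase _ _ hqs] at h
      have h1 := (Nat.Coprime.pow_left 3
        (hq.coprime_iff_not_dvd.mpr (hsigB q hqs).2.2.1)).dvd_of_dvd_mul_left h
      rw [pow_succ' q 2, pow_two, mul_comm q (q * q)] at h1
      exact Finset.notMem_erase q sig (mem_of_dvd_prod_sq hq
        (fun x hx => hsigp x (Finset.mem_of_mem_erase hx))
        ((Nat.mul_dvd_mul_iff_left (Nat.mul_pos hq.pos hq.pos)).mp h1))
    · exact not_sq_dvd hq hsigp hBsq hqs (hL ▸ (pow_dvd_pow q (by norm_num)).trans h)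
  have hprimes : ∀ l : ℕ, l.Prime → l ∣ L → l = p ∨ l ∈ U ∪ aux ∪ sig := by
    intro l hl h
    rw [hL] at h
    rcases hl.dvd_mul.mp h with h | h
    · rcases hBprimes l hl h with h | h
      · by_cases hlp : l = p
        · exact Or.inl hlp
        · exact Or.inr (Finset.mem_union_left _ (Finset.mem_union.mpr ((H.dvd_iff l hl hlp).mp h)))
      · exact Or.inl h
    · exact Or.inr (Finset.mem_union_right _ (mem_of_dvd_prod_sq hl hsigp h))
  have honce : ∀ l ∈ U ∪ aux, ¬ l ^ 2 ∣ L := fun l hl => by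
    have hls : l ∉ sig := fun h => (Finset.mem_union.mp hl).elim (hsig l h).2.2.1 (hsig l h).2.2.2.1
    have hlp : l.Prime := (Finset.mem_union.mp hl).elim (fun h => (H.mem_U l h).1)
      fun h => (H.mem_aux l h).1
    exact hL ▸ not_sq_dvd hlp hsigp hBsq hls
  have hUL : ∀ q ∈ U ∪ sig, q ∣ L := fun q hq => by
    rcases Finset.mem_union.mp hq with h | h
    · exact ((H.dvd_iff q (H.mem_U q h).1 (H.mem_U q h).2.1).mpr (Or.inl h)).trans hNL
    · exact hL ▸ dvd_mul_of_dvd_right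
        ((dvd_mul_right q q).trans (Finset.dvd_prod_of_mem (fun x => x * x) h)) B
  have hord : (ord || raiseP) = true →
      (GaloisRepAdic.ofResidualGaloisRep ρbar).IsOrdinaryAt p := fun ho => by
    cases ord with
    | true => exact H.ordinary rfl
    | false => exact (hP (by simpa using ho)).2
  -- the part of the lattice
  set C := condK O S a p sig raiseP L
  set K := C.comap (latG O L)
  have hK : K ≤ latLoc L (1 : (ZMod L)ˣ →* Unit) O S a := fun v hv => by
    obtain ⟨v', hv', he⟩ := exists_latG_eq hRH hSL (condK_le hv)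
    exact latG_injective he ▸ hv'
  let fK : K →ₗ[O] C := ((latG O L).comp K.subtype).codRestrict C fun v => v.2
  have hfK : Function.Bijective fK := by
    refine ⟨fun v w h => Subtype.ext (latG_injective (congrArg Subtype.val h)), fun z => ?_⟩
    obtain ⟨v, -, hvz⟩ := exists_latG_eq hRH hSL (condK_le z.2)
    exact ⟨⟨v, show latG O L v ∈ C from hvz ▸ z.2⟩, Subtype.ext hvz⟩
  let eK := LinearEquiv.ofBijective fK hfK
  let iC : X₀.M →ₗ[O] C := (i.comp ((locG O S a N).subtype.comp e₀.toLinearMap)).codRestrict C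
    fun m => hiK' _ (e₀ m).2
  let iK : X₀.M →ₗ[O] K := eK.symm.toLinearMap.comp iC
  have hiKv : ∀ m, latG O L (iK m).1 = i (e₀ m) := fun m =>
    congrArg Subtype.val (eK.apply_symm_apply (iC m))
  obtain ⟨ϖ, hϖ⟩ := IsDiscreteValuationRing.exists_irreducible O
  have hdiv : ∀ (k : ℕ) (z w), z ∈ locG O S a N → i z = ϖ ^ k • w →
      ∃ v ∈ locG O S a N, z = ϖ ^ k • v := by
    intro k
    induction k with
    | zero => exact fun z w hz _ => ⟨z, hz, by rw [pow_zero, one_smul]⟩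
    | succ k ih =>
      intro z w hz hw
      obtain ⟨y, hy⟩ := (redH_eq_zero_iff hϖ _).mp (hinj' z hz ((redH_eq_zero_iff hϖ _).mpr
        ⟨ϖ ^ k • w, by rw [hw, pow_succ', mul_smul]⟩))
      have hy' : z = ϖ • projG S a N y := by rw [← map_smul, ← hy, projG_apply hz]
      obtain ⟨v, hv, hve⟩ := ih _ w (projG_mem y) (smul_right_injective _ hϖ.ne_zero (by
        show ϖ • i (projG S a N y) = ϖ • (ϖ ^ k • w)
        rw [← map_smul, ← hy', hw, pow_succ', mul_smul]))
      exact ⟨v, hv, by rw [hy', hve, smul_smul, ← pow_succ']⟩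
  have hi0 : Function.Injective iK := by
    refine (injective_iff_map_eq_zero iK).mpr fun m hm => e₀.map_eq_zero_iff.mp ?_
    have h0 : i (e₀ m) = 0 := by rw [← hiKv, hm, Submodule.coe_zero, map_zero]
    refine Subtype.ext (Auto.eq_zero_of_mem_mPow (O := O) fun k => ?_)
    obtain ⟨v, -, hv⟩ := hdiv k _ 0 (e₀ m).2 (by rw [h0, smul_zero])
    rw [hv]
    exact Submodule.smul_mem_smul (Ideal.pow_mem_pow (hϖ.maximalIdeal_eq ▸
      Ideal.mem_span_singleton_self ϖ) k) trivial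
  obtain ⟨Y, σ, eY, hσ, hY, heY⟩ := exists_sub_sys H X₀ hlat sig hsig L (ord || raiseP) hord hNL
    hp2 hpL hprimes honce K hK
    (fun c x hc hx => condK_saturated (p := p) hc (show c • latG O L x ∈ C by
      rw [← map_smul]; exact hx))
    (fun l x hx => by
      show latG O L (latT L 1 O l.1 x) ∈ C
      rw [latG_latT]
      exact condK_transfer hSL _ hx)
    iK hi0
    (fun l A hA τ hτ m => latG_injective (by
      let j : OffS S := ⟨l.1.1, l.2⟩
      rw [hiKv, he₀ j A hA τ hτ, opL_apply j (hS.good j), hiT' _ (hS.good j) (hSL.good j),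
        latG_latT, hiKv]))
  -- the two maps
  let ev : Y.M →ₗ[O] GHom (Gamma0 L) O :=
    (latG O L).comp (K.subtype.comp eY.toLinearMap)
  have hev : Function.Injective ev := fun v w h =>
    eY.injective (Subtype.ext (latG_injective h))
  have hevT : ∀ (l : ℕ) (hl : GoodIndex L l), l ∉ S → ∀ A : ValuationSubring (AlgebraicClosure ℚ),
      A.LiesOverPrime l → ∀ τ : GQ, A.IsFrobeniusAt τ l → ∀ y,
        ev (Y.X.ρ.trace τ • y) = transferHom hl (ev y) := fun l hl hlS A hA τ hτ y => by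
    let j : PrimeOff L S := ⟨⟨⟨l, hl.prime⟩, hl.not_dvd⟩, hlS⟩
    show latG O L (eY (Y.X.ρ.trace τ • y)).1 = _
    rw [heY j A hA τ hτ, latG_latT]
    rfl
  let rY : Y.M →ₗ[O] X₀.M := e₀.symm.toLinearMap.comp ((r.comp ev).codRestrict (locG O S a N)
    fun y => map_mem_locG r (fun j x => by
      rw [opL_apply j (hS.good j), opL_apply j (hSL.good j)]
      exact hrT' _ _ _ x) (condK_le (eY y).2))
  have hrYv : ∀ y, (e₀ (rY y) : GHom (Gamma0 N) O) = r (ev y) := fun y =>
    congrArg Subtype.val (e₀.apply_symm_apply _)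
  let iY : X₀.M →ₗ[O] Y.M := eY.symm.toLinearMap.comp iK
  have hiYv : ∀ m, ev (iY m) = i (e₀ m) := fun m => by
    show latG O L (eY (eY.symm (iK m))).1 = _
    rw [eY.apply_symm_apply, hiKv]
  have hrR : ∀ (y : Y.X.R) (m : Y.M), rY (y • m) = σ y • rY m :=
    smul_comm_of_frobenius σ hσ rY fun l hl hlS A hA τ hτ m => e₀.injective (Subtype.ext (by
      let j : OffS S := ⟨⟨l, hl⟩, hlS⟩
      rw [hrYv, hevT l (hSL.good j) hlS A hA τ hτ, hrT' l (hS.good j) (hSL.good j),
        he₀ j A hA τ hτ, opL_apply j (hS.good j), hrYv]))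
  have hiR : ∀ (y : Y.X.R) (m : X₀.M), iY (σ y • m) = y • iY m := by
    intro y
    have hy := (Y.X.adjoin_trace).ge (Algebra.mem_top : y ∈ (⊤ : Subalgebra O Y.X.R))
    induction hy using Algebra.adjoin_induction with
    | mem z hz =>
      obtain ⟨τ, rfl⟩ := hz
      intro m
      rw [hσ]
      exact Levels.intertwine_of_frobenius (L₁ := X₀.M) (L₂ := Y.M) X₀.X.ρ Y.X.ρ
        (Algebra.lsmul O O X₀.M) (Algebra.lsmul O O Y.M) iY S
        (fun l hl hlS A hA τ hτ x => hev (by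
          let j : OffS S := ⟨⟨l, hl⟩, hlS⟩
          show ev (iY (X₀.X.ρ.trace τ • x)) = ev (Y.X.ρ.trace τ • iY x)
          rw [hiYv, he₀ j A hA τ hτ, hevT l (hSL.good j) hlS A hA τ hτ,
            opL_apply j (hS.good j), hiT' l (hS.good j) (hSL.good j), hiYv])) τ m
    | algebraMap c =>
      intro m; rw [AlgHom.commutes, algebraMap_smul, algebraMap_smul, map_smul]
    | add u v _ _ hu hv => intro m; rw [map_add, add_smul, map_add, hu, hv, add_smul]
    | mul u v _ _ hu hv => intro m; rw [map_mul, mul_smul, hu, hv, mul_smul]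
  have hσs : Function.Surjective σ := by
    rw [← AlgHom.range_eq_top, eq_top_iff, ← X₀.X.adjoin_trace]
    exact Algebra.adjoin_le (by rintro _ ⟨τ, rfl⟩; exact ⟨_, hσ τ⟩)
  set γ := (∏ q ∈ sig, gammaQ q (t q)) * γp
  obtain ⟨hγ, hrk, hΩ⟩ := omega_growth σ hσs g (X₀.sep g) X₀.faithful (Y.sep _) iY rY hiR hrR
    (fun m => by
      obtain ⟨y, hy, hyx⟩ := hsurj' _ (e₀ m).2
      obtain ⟨v, hv⟩ := eK.surjective ⟨y, hy⟩
      refine ⟨eY.symm v, e₀.injective (Subtype.ext ?_)⟩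
      rw [hrYv, ← hyx]
      show r (latG O L (eY (eY.symm v)).1) = r y
      rw [eY.apply_symm_apply]
      exact congrArg r (congrArg Subtype.val hv))
    (γ := γ)
    (fun m hm => e₀.injective (Subtype.ext (by
      rw [hrYv, hiYv, map_smul, Submodule.coe_smul]
      exact hcomp' _ (e₀ m).2 ((hEig m).mpr hm))))
    (fun c m w hc h => by
      obtain ⟨k, u, hu⟩ := IsDiscreteValuationRing.eq_unit_mul_pow_irreducible hc hϖ
      obtain ⟨v, hv, hve⟩ := hdiv k _ (((u : O)) • ev w) (e₀ m).2 (by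
        rw [← hiYv, h, map_smul, hu, smul_smul, mul_comm])
      refine ⟨((u⁻¹ : Oˣ) : O) • e₀.symm ⟨v, hv⟩, e₀.injective (Subtype.ext ?_)⟩
      rw [map_smul, map_smul, e₀.apply_symm_apply, Submodule.coe_smul, Submodule.coe_smul, hve,
        smul_smul, hu, mul_right_comm, Units.mul_inv, one_mul])
    (fun w hw h0 => hev (by
      rw [map_zero]
      refine hker' _ (eY w).2 (fun l hl hlS => ?_) (by
        show r (ev w) = 0
        rw [← hrYv, h0, map_zero, Submodule.coe_zero])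
      obtain ⟨A, hA⟩ := Galois.exists_liesOverPrime hl.prime
      obtain ⟨τ, hτ⟩ := Galois.exists_isFrobeniusAt hl.prime hA
      show transferHom hl (ev w) = χ l • ev w
      rw [← hevT l hl hlS A hA τ hτ, hw, AlgHom.comp_apply, hσ, hχ l hl.prime hlS A hA τ hτ,
        map_smul]))
  exact ⟨L, inferInstance, Y, σ, t, γp,
    ⟨hp2, hcube, hSL, hUL, hpL.mpr⟩, hσ, hY, htq, hγ1, hγ2, hγ, hrk, hΩ⟩

end Fermat.Agent.R59
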