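/-
S59, unit C2b: periods of degenerate forms and of `U_r`, the conjugation `diag(-1, 1)` and the
transfers, and corestriction after a change of level.
-/
import Fermat.Agent.R59.Raised.Commute
import Fermat.Agent.R59.Raise.Pair
import Fermat.Agent.Raise.Periods
import Fermat.Agent.Newform.Slash

set_option autoImplicit false
set_option linter.unusedSectionVars false
set_option linter.style.haveILetI false

noncomputable section

namespace Fermat.Agent.R59.Raised

open UpperHalfPlane CongruenceSubgroup Filter Topology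
open Fermat.Agent.Raise (GHom ZMat zMat IsFam zMat_mul zMat_one det_zMat LevData
  mul_right_cancel_det mem_gamma0_iff_dvd)
open Fermat.Agent.GalRep (heckeRep det_heckeRep repGL repGL_mul_eq hasDerivAt_comp_repGL
  tendsto_repGL_smul exists_eq_mul_heckeRep)
open Fermat.Agent.Newform (incl degen coe_incl coe_degen)
open scoped MatrixGroups ModularForm

/-! ## Periods -/

/-- The periods of a sum of slashes by representatives are the transfer. -/
theorem periodMap_slash_sum {N M r : ℕ} [NeZero N] [NeZero M] (hr : r.Prime) {ι : Type} [Fintype ι]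
    (c : ι → Option (Fin r)) {β : ι → ZMat} (hc : ∀ i, β i = heckeRep r (c i))
    (hβ : IsFam (Gamma0 N) (Gamma0 M) β) (f : CuspForm (Gamma0 N) 2) (g : CuspForm (Gamma0 M) 2)
    (hg : ∀ τ, g τ = ∑ i, ((⇑f : ℍ → ℂ) ∣[(2 : ℤ)] repGL r (c i)) τ) :
    ModularCurve.periodMap M g = hβ.trans (ModularCurve.periodMap N f) := by
  have hr0 := hr.ne_zero
  obtain ⟨F, hF⟩ := Period.exists_hasEquivariantPrimitive f
  have hmul : ∀ (γ : Gamma0 M) (i : ι) (z : ℍ),
      repGL r (c i) • ((γ : SL(2, ℤ)) • z) =
        (hβ.coef γ i : SL(2, ℤ)) • (repGL r (c (hβ.idx γ i)) • z) := fun γ i z =>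
    repGL_mul_eq hr0 (by rw [← hc, ← hc]; exact hβ.spec γ i) z
  have hG : ModularCurve.HasEquivariantPrimitive M g fun τ => ∑ i, F (repGL r (c i) • τ) := by
    refine ⟨fun τ => ?_, ?_, fun γ => ?_, fun δ => ?_⟩
    · have hsum := HasDerivAt.fun_sum (u := (Finset.univ : Finset ι))
        fun i _ => hasDerivAt_comp_repGL hr0 hF.1 (c i) τ
      have heq : ((fun τ => ∑ i, F (repGL r (c i) • τ)) ∘ ofComplex) =
          fun z => ∑ i, ((fun τ => F (repGL r (c i) • τ)) ∘ ofComplex) z := rfl
      rw [heq, hg τ]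
      exact hsum
    · simpa using tendsto_finsetSum (Finset.univ : Finset ι)
        fun i _ => hF.2.1.comp (tendsto_repGL_smul hr0 (c i))
    · refine ⟨∑ i, hF.2.2.1.period (hβ.coef γ i), fun z => ?_⟩
      have key : ∀ i, F (repGL r (c i) • ((γ : SL(2, ℤ)) • z)) =
          hF.2.2.1.period (hβ.coef γ i) + F (repGL r (c (hβ.idx γ i)) • z) := fun i => by
        rw [hmul]
        linear_combination hF.2.2.1.sub_eq_period (hβ.coef γ i) (repGL r (c (hβ.idx γ i)) • z)
      simp only [key, Finset.sum_add_distrib]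
      rw [hβ.sum_idx γ (fun i => F (repGL r (c i) • z)), add_sub_cancel_right]
    · have hstep : ∀ i, ∃ (j : Option (Fin r)) (δ' : SL(2, ℤ)),
          heckeRep r (c i) * (δ : ZMat) = (δ' : ZMat) * heckeRep r j := by
        intro i
        obtain ⟨j, X, hX⟩ := exists_eq_mul_heckeRep hr (heckeRep r (c i) * (δ : ZMat))
          ⟨1, by rw [Matrix.det_mul, det_heckeRep, δ.2]⟩
        have hdet : X.det = 1 := by
          have := congrArg Matrix.det hX
          rw [Matrix.det_mul, Matrix.det_mul, det_heckeRep, det_heckeRep, δ.2, mul_one] at this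
          exact mul_right_cancel₀ (Int.natCast_ne_zero.mpr hr0) (this.symm.trans (one_mul _).symm)
        exact ⟨j, ⟨X, hdet⟩, hX⟩
      choose j δ' hj using hstep
      choose l hl using fun i => hF.2.2.2 (δ' i)
      refine ⟨∑ i, l i, tendsto_finsetSum _ fun i _ => ?_⟩
      have : (fun w => F (repGL r (c i) • (δ • w))) =
          (fun w => F (δ' i • w)) ∘ fun w => repGL r (j i) • w :=
        funext fun w => by rw [Function.comp_apply, repGL_mul_eq hr0 (hj i) w]
      rw [this]
      exact (hl i).comp (tendsto_repGL_smul hr0 (j i))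
  refine AddMonoidHom.ext fun x => ?_
  obtain ⟨γ, rfl⟩ := Additive.ofMul.surjective x
  rw [IsFam.trans_apply, Period.periodMap_apply _ hG γ I]
  have key : ∀ i, ModularCurve.periodMap N f (Additive.ofMul (hβ.coef γ i)) =
      F (repGL r (c i) • ((γ : SL(2, ℤ)) • I)) - F (repGL r (c (hβ.idx γ i)) • I) := fun i => by
    rw [hmul, Period.periodMap_apply f hF (hβ.coef γ i) (repGL r (c (hβ.idx γ i)) • I)]
  simp only [key, Finset.sum_sub_distrib]
  rw [hβ.sum_idx γ (fun i => F (repGL r (c i) • I))]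

/-- The periods of the dilate by a prime. -/
theorem periodMap_degen {N M r : ℕ} [NeZero N] [NeZero M] (hr : r.Prime) (hd : 0 < r)
    (h : N * r ∣ M) (f : CuspForm (Gamma0 N) 2) :
    ModularCurve.periodMap M (degen r hd h f) = degH r hd h (ModularCurve.periodMap N f) :=
  periodMap_slash_sum hr (fun _ : Unit => none) (fun _ => rfl) (isFam_deg hd h) f _ fun τ => by
    rw [Fintype.sum_unique, coe_degen]
    rfl

/-- The periods of `U_r`. -/
theorem periodMap_uEnd {M r : ℕ} [NeZero M] (hr : r.Prime) (h : r ∣ M)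
    (f : CuspForm (Gamma0 M) 2) :
    ModularCurve.periodMap M (CuspForm.heckeULin 2 h f) =
      uEnd hr h (ModularCurve.periodMap M f) :=
  periodMap_slash_sum hr (fun b : Fin r => some b) (fun _ => rfl)
    (isFam_uL hr h (dvd_mul_right M r) h) f _ fun τ => by
      rw [CuspForm.heckeULin_apply_apply, ModularForm.heckeU_def, Finset.sum_apply]
      exact (Fin.sum_univ_eq_sum_range
        (fun j => ((f : ℍ → ℂ) ∣[(2 : ℤ)] ModularForm.heckeMatrix r j) τ) r).symm

/-- The periods of a form seen at a higher level. -/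
theorem periodMap_incl {N M : ℕ} [NeZero N] [NeZero M] (h : N ∣ M) (h' : N * 1 ∣ M)
    (f : CuspForm (Gamma0 N) 2) :
    ModularCurve.periodMap M (incl h f) = degH 1 one_pos h' (ModularCurve.periodMap N f) := by
  obtain ⟨F, hF⟩ := Period.exists_hasEquivariantPrimitive f
  have hG : ModularCurve.HasEquivariantPrimitive M (incl h f) F :=
    ⟨fun τ => by rw [coe_incl]; exact hF.1 τ, hF.2.1, fun γ =>
      hF.2.2.1 ⟨γ, gamma0_anti h γ.2⟩, hF.2.2.2⟩
  refine AddMonoidHom.ext fun x => ?_
  obtain ⟨γ, rfl⟩ := Additive.ofMul.surjective x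
  rw [degH_one_apply, Period.periodMap_apply _ hG γ I, Period.periodMap_apply _ hF _ I]

/-! ## Conjugation by `diag(-1, 1)` -/

/-- Transfers along families stable under the conjugation commute with it. -/
theorem trans_charInvolution {A : Type} [AddCommGroup A] {N M : ℕ} {ι : Type} [Fintype ι]
    {β : ι → ZMat} (hβ : IsFam (Gamma0 N) (Gamma0 M) β)
    (hrel : ∀ i, ∃ (j : ι) (k : Gamma0 N),
      ModularCurve.Period.jConjMat (β i) = zMat k * β j) (z : GHom (Gamma0 N) A) :
    hβ.trans (ModularCurve.Period.charInvolution N ℤ A z) =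
      ModularCurve.Period.charInvolution M ℤ A (hβ.trans z) := by
  set J := ModularCurve.Period.jConjGamma0 N
  set J' := ModularCurve.Period.jConjGamma0 M
  have hJ : ∀ g, ModularCurve.Period.jConjMat (zMat g) = zMat (J g) := fun g => rfl
  have hJ' : ∀ g, ModularCurve.Period.jConjMat (zMat g) = zMat (J' g) := fun g => rfl
  let α : ι → ZMat := fun i => ModularCurve.Period.jConjMat (β i)
  have hα : IsFam (Gamma0 N) (Gamma0 M) α :=
    { det_ne := fun i => by
        rw [ModularCurve.Period.jConjMat_det]; exact hβ.det_ne i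
      inj := fun a b h e => hβ.inj a b (J h) (by
        have := congrArg ModularCurve.Period.jConjMat e
        simp only [α, ModularCurve.Period.jConjMat_mul, ModularCurve.Period.jConjMat_jConjMat, hJ]
          at this
        exact this)
      step := fun γ b => by
        obtain ⟨c, h, e⟩ := hβ.step (J' γ) b
        refine ⟨c, J h, ?_⟩
        have := congrArg ModularCurve.Period.jConjMat e
        simp only [ModularCurve.Period.jConjMat_mul, hJ, hJ'] at this
        rwa [show J' (J' γ) = γ from ModularCurve.Period.jConjGamma0_jConjGamma0 _ γ] at this }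
  choose π k hk using hrel
  refine AddMonoidHom.ext fun t => ?_
  obtain ⟨γ, rfl⟩ := Additive.ofMul.surjective t
  rw [ModularCurve.Period.charInvolution_apply, toMul_ofMul]
  have hsame := hα.trans_congr hβ rfl 1 π k (fun i => by rw [one_smul]; exact hk i) z
  rw [← hsame, IsFam.trans_apply, IsFam.trans_apply]
  refine Finset.sum_congr rfl fun b _ => ?_
  rw [ModularCurve.Period.charInvolution_apply, toMul_ofMul,
    (hα.unique (j := hβ.idx γ b) (g := J (hβ.coef γ b)) (γ := J' γ) (i := b) (by
      have := congrArg ModularCurve.Period.jConjMat (hβ.spec γ b)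
      simp only [ModularCurve.Period.jConjMat_mul, hJ, hJ'] at this
      exact this)).2]

theorem degH_charInvolution {A : Type} [AddCommGroup A] {N M d : ℕ} (hd : 0 < d) (h : N * d ∣ M)
    (z : GHom (Gamma0 N) A) :
    degH d hd h (ModularCurve.Period.charInvolution N ℤ A z) =
      ModularCurve.Period.charInvolution M ℤ A (degH d hd h z) :=
  trans_charInvolution _ (fun i => ⟨i, 1, by
    rw [zMat_one, one_mul]
    ext a b
    fin_cases a <;> fin_cases b <;> simp [degRep, ModularCurve.Period.jConjMat]⟩) z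

theorem uEnd_charInvolution {A : Type} [AddCommGroup A] {M r : ℕ} (hr : r.Prime) (h : r ∣ M)
    (z : GHom (Gamma0 M) A) :
    uEnd hr h (ModularCurve.Period.charInvolution M ℤ A z) =
      ModularCurve.Period.charInvolution M ℤ A (uEnd hr h z) := by
  refine trans_charInvolution _ (fun b => ?_) z
  obtain ⟨k, c, hk⟩ : ∃ (k : ℤ) (c : Fin r), -((b : ℕ) : ℤ) = ((c : ℕ) : ℤ) + k * r := by
    by_cases h0 : (b : ℕ) = 0
    · exact ⟨0, b, by simp [h0]⟩
    · exact ⟨-1, ⟨r - b, by omega⟩, by rw [Nat.cast_sub b.isLt.le]; ring⟩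
  refine ⟨c, ⟨ModularGroup.T ^ k, mem_gamma0_iff_dvd.mpr (by simp [ModularGroup.coe_T_zpow])⟩, ?_⟩
  show _ = ((ModularGroup.T ^ k : SL(2, ℤ)) : ZMat) * _
  rw [ModularGroup.coe_T_zpow]
  ext i j
  fin_cases i <;> fin_cases j <;>
    simp [uRepL, heckeRep, ModularCurve.Period.jConjMat, Matrix.mul_apply, Fin.sum_univ_two]
  linarith

/-! ## Change of level -/

/-- The number of cosets from level `L` to level `L q q`. -/
theorem card_cosets_two {L q : ℕ} [NeZero L] [NeZero q] (hq : q.Prime) (hqL : ¬ q ∣ L) :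
    Nat.card (Cosets L (L * q * q)) = q * (q + 1) := by
  obtain ⟨D⟩ := Fermat.Agent.Raise.exists_levData hq hqL
  have h1 : Gamma0 (L * q * q) ≤ Gamma0 (L * q) := gamma0_anti (dvd_mul_right _ q)
  have h2 : Gamma0 (L * q) ≤ Gamma0 L := gamma0_anti (dvd_mul_right _ q)
  have h3 := Subgroup.relIndex_mul_relIndex (Gamma0 (L * q * q)) (Gamma0 (L * q)) (Gamma0 L) h1 h2
  have e1 : (Gamma0 (L * q * q)).relIndex (Gamma0 (L * q)) = q := card_cosets_sq D
  have e2 : (Gamma0 (L * q)).relIndex (Gamma0 L) = q + 1 := card_cosets_levData D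
  rw [e1, e2] at h3
  exact h3.symm

/-- Corestriction from level `M q q` commutes with the degeneracy maps prime to `q`. -/
theorem corH_degH_change {A : Type} [AddCommGroup A] {L M q d : ℕ} [NeZero L] [NeZero M] [NeZero q]
    (hq : q.Prime) (hqM : ¬ q ∣ M) (hd : 0 < d) (h : L * d ∣ M) (h' : L * q * q * d ∣ M * q * q)
    (hL : L ∣ L * q * q) (hM : M ∣ M * q * q) (z : GHom (Gamma0 (L * q * q)) A) :
    corH hM (degH d hd h' z) = degH d hd h (corH hL z) := by
  letI := Fintype.ofFinite (Cosets M (M * q * q))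
  letI := Fintype.ofFinite (Cosets L (L * q * q))
  have hqd : ¬ q ∣ d := fun hx => hqM ((hx.trans (dvd_mul_left d L)).trans h)
  have hqL : ¬ q ∣ L := fun hx => hqM ((hx.trans (dvd_mul_right L d)).trans h)
  refine trans_comm (isFam_deg hd h') (isFam_corH hM) (isFam_corH hL) (isFam_deg hd h)
    (by rw [← Nat.card_eq_fintype_card (α := Cosets M (M * q * q)),
      ← Nat.card_eq_fintype_card (α := Cosets L (L * q * q)), card_cosets_two hq hqM,
      card_cosets_two hq hqL]; simp) ?_ 1 ?_ z
  · rintro ⟨⟨⟩, x⟩ ⟨⟨⟩, y⟩ k e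
    refine Prod.ext rfl ?_
    have e' : !![(d : ℤ), 0; 0, 1] * zMat (corElt x * (corElt y)⁻¹) =
        zMat k * !![(d : ℤ), 0; 0, 1] := by
      rw [zMat_mul, ← mul_assoc, show !![(d : ℤ), 0; 0, 1] * zMat (corElt x) = _ from e,
        ← mul_assoc, mul_assoc _ _ (zMat (corElt y)⁻¹),
        show corRep y = zMat (corElt y) from rfl, ← zMat_mul, mul_inv_cancel, zMat_one, mul_one]
      rfl
    have e10 : zMat (corElt x * (corElt y)⁻¹) 1 0 = zMat k 1 0 * d := by
      have := congrArg (fun X : ZMat => X 1 0) e'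
      simpa [Matrix.mul_apply, Fin.sum_univ_two] using this
    have hk := mem_gamma0_iff_dvd.mp k.2
    have hmem : ((corElt x * (corElt y)⁻¹ : Gamma0 M) : SL(2, ℤ)) ∈ Gamma0 (M * q * q) := by
      refine mem_gamma0_iff_dvd.mpr ?_
      show ((M * q * q : ℕ) : ℤ) ∣ zMat (corElt x * (corElt y)⁻¹) 1 0
      have h2 : ((q * q : ℕ) : ℤ) ∣ zMat (corElt x * (corElt y)⁻¹) 1 0 := by
        rw [e10]
        refine ((Int.natCast_dvd_natCast.mpr ?_).trans hk).mul_right _
        exact mul_assoc L q q ▸ dvd_mul_left _ _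
      rw [show ((M * q * q : ℕ) : ℤ) = (M : ℤ) * ((q * q : ℕ) : ℤ) by push_cast; ring]
      refine IsCoprime.mul_dvd ?_ (mem_gamma0_iff_dvd.mp (corElt x * (corElt y)⁻¹).2) h2
      rw [Nat.isCoprime_iff_coprime]
      have := (hq.coprime_iff_not_dvd.mpr hqM).symm
      exact Nat.Coprime.mul_right this this
    refine corRep_inj (k := ⟨_, hmem⟩) ?_
    show zMat (corElt x) = zMat (corElt x * (corElt y)⁻¹) * zMat (corElt y)
    rw [← zMat_mul, inv_mul_cancel_right]
  · rintro ⟨⟨⟩, x⟩
    obtain ⟨u, g, e⟩ := (isFam_deg hd h).step (corElt x) ()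
    cases u
    obtain ⟨c, k, hk⟩ := exists_corRep hL g
    refine ⟨(c, ()), k, ?_⟩
    rw [one_smul, ← mul_assoc, ← hk]
    exact e

end Fermat.Agent.R59.Raised
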