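/-
S59, unit C2b, on forms: a pair of forms of level `M q²` killed by `U_q`, with an eigensystem of
level prime to `q` and periods killed by the trace to level `M`, vanishes.
-/
import Fermat.Agent.R59.Raised.MultPeriods
import Fermat.Agent.R59.Raised.Step
import Fermat.Agent.R59.Raise.Bound
import Fermat.Agent.Newform.Independence

set_option autoImplicit false
set_option linter.unusedSectionVars false
set_option linter.style.haveILetI false

noncomputable section

namespace Fermat.Agent.R59.Raised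

open UpperHalfPlane CongruenceSubgroup ModularFormClass
open Fermat.Agent.Raise (GHom)
open Fermat.Agent.GalRep (GoodIndex transferHom)
open Fermat.Agent.Hecke
open Fermat.Agent.Newform (incl degen qCoeff_incl qCoeff_degen exists_project_finset
  eigen_prime_pow_mul)
open Fermat.Agent.R59.Raise (trans_smul' transferHom_smul)
open scoped MatrixGroups ModularForm

/-- The class of a pair of forms. -/
def pairCls (M : ℕ) (h k : CuspForm (Gamma0 M) 2) : GHom (Gamma0 M) ℂ :=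
  ModularCurve.periodMap M h +
    ModularCurve.Period.charInvolution M ℤ ℂ (ModularCurve.periodMap M k)

section Lin

variable {M M' : ℕ} [NeZero M] [NeZero M']

theorem pairCls_smul (c : ℂ) (h k : CuspForm (Gamma0 M) 2) :
    pairCls M (c • h) (c • k) = c • pairCls M h k := by
  obtain ⟨pml, hpml⟩ := Period.existsPeriodMapLinear M
  simp only [pairCls, ← hpml, map_smul, smul_add]
  rfl

theorem pairCls_sub (h k h' k' : CuspForm (Gamma0 M) 2) :
    pairCls M (h - h') (k - k') = pairCls M h k - pairCls M h' k' := by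
  obtain ⟨pml, hpml⟩ := Period.existsPeriodMapLinear M
  simp only [pairCls, ← hpml, map_sub]
  abel

theorem pairCls_degen {r : ℕ} (hr : r.Prime) (h : M * r ∣ M') (f g : CuspForm (Gamma0 M) 2) :
    pairCls M' (degen r hr.pos h f) (degen r hr.pos h g) = degH r hr.pos h (pairCls M f g) := by
  rw [pairCls, pairCls, periodMap_degen hr, periodMap_degen hr, map_add, degH_charInvolution]

theorem pairCls_incl (h : M ∣ M') (h' : M * 1 ∣ M') (f g : CuspForm (Gamma0 M) 2) :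
    pairCls M' (incl h f) (incl h g) = degH 1 one_pos h' (pairCls M f g) := by
  rw [pairCls, pairCls, periodMap_incl h h', periodMap_incl h h', map_add, degH_charInvolution]

theorem pairCls_uEnd {r : ℕ} (hr : r.Prime) (h : r ∣ M) (f g : CuspForm (Gamma0 M) 2) :
    pairCls M (CuspForm.heckeULin 2 h f) (CuspForm.heckeULin 2 h g) =
      uEnd hr h (pairCls M f g) := by
  rw [pairCls, pairCls, periodMap_uEnd hr, periodMap_uEnd hr, map_add, uEnd_charInvolution]

end Lin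

theorem corH_smul {L L' : ℕ} [NeZero L'] (h : L ∣ L') (c : ℂ) (z : GHom (Gamma0 L') ℂ) :
    corH h (c • z) = c • corH h z :=
  letI := Fintype.ofFinite (Cosets L L')
  trans_smul' (isFam_corH h) c z

section Null

variable {q : ℕ} [NeZero q]

/-- The trace to level `M` kills the periods of the pair. -/
def NullPair (M : ℕ) [NeZero M] (h k : CuspForm (Gamma0 (M * q * q)) 2) : Prop :=
  corH ((dvd_mul_right M q).trans (dvd_mul_right (M * q) q)) (pairCls (M * q * q) h k) = 0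

variable {M : ℕ} [NeZero M] {h k : CuspForm (Gamma0 (M * q * q)) 2}

theorem NullPair.incl' (H : NullPair M h k) (hq : q.Prime) {M' : ℕ} [NeZero M'] (hMM : M ∣ M')
    (hqM : ¬ q ∣ M') (hd : M * q * q ∣ M' * q * q) :
    NullPair M' (incl hd h) (incl hd k) := by
  unfold NullPair at H ⊢
  rw [pairCls_incl hd (by rwa [mul_one]),
    corH_degH_change hq hqM one_pos (by rwa [mul_one]) (by rwa [mul_one])
      ((dvd_mul_right M q).trans (dvd_mul_right (M * q) q)), H, map_zero]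

theorem NullPair.u (H : NullPair M h k) {r : ℕ} (hr : r.Prime) (hrq : r ≠ q) (hq : q.Prime)
    (hrM : r ∣ M) (hd : r ∣ M * q * q) :
    NullPair M (CuspForm.heckeULin 2 hd h) (CuspForm.heckeULin 2 hd k) := by
  unfold NullPair at H ⊢
  rw [pairCls_uEnd hr hd]
  have hrqq : ¬ r ∣ q * q := fun hx => by
    rcases hr.dvd_mul.mp hx with e | e <;> exact hrq ((Nat.prime_dvd_prime_iff_eq hr hq).mp e)
  have key : ∀ (L' : ℕ) [NeZero L'] (e : L' = M * (q * q)) (h1 : M ∣ L') (h2 : r ∣ L')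
      (z : GHom (Gamma0 L') ℂ), corH h1 (uEnd hr h2 z) = uEnd hr hrM (corH h1 z) := by
    intro L' _ e h1 h2 z
    subst e
    exact corH_uEnd hr hrqq hrM h2 z
  rw [key _ (mul_assoc M q q), H, map_zero]

/-- Removing the coefficients at the multiples of `r`, up to a factor `r`. -/
theorem NullPair.step (H : NullPair M h k) (hq : q.Prime) {r : ℕ} (hr : r.Prime) (hrq : r ≠ q)
    (hrM : r ∣ M) (hqM : ¬ q ∣ M) :
    ∃ (_ : NeZero (M * r)) (h' k' : CuspForm (Gamma0 (M * r * q * q)) 2), NullPair (M * r) h' k' ∧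
      (∀ n, qCoeff ⇑h' n = if r ∣ n then 0 else (r : ℂ) * qCoeff ⇑h n) ∧
      ∀ n, qCoeff ⇑k' n = if r ∣ n then 0 else (r : ℂ) * qCoeff ⇑k n := by
  haveI : NeZero r := ⟨hr.ne_zero⟩
  have hqMr : ¬ q ∣ M * r := fun hx => (hq.dvd_mul.mp hx).elim hqM
    fun e => hrq ((Nat.prime_dvd_prime_iff_eq hq hr).mp e).symm
  have hd : M * q * q * r ∣ M * r * q * q := dvd_of_eq (by ring)
  have hi : M * q * q ∣ M * r * q * q := (dvd_mul_right _ r).trans hd
  have hu : r ∣ M * q * q := (hrM.mul_right q).mul_right q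
  set P : CuspForm (Gamma0 (M * q * q)) 2 → CuspForm (Gamma0 (M * r * q * q)) 2 := fun f =>
    (r : ℂ) • incl hi f - degen r hr.pos hd (CuspForm.heckeULin 2 hu f)
  have hP : ∀ f n, qCoeff ⇑(P f) n = if r ∣ n then 0 else (r : ℂ) * qCoeff ⇑f n := fun f n => by
    simp only [P, qCoeff_sub, qCoeff_smul, qCoeff_incl, qCoeff_degen]
    split_ifs with hn
    · rw [qCoeff_heckeULin hr hu, Nat.div_mul_cancel hn]
      norm_num
    · rw [sub_zero]
  refine ⟨inferInstance, P h, P k, ?_, hP h, hP k⟩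
  have H1 := H.incl' hq (M' := M * r) (dvd_mul_right M r) hqMr hi
  have H2 := H.u hr hrq hq hrM hu
  unfold NullPair at H1 H2 ⊢
  have hsc : ∀ z : GHom (Gamma0 (M * r * q * q)) ℂ,
      corH ((dvd_mul_right (M * r) q).trans (dvd_mul_right (M * r * q) q)) ((r : ℂ) • z) =
      (r : ℂ) • corH ((dvd_mul_right (M * r) q).trans (dvd_mul_right (M * r * q) q)) z :=
    fun z => corH_smul _ _ z
  simp only [P]
  rw [pairCls_sub, pairCls_smul, pairCls_degen hr hd, map_sub, hsc, H1, smul_zero,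
    corH_degH_change hq hqMr hr.pos dvd_rfl hd ((dvd_mul_right M q).trans (dvd_mul_right (M * q) q)),
    H2, map_zero, sub_zero]

/-- Removing the coefficients at the multiples of finitely many primes. -/
theorem NullPair.project (hq : q.Prime) (s : Finset ℕ) :
    ∀ (M : ℕ) [NeZero M], ¬ q ∣ M → (∀ r ∈ s, r.Prime ∧ r ≠ q ∧ r ∣ M) →
      ∀ h k : CuspForm (Gamma0 (M * q * q)) 2, NullPair M h k →
      ∃ (M' : ℕ) (_ : NeZero M') (h' k' : CuspForm (Gamma0 (M' * q * q)) 2),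
        ¬ q ∣ M' ∧ M ∣ M' ∧ NullPair M' h' k' ∧
        (∀ n, qCoeff ⇑h' n =
          if ∃ r ∈ s, r ∣ n then 0 else (∏ r ∈ s, (r : ℂ)) * qCoeff ⇑h n) ∧
        ∀ n, qCoeff ⇑k' n =
          if ∃ r ∈ s, r ∣ n then 0 else (∏ r ∈ s, (r : ℂ)) * qCoeff ⇑k n := by
  induction s using Finset.induction_on with
  | empty =>
    intro M _ hqM _ h k H
    exact ⟨M, inferInstance, h, k, hqM, dvd_rfl, H, fun n => by simp, fun n => by simp⟩
  | @insert a s has IH =>
    intro M _ hqM hs h k H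
    obtain ⟨ha, haq, haM⟩ := hs a (Finset.mem_insert_self _ _)
    obtain ⟨M₁, _, h₁, k₁, hq₁, hdvd, H₁, e₁, e₁'⟩ :=
      IH M hqM (fun r hr => hs r (Finset.mem_insert_of_mem hr)) h k H
    obtain ⟨_, h₂, k₂, H₂, e₂, e₂'⟩ := H₁.step hq ha haq (haM.trans hdvd) hq₁
    refine ⟨M₁ * a, inferInstance, h₂, k₂, fun hx => (hq.dvd_mul.mp hx).elim hq₁
      fun e => haq ((Nat.prime_dvd_prime_iff_eq hq ha).mp e).symm,
      hdvd.trans (dvd_mul_right _ a), H₂, fun n => ?_, fun n => ?_⟩ <;>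
    · simp only [e₂, e₂', e₁, e₁', Finset.prod_insert has, Finset.exists_mem_insert]
      by_cases h1 : a ∣ n <;> by_cases h2 : ∃ r ∈ s, r ∣ n <;> simp [h1, h2, mul_assoc]

end Null

/-! ## Coefficients of eigenforms killed by `U_q` -/

/-- The coefficient relations of an eigenform killed by `U_q`, outside the primes of `R`. -/
def EigCf (R : Finset ℕ) (q : ℕ) (a c : ℕ → ℂ) : Prop :=
  c 0 = 0 ∧ (∀ n, c (n * q) = 0) ∧ ∀ l : ℕ, l.Prime → l ∉ R → l ≠ q → ∀ n,
    c (n * l) + (if l ∣ n then (l : ℂ) * c (n / l) else 0) = a l * c n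

theorem EigCf.shift {R : Finset ℕ} {q r : ℕ} {a c : ℕ → ℂ} (H : EigCf R q a c) (hr : r.Prime)
    (hrR : r ∈ R) : EigCf R q a fun n => c (n * r) := by
  refine ⟨by simpa using H.1, fun n => by
    show c (n * q * r) = 0
    rw [mul_right_comm]; exact H.2.1 _,
    fun l hl hlR hlq n => ?_⟩
  show c (n * l * r) + (if l ∣ n then (l : ℂ) * c (n / l * r) else 0) = a l * c (n * r)
  have hlr : ¬ l ∣ r := fun hx => hlR ((Nat.prime_dvd_prime_iff_eq hl hr).mp hx ▸ hrR)
  rw [mul_right_comm, ← H.2.2 l hl hlR hlq (n * r)]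
  by_cases hn : l ∣ n
  · rw [if_pos hn, if_pos (hn.mul_right r), Nat.mul_div_right_comm hn]
  · rw [if_neg hn, if_neg fun hx => (hl.dvd_mul.mp hx).elim hn hlr]

/-- Away from `R` and `q` the coefficients are multiples of those of the eigensystem. -/
theorem EigCf.apply {R : Finset ℕ} {q : ℕ} {N : ℕ} [NeZero N] {a c : ℕ → ℂ}
    {f : CuspForm (Gamma0 N) 2} (hf : f.IsNormalizedEigenform)
    (ha : ∀ l : ℕ, l.Prime → l ∉ R → l ≠ q → ¬ l ∣ N ∧ a l = qCoeff ⇑f l)
    (H : EigCf R q a c) (n : ℕ) (hn : ¬ ∃ r ∈ R, r ∣ n) (hnq : ¬ q ∣ n) :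
    c n = c 1 * qCoeff ⇑f n := by
  induction n using Nat.strong_induction_on with
  | _ n IH =>
    rcases Nat.lt_or_ge n 2 with h2 | h2
    · interval_cases n
      · exact absurd (dvd_zero q) hnq
      · rw [hf.qCoeff_one, mul_one]
    · set l := n.minFac with hl'
      have hl : l.Prime := Nat.minFac_prime (by omega)
      obtain ⟨m, hm⟩ := Nat.minFac_dvd n
      rw [← hl', mul_comm] at hm
      have hlR : l ∉ R := fun hx => hn ⟨l, hx, Nat.minFac_dvd n⟩
      have hlq : l ≠ q := fun hx => hnq (hx ▸ Nat.minFac_dvd n)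
      obtain ⟨hlN, hal⟩ := ha l hl hlR hlq
      have hm0 : 0 < m := Nat.pos_of_ne_zero fun h0 => by rw [h0, zero_mul] at hm; omega
      have hlt : m < n := hm ▸ lt_mul_right hm0 hl.one_lt
      have sub : ∀ d, d ∣ n → d < n → c d = c 1 * qCoeff ⇑f d := fun d hd hdl =>
        IH d hdl (fun ⟨r, hr, hrd⟩ => hn ⟨r, hr, hrd.trans hd⟩) fun hx => hnq (hx.trans hd)
      have e1 := H.2.2 l hl hlR hlq m
      have e2 := eigen_prime_pow_mul hf hl m
      rw [if_neg hlN] at e2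
      rw [sub m ⟨l, hm⟩ hlt, hal] at e1
      have e3 : (if l ∣ m then (l : ℂ) * c (m / l) else 0) =
          c 1 * if l ∣ m then (l : ℂ) * qCoeff ⇑f (m / l) else 0 := by
        split_ifs with hd
        · rw [sub (m / l) ((Nat.div_dvd_of_dvd hd).trans ⟨l, hm⟩)
            (lt_of_le_of_lt (Nat.div_le_self _ _) hlt)]
          ring
        · rw [mul_zero]
      rw [hm]
      linear_combination e1 - e3 - c 1 * e2

theorem EigCf.of_eigen {M q : ℕ} [NeZero M] {R : Finset ℕ} {a : ℕ → ℂ}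
    (hq : q.Prime) (hqM : q ∣ M) (h : CuspForm (Gamma0 M) 2)
    (hU : CuspForm.heckeULin 2 hqM h = 0)
    (hT : ∀ (l : ℕ) (hl : l.Prime), l ∉ R → l ≠ q → ∃ hlM : ¬ l ∣ M,
      CuspForm.heckeTLin 2 hl hlM h = a l • h) :
    EigCf R q a fun n => qCoeff ⇑h n := by
  refine ⟨qCoeff_cusp_zero h, fun n => ?_, fun l hl hlR hlq n => ?_⟩
  · show qCoeff ⇑h (n * q) = 0
    rw [← qCoeff_heckeULin hq hqM, hU, qCoeff_zero_form]
  · obtain ⟨hlM, e⟩ := hT l hl hlR hlq
    have e1 := congrArg (fun x : CuspForm (Gamma0 M) 2 => qCoeff ⇑x n) e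
    simp only [qCoeff_heckeTLin hl hlM, qCoeff_smul] at e1
    rw [show ((2 : ℤ) - 1) = 1 by norm_num, zpow_one] at e1
    exact e1

/-! ## The vanishing -/

theorem first_coeff_eq_zero {q N : ℕ} [NeZero q] [NeZero N] (hq : q.Prime) (hqN : ¬ q ∣ N)
    {f : CuspForm (Gamma0 N) 2} (hf : f.IsNormalizedEigenform) (R : Finset ℕ)
    (hR : ∀ r ∈ R, r.Prime ∧ r ≠ q) {a : ℕ → ℂ}
    (ha : ∀ l : ℕ, l.Prime → l ∉ R → l ≠ q → ¬ l ∣ N ∧ a l = qCoeff ⇑f l)
    {M : ℕ} [NeZero M] (hqM : ¬ q ∣ M) (hRM : ∀ r ∈ R, r ∣ M)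
    {h k : CuspForm (Gamma0 (M * q * q)) 2} (H : NullPair M h k)
    (ch : EigCf R q a fun n => qCoeff ⇑h n) (ck : EigCf R q a fun n => qCoeff ⇑k n) :
    qCoeff ⇑h 1 = 0 ∧ qCoeff ⇑k 1 = 0 := by
  classical
  obtain ⟨L₀, _, g₀, hL₀, hg₀⟩ := exists_project_finset f R fun r hr => (hR r hr).1
  obtain ⟨M₁, _, h₁, k₁, hq₁, -, H₁, e₁, e₁'⟩ :=
    NullPair.project hq R M hqM (fun r hr => ⟨(hR r hr).1, (hR r hr).2, hRM r hr⟩) h k H
  have hqL₀ : ¬ q ∣ L₀ := fun hx => (hL₀ q hq hx).elim hqN fun e => (hR q e).2 rfl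
  set M₂ := M₁ * L₀ with hM₂
  haveI : NeZero M₂ := ⟨mul_ne_zero (NeZero.ne M₁) (NeZero.ne L₀)⟩
  have hq₂ : ¬ q ∣ M₂ := fun hx => (hq.dvd_mul.mp hx).elim hq₁ hqL₀
  have hd₂ : M₁ * q * q ∣ M₂ * q * q :=
    mul_dvd_mul_right (mul_dvd_mul_right (dvd_mul_right _ _) q) q
  have H₂ := H₁.incl' hq (dvd_mul_right M₁ L₀) hq₂ hd₂
  set g : CuspForm (Gamma0 M₂) 2 := incl (dvd_mul_left L₀ M₁) g₀
  have hg : ∀ n, qCoeff ⇑g n = if ∃ r ∈ R, r ∣ n then 0 else qCoeff ⇑f n := fun n => by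
    rw [qCoeff_incl, hg₀]
  have hgood : GoodIndex M₂ q := ⟨hq, hq₂⟩
  set b := qCoeff ⇑f q
  have hnR : ∀ n, (∃ r ∈ R, r ∣ n * q) ↔ ∃ r ∈ R, r ∣ n := fun n => by
    refine ⟨fun ⟨r, hr, hx⟩ => ⟨r, hr, ((hR r hr).1.dvd_mul.mp hx).resolve_right fun e =>
      (hR r hr).2 ((Nat.prime_dvd_prime_iff_eq (hR r hr).1 hq).mp e)⟩,
      fun ⟨r, hr, hx⟩ => ⟨r, hr, hx.mul_right q⟩⟩
  have hrec : ∀ n, qCoeff ⇑g (n * q) + (if q ∣ n then (q : ℂ) * qCoeff ⇑g (n / q) else 0) =
      b * qCoeff ⇑g n := fun n => by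
    have e2 := eigen_prime_pow_mul hf hq n
    rw [if_neg hqN] at e2
    rw [hg (n * q), hg n]
    by_cases hn : ∃ r ∈ R, r ∣ n
    · rw [if_pos ((hnR n).mpr hn), if_pos hn, mul_zero, zero_add]
      split_ifs with hd
      · rw [hg, if_pos, mul_zero]
        exact (hnR (n / q)).mp (by rwa [Nat.div_mul_cancel hd])
      · rfl
    · rw [if_neg (mt (hnR n).mp hn), if_neg hn, ← e2]
      congr 1
      split_ifs with hd
      · rw [hg, if_neg]
        exact fun ⟨r, hr, hx⟩ => hn ⟨r, hr, hx.trans (Nat.div_dvd_of_dvd hd)⟩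
      · rfl
  have hTg : CuspForm.heckeTLin 2 hq hq₂ g = b • g := cuspForm_ext_qCoeff fun n => by
    rw [qCoeff_heckeTLin hq hq₂, qCoeff_smul, show ((2 : ℤ) - 1) = 1 by norm_num, zpow_one]
    exact hrec n
  have d1 : M₂ * 1 ∣ M₂ * q := mul_dvd_mul_left M₂ (one_dvd q)
  have d2 : M₂ * q * q ∣ M₂ * q * q := dvd_rfl
  have d3 : M₂ * q ∣ M₂ * q * q := dvd_mul_right _ q
  have d0 : M₂ ∣ M₂ * q * q := (dvd_mul_right M₂ q).trans d3
  set G : CuspForm (Gamma0 (M₂ * q * q)) 2 :=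
    degen q hq.pos d2 (degen q hq.pos dvd_rfl g) - b • degen q hq.pos d3 g + (q : ℂ) • incl d0 g
    with hGdef
  have hG : ∀ n, qCoeff ⇑G n = if q ∣ n then 0 else (q : ℂ) * qCoeff ⇑g n := fun n => by
    simp only [hGdef, qCoeff_add, qCoeff_sub, qCoeff_smul, qCoeff_incl, qCoeff_degen,
      show ((2 : ℤ) - 1) = 1 by norm_num, zpow_one]
    by_cases hn : q ∣ n
    · obtain ⟨m, rfl⟩ := hn
      have hm := hrec m
      rw [mul_comm q m]
      simp only [dvd_mul_left, if_pos, Nat.mul_div_cancel _ hq.pos]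
      linear_combination (q : ℂ) * hm
    · simp [hn]
  -- the two projected forms are multiples of `G`
  have hprop : ∀ (c : CuspForm (Gamma0 (M * q * q)) 2) (c₁ : CuspForm (Gamma0 (M₁ * q * q)) 2),
      EigCf R q a (fun n => qCoeff ⇑c n) →
      (∀ n, qCoeff ⇑c₁ n = if ∃ r ∈ R, r ∣ n then 0 else (∏ r ∈ R, (r : ℂ)) * qCoeff ⇑c n) →
      (q : ℂ) • incl hd₂ c₁ = ((∏ r ∈ R, (r : ℂ)) * qCoeff ⇑c 1) • G := fun c c₁ hc he => by
    refine cuspForm_ext_qCoeff fun n => ?_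
    rw [qCoeff_smul, qCoeff_smul, qCoeff_incl, he, hG, hg]
    by_cases hn : q ∣ n
    · rw [if_pos hn, mul_zero]
      obtain ⟨m, rfl⟩ := hn
      rw [mul_comm q m, show qCoeff ⇑c (m * q) = 0 from hc.2.1 m]
      simp
    · rw [if_neg hn]
      by_cases hnr : ∃ r ∈ R, r ∣ n
      · simp [hnr]
      · rw [if_neg hnr, if_neg hnr, show qCoeff ⇑c n = _ from hc.apply hf ha n hnr hn]
        ring
  set P := ∏ r ∈ R, (r : ℂ)
  set u := P * qCoeff ⇑h 1
  set v := P * qCoeff ⇑k 1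
  set z : GHom (Gamma0 M₂) ℂ := pairCls M₂ (u • g) (v • g) with hz
  obtain ⟨pml₂, hpml₂⟩ := Period.existsPeriodMapLinear M₂
  obtain ⟨pml₃, hpml₃⟩ := Period.existsPeriodMapLinear (M₂ * q * q)
  have hTz : transferHom hgood z = b • z := by
    simp only [hz, pairCls, ← hpml₂]
    rw [GalRep.transferHom_add, NewVec.transferHom_charInvolution, hpml₂, hpml₂,
      ← GalRep.periodMap_heckeTLin, ← GalRep.periodMap_heckeTLin, map_smul, map_smul, hTg,
      smul_comm u b g, smul_comm v b g, ← hpml₂, ← hpml₂, ← hpml₂, ← hpml₂, smul_add,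
      map_smul pml₂ b, map_smul pml₂ b]
    rfl
  have hpair : pairCls (M₂ * q * q) (u • G) (v • G) = iStep hgood z := by
    rw [iStep_apply hgood z (dvd_of_eq (mul_assoc M₂ q q).symm) d3 (by rwa [mul_one]),
      ← degH_degH' rfl hq.pos hq.pos _ (dvd_rfl : M₂ * q ∣ M₂ * q) d2, hTz,
      Raise.degH_smul, hz, ← pairCls_degen hq, ← pairCls_degen hq, ← pairCls_degen hq d3,
      ← pairCls_incl d0, ← Nat.cast_smul_eq_nsmul ℂ, ← pairCls_smul, ← pairCls_smul,
      ← pairCls_sub]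
    simp only [pairCls, hGdef, smul_add, smul_sub, map_smul]
    simp only [← hpml₃, map_add, map_sub, smul_comm u, smul_comm v]
    abel
  have hnull : gamOp hgood z = 0 := by
    rw [← corH_iStep hgood d0, ← hpair, ← hprop h h₁ ch e₁, ← hprop k k₁ ck e₁', pairCls_smul]
    show corH _ ((q : ℂ) • pairCls _ _ _) = 0
    rw [show ∀ y : GHom (Gamma0 (M₂ * q * q)) ℂ, corH d0 ((q : ℂ) • y) = (q : ℂ) • corH d0 y from
      fun y => corH_smul _ _ y, show corH d0 (pairCls _ (incl hd₂ h₁) (incl hd₂ k₁)) = 0 from H₂,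
      smul_zero]
  have hg1 : qCoeff ⇑g 1 = 1 := by
    rw [hg, if_neg, hf.qCoeff_one]
    exact fun ⟨r, hr, hx⟩ => (hR r hr).1.not_dvd_one hx
  have hg0 : g ≠ 0 := fun h0 => by rw [h0, qCoeff_zero_form] at hg1; exact zero_ne_one hg1
  have hb : ‖b‖ < q + 1 := by
    refine Raise.norm_eigenvalue_lt g hq.two_le ?_ ?_
    · by_contra hall
      push Not at hall
      exact hg0 (DFunLike.ext _ _ fun τ => by simpa using hall τ)
    · rw [← CuspForm.coe_heckeTLin_apply 2 hq hq₂, hTg]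
      rfl
  have hne : ((q : ℂ) - 1) * (((q : ℂ) + 1) ^ 2 - b * b) ≠ 0 := by
    refine mul_ne_zero (sub_ne_zero.mpr (by exact_mod_cast hq.one_lt.ne')) fun e => ?_
    have e2 : ‖b‖ * ‖b‖ = ((q : ℝ) + 1) ^ 2 := by
      rw [← norm_mul, ← sub_eq_zero.mp e, norm_pow]
      congr 1
      rw [show (q : ℂ) + 1 = ((q + 1 : ℕ) : ℂ) by push_cast; ring, Complex.norm_natCast]
      push_cast
      rfl
    nlinarith [norm_nonneg b]
  rw [gamOp_apply, hTz, transferHom_smul, hTz, smul_smul, ← sub_smul, smul_smul] at hnull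
  have hz0 : z = 0 := (smul_eq_zero.mp hnull).resolve_left hne
  obtain ⟨e1, e2⟩ := Fermat.Agent.Raise.periods_indep (a := u • g) (b := v • g) hz0
  have hP : P ≠ 0 := Finset.prod_ne_zero_iff.mpr fun r hr => by exact_mod_cast (hR r hr).1.ne_zero
  rw [smul_eq_zero] at e1 e2
  exact ⟨(mul_eq_zero.mp (e1.resolve_right hg0)).resolve_left hP,
    (mul_eq_zero.mp (e2.resolve_right hg0)).resolve_left hP⟩

/-- A pair of eigenforms killed by `U_q` and by the trace vanishes. -/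
theorem forms_pair_eq_zero {q N : ℕ} [NeZero q] [NeZero N] (hq : q.Prime) (hqN : ¬ q ∣ N)
    {f : CuspForm (Gamma0 N) 2} (hf : f.IsNormalizedEigenform) (R : Finset ℕ)
    (hR : ∀ r ∈ R, r.Prime ∧ r ≠ q) {a : ℕ → ℂ}
    (ha : ∀ l : ℕ, l.Prime → l ∉ R → l ≠ q → ¬ l ∣ N ∧ a l = qCoeff ⇑f l)
    {M : ℕ} [NeZero M] (hqM : ¬ q ∣ M) (hRM : ∀ r ∈ R, r ∣ M)
    {h k : CuspForm (Gamma0 (M * q * q)) 2} (H : NullPair M h k)
    (ch : EigCf R q a fun n => qCoeff ⇑h n) (ck : EigCf R q a fun n => qCoeff ⇑k n) :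
    h = 0 ∧ k = 0 := by
  have main : ∀ (n : ℕ) (h k : CuspForm (Gamma0 (M * q * q)) 2), NullPair M h k →
      EigCf R q a (fun n => qCoeff ⇑h n) → EigCf R q a (fun n => qCoeff ⇑k n) →
      qCoeff ⇑h n = 0 ∧ qCoeff ⇑k n = 0 := by
    intro n
    induction n using Nat.strong_induction_on with
    | _ n IH =>
      intro h k H ch ck
      rcases Nat.lt_or_ge n 2 with h2 | h2
      · interval_cases n
        · exact ⟨qCoeff_cusp_zero h, qCoeff_cusp_zero k⟩
        · exact first_coeff_eq_zero hq hqN hf R hR ha hqM hRM H ch ck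
      set l := n.minFac with hl'
      have hl : l.Prime := Nat.minFac_prime (by omega)
      obtain ⟨m, hm⟩ := Nat.minFac_dvd n
      rw [← hl', mul_comm] at hm
      have hm0 : 0 < m := Nat.pos_of_ne_zero fun h0 => by rw [h0, zero_mul] at hm; omega
      have hlt : m < n := hm ▸ lt_mul_right hm0 hl.one_lt
      rw [hm]
      by_cases hlq : l = q
      · rw [hlq]; exact ⟨ch.2.1 m, ck.2.1 m⟩
      by_cases hlR : l ∈ R
      · have hd : l ∣ M * q * q := ((hRM l hlR).mul_right q).mul_right q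
        have e : ∀ x : CuspForm (Gamma0 (M * q * q)) 2,
            EigCf R q a (fun n => qCoeff ⇑x n) →
              EigCf R q a fun n => qCoeff ⇑(CuspForm.heckeULin 2 hd x) n := fun x hx => by
          simp only [qCoeff_heckeULin hl hd]
          exact hx.shift hl hlR
        have := IH m hlt _ _ (H.u hl hlq hq (hRM l hlR) hd) (e h ch) (e k ck)
        rwa [qCoeff_heckeULin hl hd, qCoeff_heckeULin hl hd] at this
      · have step : ∀ c : ℕ → ℂ, EigCf R q a c → (∀ d, d < n → c d = 0) → c (m * l) = 0 :=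
          fun c hc hsm => by
          have e := hc.2.2 l hl hlR hlq m
          rw [hsm m hlt, mul_zero, hsm (m / l) (lt_of_le_of_lt (Nat.div_le_self _ _) hlt),
            mul_zero, ite_self, add_zero] at e
          exact e
        exact ⟨step _ ch fun d hd => (IH d hd h k H ch ck).1,
          step _ ck fun d hd => (IH d hd h k H ch ck).2⟩
  exact ⟨cuspForm_ext_qCoeff fun n => by rw [qCoeff_zero_form]; exact (main n h k H ch ck).1,
    cuspForm_ext_qCoeff fun n => by rw [qCoeff_zero_form]; exact (main n h k H ch ck).2⟩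

end Fermat.Agent.R59.Raised
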