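/-
S59, unit C2b: no class of level `L q²` killed by `U_q` and by the trace to level `L` has an
eigensystem of level `N ∣ L`.

Justification: an `O`-valued class is moved to `ℂ` by functionals linear over the values of the
eigensystem, where it is a pair of periods; on forms see `Raised/MultForms`.
-/
import Fermat.Agent.R59.Raised.MultForms
import Fermat.Agent.Newform.Character
import Fermat.Agent.Hecke.IntegralBasis
import Fermat.Prelude.Def_CuspForm_HeckeAlgebra

set_option autoImplicit false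
set_option linter.unusedSectionVars false
set_option linter.style.haveILetI false

noncomputable section

namespace Fermat.Agent.R59.Raised

open CongruenceSubgroup
open Fermat.Agent.Raise (GHom)
open Fermat.Agent.GalRep (GoodIndex transferHom ParHom)
open Fermat.Agent.Hecke
open scoped MatrixGroups

variable {O : Type} [CommRing O] [IsDomain O] [CharZero O]

/-- The values of a character of the Hecke algebra are those of an eigenform, and functionals to
`ℂ` linear over them separate. -/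
theorem exists_functional {N : ℕ} [NeZero N] (S : Set ℕ) (θ : CuspForm.heckeAlgebra N 2 S →+* O) :
    ∃ f : CuspForm (Gamma0 N) 2, f.IsNormalizedEigenform ∧
      ∀ v : O, v ≠ 0 → ∃ φ : O →+ ℂ, φ v ≠ 0 ∧
        ∀ (l : ℕ) (hl : l.Prime) (hlN : ¬ l ∣ N) (hlS : l ∉ S) (o : O),
          φ (θ (CuspForm.heckeAlgebra.T hl hlN hlS) * o) =
            ModularFormClass.qCoeff ⇑f l * φ o := by
  classical
  let ι : O →+* FractionRing O := algebraMap O (FractionRing O)
  have hι : Function.Injective ι := IsFractionRing.injective O (FractionRing O)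
  obtain ⟨f, χ, hf, hker, -, hfl⟩ := Newform.exists_eigenform_of_ringHom S (ι.comp θ)
  haveI := Hecke.moduleFinite_heckeAlgebra N 2 S
  haveI : Algebra.IsIntegral ℤ (CuspForm.heckeAlgebra N 2 S) := Algebra.IsIntegral.of_finite _ _
  haveI : CharZero (FractionRing O) := charZero_of_injective_algebraMap hι
  haveI : (RingHom.ker χ).IsPrime := RingHom.ker_isPrime χ
  have heq : RingHom.ker (ι.comp θ) ≤ RingHom.ker χ := fun z hz => by
    by_contra hz'
    have := Ideal.comap_lt_comap_of_integral_mem_sdiff (R := ℤ) hker ⟨hz, hz'⟩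
      (Algebra.IsIntegral.isIntegral z)
    refine this.not_ge fun n hn => ?_
    rw [Ideal.mem_comap, RingHom.mem_ker, eq_intCast, map_intCast, Int.cast_eq_zero] at hn
    subst hn
    exact zero_mem _
  have hle : RingHom.ker θ.rangeRestrict ≤ RingHom.ker χ := fun z hz => heq (by
    rw [RingHom.mem_ker] at hz ⊢
    rw [RingHom.comp_apply, show θ z = 0 from congrArg Subtype.val hz, map_zero])
  let ψ : θ.range →+* ℂ :=
    RingHom.liftOfSurjective θ.rangeRestrict θ.rangeRestrict_surjective ⟨χ, hle⟩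
  have hψ : ∀ t, ψ (θ.rangeRestrict t) = χ t := fun t =>
    RingHom.liftOfRightInverse_comp_apply _ _ _ _ t
  have hψi : Function.Injective ψ := by
    rw [injective_iff_map_eq_zero]
    intro z hz
    obtain ⟨t, rfl⟩ := θ.rangeRestrict_surjective z
    rw [hψ] at hz
    have h0 := hker (RingHom.mem_ker.mpr hz)
    rw [RingHom.mem_ker, RingHom.comp_apply] at h0
    exact Subtype.ext (hι (h0.trans (map_zero _).symm))
  let i₁ : θ.range →+* FractionRing O := ι.comp θ.range.subtype
  have hi₁ : Function.Injective i₁ := hι.comp Subtype.val_injective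
  let iK : FractionRing θ.range →+* FractionRing O := IsFractionRing.lift hi₁
  letI : Algebra (FractionRing θ.range) (FractionRing O) := iK.toAlgebra
  let ψK : FractionRing θ.range →+* ℂ := IsFractionRing.lift hψi
  refine ⟨f, hf, fun v hv => ?_⟩
  have hv' : ι v ≠ 0 := fun h => hv (hι (h.trans (map_zero _).symm))
  obtain ⟨lam, hlam⟩ : ∃ lam : Module.Dual (FractionRing θ.range) (FractionRing O),
      lam (ι v) ≠ 0 := by
    by_contra hall
    push Not at hall
    exact hv' ((Module.forall_dual_apply_eq_zero_iff (FractionRing θ.range) (ι v)).mp hall)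
  refine ⟨ψK.toAddMonoidHom.comp (lam.toAddMonoidHom.comp ι.toAddMonoidHom),
    fun h => hlam (ψK.injective (h.trans (map_zero _).symm)), fun l hl hlN hlS o => ?_⟩
  set t := CuspForm.heckeAlgebra.T hl hlN hlS
  show ψK (lam (ι (θ t * o))) = _ * ψK (lam (ι o))
  have e : ι (θ t * o) =
      (algebraMap θ.range (FractionRing θ.range) (θ.rangeRestrict t)) • ι o := by
    rw [Algebra.smul_def, map_mul]
    congr 1
    exact (IsFractionRing.lift_algebraMap (K := FractionRing θ.range) hi₁ (θ.rangeRestrict t)).symm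
  rw [e, map_smul, smul_eq_mul, map_mul,
    show ψK (algebraMap θ.range (FractionRing θ.range) (θ.rangeRestrict t)) =
      ψ (θ.rangeRestrict t) from IsFractionRing.lift_algebraMap hψi _, hψ, hfl l hl hlN hlS]

/-- The vanishing for complex classes. -/
theorem eq_zero_complex {N L q : ℕ} [NeZero N] [NeZero L] [NeZero q] (hq : q.Prime)
    (hqL : ¬ q ∣ L) (hNL : N ∣ L) (S : Finset ℕ)
    (hS : ∀ l : ℕ, l.Prime → l ∣ L * q * q → l ∈ S)
    {f : CuspForm (Gamma0 N) 2} (hf : f.IsNormalizedEigenform)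
    (y : GHom (Gamma0 (L * q * q)) ℂ) (hy : y ∈ ParHom (L * q * q) ℂ)
    (heig : ∀ (l : ℕ) (hg : GoodIndex (L * q * q) l), l ∉ S →
      transferHom hg y = ModularFormClass.qCoeff ⇑f l • y)
    (hqd : q ∣ L * q * q) (hU : uEnd hq hqd y = 0)
    (hd : L ∣ L * q * q) (hcor : corH hd y = 0) : y = 0 := by
  classical
  obtain ⟨u, w, huw⟩ := NewVec.exists_periods (⟨y, hy⟩ : ParHom (L * q * q) ℂ)
  have e : y = pairCls (L * q * q) u w := congrArg Subtype.val huw
  have hzero : ∀ a b : CuspForm (Gamma0 (L * q * q)) 2, pairCls (L * q * q) a b = 0 →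
      a = 0 ∧ b = 0 := fun a b h => Fermat.Agent.Raise.periods_indep h
  obtain ⟨hUu, hUw⟩ := hzero _ _ ((pairCls_uEnd hq hqd u w).trans (e ▸ hU))
  set R := (S.filter Nat.Prime).erase q with hRdef
  have hR : ∀ r ∈ R, r.Prime ∧ r ≠ q := fun r hr =>
    ⟨(Finset.mem_filter.mp (Finset.mem_of_mem_erase hr)).2, Finset.ne_of_mem_erase hr⟩
  have hout : ∀ l : ℕ, l.Prime → l ∉ R → l ≠ q → l ∉ S ∧ ¬ l ∣ L * q * q := fun l hl hlR hlq => by
    have h1 : l ∉ S := fun hx =>
      hlR (Finset.mem_erase.mpr ⟨hlq, Finset.mem_filter.mpr ⟨hx, hl⟩⟩)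
    exact ⟨h1, fun hx => h1 (hS l hl hx)⟩
  have ha : ∀ l : ℕ, l.Prime → l ∉ R → l ≠ q → ¬ l ∣ N ∧
      ModularFormClass.qCoeff ⇑f l = ModularFormClass.qCoeff ⇑f l := fun l hl hlR hlq =>
    ⟨fun hx => (hout l hl hlR hlq).2 (((hx.trans hNL).mul_right q).mul_right q), rfl⟩
  have hT : ∀ (l : ℕ) (hl : l.Prime), l ∉ R → l ≠ q → ∃ hlM : ¬ l ∣ L * q * q,
      CuspForm.heckeTLin 2 hl hlM u = ModularFormClass.qCoeff ⇑f l • u ∧
      CuspForm.heckeTLin 2 hl hlM w = ModularFormClass.qCoeff ⇑f l • w := fun l hl hlR hlq => by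
    obtain ⟨hlS, hlM⟩ := hout l hl hlR hlq
    refine ⟨hlM, ?_⟩
    have h1 := heig l ⟨hl, hlM⟩ hlS
    rw [e, ← pairCls_smul] at h1
    have h2 : pairCls (L * q * q) (CuspForm.heckeTLin 2 hl hlM u)
        (CuspForm.heckeTLin 2 hl hlM w) = transferHom ⟨hl, hlM⟩ (pairCls (L * q * q) u w) := by
      rw [pairCls, pairCls, GalRep.transferHom_add, NewVec.transferHom_charInvolution,
        GalRep.periodMap_heckeTLin ⟨hl, hlM⟩, GalRep.periodMap_heckeTLin ⟨hl, hlM⟩]
    have h3 := hzero (CuspForm.heckeTLin 2 hl hlM u - ModularFormClass.qCoeff ⇑f l • u)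
      (CuspForm.heckeTLin 2 hl hlM w - ModularFormClass.qCoeff ⇑f l • w)
      (by rw [pairCls_sub, h2, h1, sub_self])
    exact ⟨sub_eq_zero.mp h3.1, sub_eq_zero.mp h3.2⟩
  have ch := EigCf.of_eigen (R := R) hq hqd u hUu fun l hl hlR hlq =>
    let ⟨hlM, h1, _⟩ := hT l hl hlR hlq; ⟨hlM, h1⟩
  have ck := EigCf.of_eigen (R := R) hq hqd w hUw fun l hl hlR hlq =>
    let ⟨hlM, _, h2⟩ := hT l hl hlR hlq; ⟨hlM, h2⟩
  have H : NullPair L u w := (e ▸ hcor :)
  set P := ∏ r ∈ R, r with hPdef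
  haveI : NeZero (L * P) := ⟨mul_ne_zero (NeZero.ne L)
    (Finset.prod_ne_zero_iff.mpr fun r hr => (hR r hr).1.ne_zero)⟩
  have hqP : ¬ q ∣ L * P := fun hx => by
    rcases hq.dvd_mul.mp hx with h | h
    · exact hqL h
    · obtain ⟨r, hr, hqr⟩ := (Prime.dvd_finsetProd_iff hq.prime _).mp h
      exact (hR r hr).2 ((Nat.prime_dvd_prime_iff_eq hq (hR r hr).1).mp hqr).symm
  have hd' : L * q * q ∣ L * P * q * q :=
    mul_dvd_mul_right (mul_dvd_mul_right (dvd_mul_right L P) q) q
  obtain ⟨h1, h2⟩ := forms_pair_eq_zero (M := L * P) hq (fun hx => hqL (hx.trans hNL)) hf R hR ha hqP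
    (fun r hr => dvd_mul_of_dvd_right (Finset.dvd_prod_of_mem _ hr) L)
    (H.incl' hq (dvd_mul_right L P) hqP hd')
    (by simpa only [Newform.qCoeff_incl] using ch) (by simpa only [Newform.qCoeff_incl] using ck)
  rw [e, Newform.incl_injective hd' (h1.trans (_root_.map_zero _).symm),
    Newform.incl_injective hd' (h2.trans (_root_.map_zero _).symm)]
  obtain ⟨pml, hpml⟩ := Period.existsPeriodMapLinear (L * q * q)
  simp [pairCls, ← hpml]

/-- The trace to level `L` is injective on such eigenclasses. -/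
theorem eq_zero_of_corH_eq_zero {N L q : ℕ} [NeZero N] [NeZero L] [NeZero (L * q ^ 2)]
    (hq : q.Prime) (hqL : ¬ q ∣ L) (hNL : N ∣ L) (S : Finset ℕ)
    (hS : ∀ l : ℕ, l.Prime → l ∣ L * q ^ 2 → l ∈ S)
    (θ : CuspForm.heckeAlgebra N 2 (↑S : Set ℕ) →+* O) (χ : ℕ → O)
    (hθ : ∀ (l : ℕ) (hl : l.Prime) (hlN : ¬ l ∣ N) (hlS : l ∉ (↑S : Set ℕ)),
      θ (CuspForm.heckeAlgebra.T hl hlN hlS) = χ l)
    (x : GHom (Gamma0 (L * q ^ 2)) O) (hx : x ∈ ParHom (L * q ^ 2) O)
    (heig : ∀ (l : ℕ) (hg : GoodIndex (L * q ^ 2) l), l ∉ S → transferHom hg x = χ l • x)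
    (hU : uEnd hq ((dvd_pow_self q (by norm_num)).trans (dvd_mul_left _ L)) x = 0)
    (hcor : corH (dvd_mul_right L (q ^ 2)) x = 0) : x = 0 := by
  haveI : NeZero q := ⟨hq.ne_zero⟩
  have main : ∀ (L' : ℕ) [NeZero L'], L' = L * q * q →
      (∀ l : ℕ, l.Prime → l ∣ L' → l ∈ S) → ∀ (x : GHom (Gamma0 L') O), x ∈ ParHom L' O →
      (∀ (l : ℕ) (hg : GoodIndex L' l), l ∉ S → transferHom hg x = χ l • x) →
      ∀ (hqd : q ∣ L') (hd : L ∣ L'), uEnd hq hqd x = 0 → corH hd x = 0 → x = 0 := by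
    intro L' _ e hS x hx heig hqd hd hU hcor
    subst e
    obtain ⟨f, hf, hsep⟩ := exists_functional (↑S : Set ℕ) θ
    refine AddMonoidHom.ext fun t => ?_
    by_contra ht
    obtain ⟨φ, hφ, hlin⟩ := hsep (x t) ht
    refine hφ (DFunLike.congr_fun (eq_zero_complex hq hqL hNL S hS hf (φ.comp x) ?_ ?_ hqd ?_ hd ?_) t)
    · intro γ hγ
      rw [AddMonoidHom.comp_apply, hx γ hγ, map_zero]
    · intro l hg hlS
      have hlN : ¬ l ∣ N := fun h => hg.not_dvd (((h.trans hNL).mul_right q).mul_right q)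
      rw [GalRep.transferHom_comp hg φ x, heig l hg hlS,
        ← hθ l hg.prime hlN (by simpa using hlS)]
      exact AddMonoidHom.ext fun s => hlin l hg.prime hlN (by simpa using hlS) (x s)
    · exact ((isFam_uL hq hqd (dvd_mul_right _ q) hqd).trans_comp_coeff φ x).trans
        (by rw [show (isFam_uL hq hqd (dvd_mul_right _ q) hqd).trans x = 0 from hU,
          AddMonoidHom.comp_zero])
    · letI := Fintype.ofFinite (Cosets L (L * q * q))
      exact ((isFam_corH hd).trans_comp_coeff φ x).trans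
        (by rw [show (isFam_corH hd).trans x = 0 from hcor, AddMonoidHom.comp_zero])
  exact main _ (by ring) hS x hx heig _ _ hU hcor

end Fermat.Agent.R59.Raised
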